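import Mathlib
import Fermat.Prelude.Def_GaloisRep_DeformationRingData
import Fermat.Prelude.Def_GaloisRep_DeformationCondition

set_option autoImplicit false

namespace Fermat.Agent.UDef

open Matrix IsLocalRing
open scoped TensorProduct

/-- The absolute Galois group of `ℚ`. -/
abbrev GalQ := (AlgebraicClosure ℚ ≃ₐ[ℚ] AlgebraicClosure ℚ)

section Adic

variable {A : Type} [CommRing A] [IsLocalRing A]

/-- `M` is a matrix model of `ρ`. -/
def IsModel (ρ : GaloisRepAdic A) (M : GalQ →* Matrix (Fin 2) (Fin 2) A) : Prop :=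
  ∃ b : Module.Basis (Fin 2) A ρ.V, ∀ σ, LinearMap.toMatrix b b (ρ.ρ σ) = M σ

/-- Continuity for matrix representations. -/
def MCont (M : GalQ →* Matrix (Fin 2) (Fin 2) A) : Prop :=
  ∀ n : ℕ, ∃ L : IntermediateField ℚ (AlgebraicClosure ℚ), FiniteDimensional ℚ L ∧
    ∀ σ : GalQ, (∀ x ∈ L, σ x = x) → ∀ i j, (M σ - 1) i j ∈ maximalIdeal A ^ n

omit [IsLocalRing A] in
theorem mem_smul_top_iff {V : Type*} [AddCommGroup V] [Module A V] (b : Module.Basis (Fin 2) A V)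
    (I : Ideal A) (v : V) : v ∈ I • (⊤ : Submodule A V) ↔ ∀ i, b.repr v i ∈ I := by
  constructor
  · intro hv
    refine Submodule.smul_induction_on hv ?_ ?_
    · intro a ha x _ i
      rw [map_smul, Finsupp.smul_apply, smul_eq_mul]
      exact Ideal.mul_mem_right _ _ ha
    · intro x y hx hy i
      rw [map_add, Finsupp.add_apply]
      exact Ideal.add_mem _ (hx i) (hy i)
  · intro h
    rw [← b.sum_repr v]
    exact Submodule.sum_mem _ fun i _ => Submodule.smul_mem_smul (h i) Submodule.mem_top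

theorem exists_model (ρ : GaloisRepAdic A) : ∃ M, IsModel ρ M := by
  let b := Module.finBasisOfFinrankEq A ρ.V ρ.finrank_eq
  refine ⟨{ toFun := fun σ => LinearMap.toMatrix b b (ρ.ρ σ)
            map_one' := ?_
            map_mul' := ?_ }, b, fun σ => rfl⟩
  · rw [map_one]
    exact LinearMap.toMatrix_one b
  · intro σ τ
    rw [map_mul]
    exact LinearMap.toMatrix_mul b _ _

theorem IsModel.mcont {ρ : GaloisRepAdic A} {M : GalQ →* Matrix (Fin 2) (Fin 2) A}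
    (h : IsModel ρ M) : MCont M := by
  obtain ⟨b, hb⟩ := h
  intro n
  obtain ⟨L, hL, h1⟩ := ρ.isAdicContinuous n
  refine ⟨L, hL, fun σ hσ i j => ?_⟩
  have h2 := (mem_smul_top_iff b _ _).mp (h1 σ hσ (b j)) i
  rw [map_sub, Finsupp.sub_apply, b.repr_self] at h2
  rw [Matrix.sub_apply, ← hb, LinearMap.toMatrix_apply]
  convert h2 using 2
  rw [Matrix.one_apply, Finsupp.single_apply]
  simp [eq_comm]

/-- The representation attached to a matrix representation. -/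
noncomputable def ofMatrix (M : GalQ →* Matrix (Fin 2) (Fin 2) A) (hM : MCont M) :
    GaloisRepAdic A where
  V := Fin 2 → A
  finrank_eq := by simp
  ρ := (Matrix.toLinAlgEquiv' : Matrix (Fin 2) (Fin 2) A ≃ₐ[A] _).toAlgHom.toRingHom.toMonoidHom.comp M
  isAdicContinuous := by
    intro n
    obtain ⟨L, hL, h1⟩ := hM n
    refine ⟨L, hL, fun σ hσ v => ?_⟩
    rw [mem_smul_top_iff (Pi.basisFun A (Fin 2))]
    intro i
    have h2 : (Pi.basisFun A (Fin 2)).repr (Matrix.mulVec (M σ) v - v) i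
        = ((M σ - 1).mulVec v) i := by
      rw [Matrix.sub_mulVec, Matrix.one_mulVec, Pi.basisFun_repr]
    change (Pi.basisFun A (Fin 2)).repr (Matrix.mulVec (M σ) v - v) i ∈ _
    rw [h2]
    simp only [Matrix.mulVec, dotProduct]
    exact Ideal.sum_mem _ fun j _ => Ideal.mul_mem_right _ _ (h1 σ hσ i j)

theorem isModel_ofMatrix (M : GalQ →* Matrix (Fin 2) (Fin 2) A) (hM : MCont M) :
    IsModel (ofMatrix M hM) M := by
  refine ⟨Pi.basisFun A (Fin 2), fun σ => ?_⟩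
  change LinearMap.toMatrix' (Matrix.toLin' (M σ)) = M σ
  simp

theorem IsModel.trace {ρ : GaloisRepAdic A} {M : GalQ →* Matrix (Fin 2) (Fin 2) A}
    (h : IsModel ρ M) (σ : GalQ) : ρ.trace σ = (M σ).trace := by
  obtain ⟨b, hb⟩ := h
  rw [← hb, GaloisRepAdic.trace, LinearMap.trace_eq_matrix_trace A b]

theorem IsModel.isEquiv {ρ ρ' : GaloisRepAdic A} {M M' : GalQ →* Matrix (Fin 2) (Fin 2) A}
    (h : IsModel ρ M) (h' : IsModel ρ' M') (P : Matrix (Fin 2) (Fin 2) A) (hP : IsUnit P)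
    (hPM : ∀ σ, P * M σ = M' σ * P) : ρ.IsEquiv ρ' := by
  obtain ⟨b, hb⟩ := h
  obtain ⟨b', hb'⟩ := h'
  obtain ⟨Q, hPQ, hQP⟩ := isUnit_iff_exists.mp hP
  let e : ρ.V ≃ₗ[A] ρ'.V := LinearEquiv.ofLinearMap (Matrix.toLin b b' P) (Matrix.toLin b' b Q)
    (by rw [← Matrix.toLin_mul, hPQ, Matrix.toLin_one]) (by rw [← Matrix.toLin_mul, hQP, Matrix.toLin_one])
  refine ⟨{ toLinearEquiv := e, map_apply := fun σ x => ?_ }⟩
  have h1 : Matrix.toLin b b' P ∘ₗ (ρ.ρ σ) = (ρ'.ρ σ) ∘ₗ Matrix.toLin b b' P := by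
    apply (LinearMap.toMatrix b b').injective
    rw [LinearMap.toMatrix_comp b b b', LinearMap.toMatrix_comp b b' b', LinearMap.toMatrix_toLin, hb,
      hb', hPM]
  exact LinearMap.congr_fun h1 x

theorem IsModel.exists_conj {ρ ρ' : GaloisRepAdic A} {M M' : GalQ →* Matrix (Fin 2) (Fin 2) A}
    (h : IsModel ρ M) (h' : IsModel ρ' M') (he : ρ.IsEquiv ρ') :
    ∃ P : Matrix (Fin 2) (Fin 2) A, IsUnit P ∧ ∀ σ, P * M σ = M' σ * P := by
  obtain ⟨b, hb⟩ := h
  obtain ⟨b', hb'⟩ := h'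
  obtain ⟨e⟩ := he
  refine ⟨LinearMap.toMatrix b b' e.toLinearEquiv.toLinearMap,
    isUnit_iff_exists.mpr ⟨LinearMap.toMatrix b' b e.toLinearEquiv.symm.toLinearMap, ?_, ?_⟩,
    fun σ => ?_⟩
  · rw [← LinearMap.toMatrix_comp, LinearEquiv.comp_symm, LinearMap.toMatrix_id]
  · rw [← LinearMap.toMatrix_comp, LinearEquiv.symm_comp, LinearMap.toMatrix_id]
  · rw [← hb, ← hb', ← LinearMap.toMatrix_comp, ← LinearMap.toMatrix_comp]
    congr 1
    ext x
    exact e.map_apply σ x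

theorem IsModel.of_conj {ρ : GaloisRepAdic A} {M M' : GalQ →* Matrix (Fin 2) (Fin 2) A}
    (h : IsModel ρ M) (P : Matrix (Fin 2) (Fin 2) A) (hP : IsUnit P)
    (hPM : ∀ σ, P * M σ = M' σ * P) : IsModel ρ M' := by
  obtain ⟨b, hb⟩ := h
  obtain ⟨Q, hPQ, hQP⟩ := isUnit_iff_exists.mp hP
  let e : ρ.V ≃ₗ[A] (Fin 2 → A) := LinearEquiv.ofLinearMap
    (Matrix.toLin b (Pi.basisFun A (Fin 2)) P) (Matrix.toLin (Pi.basisFun A (Fin 2)) b Q)
    (by rw [← Matrix.toLin_mul, hPQ, Matrix.toLin_one]) (by rw [← Matrix.toLin_mul, hQP, Matrix.toLin_one])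
  have he : e.toLinearMap = Matrix.toLin b (Pi.basisFun A (Fin 2)) P := rfl
  have he' : e.symm.toLinearMap = Matrix.toLin (Pi.basisFun A (Fin 2)) b Q := rfl
  refine ⟨(Pi.basisFun A (Fin 2)).map e.symm, fun σ => ?_⟩
  have h1 : LinearMap.toMatrix ((Pi.basisFun A (Fin 2)).map e.symm)
      ((Pi.basisFun A (Fin 2)).map e.symm) (ρ.ρ σ) =
      LinearMap.toMatrix (Pi.basisFun A (Fin 2)) (Pi.basisFun A (Fin 2))
        (e.toLinearMap ∘ₗ (ρ.ρ σ) ∘ₗ e.symm.toLinearMap) := by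
    ext i j
    simp [LinearMap.toMatrix_apply]
  rw [h1, he, he', LinearMap.toMatrix_comp _ b _, LinearMap.toMatrix_comp _ b _,
    LinearMap.toMatrix_toLin, LinearMap.toMatrix_toLin, hb, ← mul_assoc, hPM, mul_assoc, hPQ,
    mul_one]

theorem IsModel.of_isEquiv {ρ ρ' : GaloisRepAdic A} {M : GalQ →* Matrix (Fin 2) (Fin 2) A}
    (h : IsModel ρ M) (he : ρ.IsEquiv ρ') : IsModel ρ' M := by
  obtain ⟨b, hb⟩ := h
  obtain ⟨e⟩ := he
  refine ⟨b.map e.toLinearEquiv, fun σ => ?_⟩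
  rw [← hb]
  ext i j
  simp only [LinearMap.toMatrix_apply, Module.Basis.map_apply, Module.Basis.map_repr,
    LinearEquiv.trans_apply]
  rw [← e.map_apply, LinearEquiv.symm_apply_apply]

/-- Entrywise image of a matrix representation. -/
noncomputable def mapRep {A B : Type*} [CommRing A] [CommRing B] (φ : A →+* B)
    (M : GalQ →* Matrix (Fin 2) (Fin 2) A) : GalQ →* Matrix (Fin 2) (Fin 2) B :=
  φ.mapMatrix.toMonoidHom.comp M

@[simp] theorem mapRep_apply {A B : Type*} [CommRing A] [CommRing B] (φ : A →+* B)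
    (M : GalQ →* Matrix (Fin 2) (Fin 2) A) (σ : GalQ) : mapRep φ M σ = (M σ).map φ := rfl

theorem IsModel.baseChangeAlong {B : Type} [CommRing B] [IsLocalRing B] {ρ : GaloisRepAdic A}
    {M : GalQ →* Matrix (Fin 2) (Fin 2) A} (h : IsModel ρ M) (φ : A →+* B) (hφ : IsLocalHom φ) :
    IsModel (ρ.baseChangeAlong φ hφ) (mapRep φ M) := by
  obtain ⟨b, hb⟩ := h
  let _ : Algebra A B := φ.toAlgebra
  refine ⟨Algebra.TensorProduct.basis B b, fun σ => ?_⟩
  change LinearMap.toMatrix (Algebra.TensorProduct.basis B b) (Algebra.TensorProduct.basis B b)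
    ((ρ.ρ σ).baseChange B) = _
  rw [LinearMap.toMatrix_baseChange, hb]
  rfl

end Adic

section Residual

variable {k : Type} [Field k]

/-- `M` is a matrix model of the residual representation `ρ`. -/
def IsModelR (ρ : ResidualGaloisRep k) (M : GalQ →* Matrix (Fin 2) (Fin 2) k) : Prop :=
  ∃ b : Module.Basis (Fin 2) k ρ.V, ∀ σ, LinearMap.toMatrix b b (ρ.ρ σ) = M σ

theorem IsModelR.toAdic {ρ : ResidualGaloisRep k} {M : GalQ →* Matrix (Fin 2) (Fin 2) k}
    (h : IsModelR ρ M) : IsModel (GaloisRepAdic.ofResidualGaloisRep ρ) M := h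

theorem exists_modelR (ρ : ResidualGaloisRep k) : ∃ M, IsModelR ρ M :=
  exists_model (GaloisRepAdic.ofResidualGaloisRep ρ)

theorem IsModelR.isEquiv {ρ ρ' : ResidualGaloisRep k} {M M' : GalQ →* Matrix (Fin 2) (Fin 2) k}
    (h : IsModelR ρ M) (h' : IsModelR ρ' M') (P : Matrix (Fin 2) (Fin 2) k) (hP : IsUnit P)
    (hPM : ∀ σ, P * M σ = M' σ * P) : ρ.IsEquiv ρ' := by
  obtain ⟨e⟩ := h.toAdic.isEquiv h'.toAdic P hP hPM
  exact ⟨⟨e.toLinearEquiv, e.map_apply⟩⟩

theorem IsModelR.exists_conj {ρ ρ' : ResidualGaloisRep k} {M M' : GalQ →* Matrix (Fin 2) (Fin 2) k}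
    (h : IsModelR ρ M) (h' : IsModelR ρ' M') (he : ρ.IsEquiv ρ') :
    ∃ P : Matrix (Fin 2) (Fin 2) k, IsUnit P ∧ ∀ σ, P * M σ = M' σ * P := by
  obtain ⟨e⟩ := he
  exact h.toAdic.exists_conj h'.toAdic ⟨⟨e.toLinearEquiv, e.map_apply⟩⟩

theorem IsModelR.baseChangeAlong {k' : Type} [Field k'] {ρ : ResidualGaloisRep k}
    {M : GalQ →* Matrix (Fin 2) (Fin 2) k} (h : IsModelR ρ M) (φ : k →+* k') :
    IsModelR (ρ.baseChangeAlong φ) (mapRep φ M) := by
  obtain ⟨b, hb⟩ := h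
  let _ : Algebra k k' := φ.toAlgebra
  refine ⟨Algebra.TensorProduct.basis k' b, fun σ => ?_⟩
  change LinearMap.toMatrix (Algebra.TensorProduct.basis k' b) (Algebra.TensorProduct.basis k' b)
    ((ρ.ρ σ).baseChange k') = _
  rw [LinearMap.toMatrix_baseChange, hb]
  rfl

theorem IsModelR.baseChange {k' : Type} [Field k'] [Algebra k k'] {ρ : ResidualGaloisRep k}
    {M : GalQ →* Matrix (Fin 2) (Fin 2) k} (h : IsModelR ρ M) :
    IsModelR (ρ.baseChange k') (mapRep (algebraMap k k') M) := by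
  obtain ⟨b, hb⟩ := h
  refine ⟨Algebra.TensorProduct.basis k' b, fun σ => ?_⟩
  change LinearMap.toMatrix (Algebra.TensorProduct.basis k' b) (Algebra.TensorProduct.basis k' b)
    ((ρ.ρ σ).baseChange k') = _
  rw [LinearMap.toMatrix_baseChange, hb]
  rfl

theorem IsModel.residual {A : Type} [CommRing A] [IsLocalRing A] {ρ : GaloisRepAdic A}
    {M : GalQ →* Matrix (Fin 2) (Fin 2) A} (h : IsModel ρ M) :
    IsModelR ρ.residual (mapRep (residue A) M) := by
  obtain ⟨b, hb⟩ := h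
  refine ⟨Algebra.TensorProduct.basis (ResidueField A) b, fun σ => ?_⟩
  change LinearMap.toMatrix (Algebra.TensorProduct.basis (ResidueField A) b)
    (Algebra.TensorProduct.basis (ResidueField A) b) ((ρ.ρ σ).baseChange (ResidueField A)) = _
  rw [LinearMap.toMatrix_baseChange, hb]
  rfl

end Residual

end Fermat.Agent.UDef
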