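import Mathlib

set_option autoImplicit false

namespace Fermat.Agent.UDef

open Matrix

theorem mul_mul_eq_trace_smul {K : Type*} [CommRing K] (B X : Matrix (Fin 2) (Fin 2) K) :
    B * X * B = (B * X).trace • B - B.det • X.adjugate := by
  ext i j
  fin_cases i <;> fin_cases j <;>
    simp [Matrix.mul_apply, Fin.sum_univ_two, Matrix.trace, Matrix.det_fin_two,
      Matrix.adjugate_fin_two] <;> ring

/-- Any linear functional on matrices is of the form `X ↦ tr (B X)`. -/
theorem exists_trace_repr {K : Type*} [CommRing K] {n : Type*} [Fintype n] [DecidableEq n]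
    (f : Matrix n n K →ₗ[K] K) : ∃ B : Matrix n n K, ∀ X, f X = (B * X).trace := by
  refine ⟨Matrix.of fun j i => f (Matrix.single i j 1), fun X => ?_⟩
  conv_lhs => rw [Matrix.matrix_eq_sum_single X]
  simp only [map_sum]
  rw [Matrix.trace, Finset.sum_comm]
  refine Finset.sum_congr rfl fun j _ => ?_
  rw [Matrix.diag_apply, Matrix.mul_apply]
  refine Finset.sum_congr rfl fun i _ => ?_
  have : Matrix.single i j (X i j) = X i j • Matrix.single i j (1 : K) := by
    rw [Matrix.smul_single, smul_eq_mul, mul_one]
  rw [this, map_smul, Matrix.of_apply, smul_eq_mul, mul_comm]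

/-- Burnside's theorem for `2 × 2` matrices over an algebraically closed field, in matrix form. -/
theorem burnside_two {K : Type*} [Field K] [IsAlgClosed K] {G : Type*} [Monoid G]
    (M : G →* Matrix (Fin 2) (Fin 2) K)
    (hirr : ∀ W : Submodule K (Fin 2 → K), (∀ g, ∀ x ∈ W, (M g).mulVec x ∈ W) → W = ⊥ ∨ W = ⊤) :
    Submodule.span K (Set.range M) = ⊤ := by
  classical
  by_contra hne
  obtain ⟨f, hf0, hf⟩ := Submodule.exists_le_ker_of_lt_top _ (lt_top_iff_ne_top.mpr hne)
  obtain ⟨B, hB⟩ := exists_trace_repr f
  have hB0 : B ≠ 0 := by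
    rintro rfl
    apply hf0
    ext X
    simp [hB]
  have hBM : ∀ g, (B * M g).trace = 0 := fun g => by
    rw [← hB]
    exact hf (Submodule.subset_span ⟨g, rfl⟩)
  -- find a singular one
  obtain ⟨C, hC0, hCdet, hCM⟩ : ∃ C : Matrix (Fin 2) (Fin 2) K, C ≠ 0 ∧ C.det = 0 ∧
      ∀ g, (C * M g).trace = 0 := by
    by_cases hdet : B.det = 0
    · exact ⟨B, hB0, hdet, hBM⟩
    · -- some `M g` is not scalar
      obtain ⟨g, hg⟩ : ∃ g, ∀ c : K, M g ≠ c • (1 : Matrix (Fin 2) (Fin 2) K) := by
        by_contra hcon
        push Not at hcon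
        rcases hirr (K ∙ (Pi.single 0 1 : Fin 2 → K)) (fun g x hx => by
          obtain ⟨c, hc⟩ := hcon g
          rw [hc, Matrix.smul_mulVec, Matrix.one_mulVec]
          exact Submodule.smul_mem _ _ hx) with h | h
        · rw [Submodule.span_singleton_eq_bot] at h
          have := congrFun h 0
          simp at this
        · have h1 : (Pi.single 1 1 : Fin 2 → K) ∈ (K ∙ (Pi.single 0 1 : Fin 2 → K)) := by
            rw [h]; exact Submodule.mem_top
          rw [Submodule.mem_span_singleton] at h1
          obtain ⟨c, hc⟩ := h1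
          have := congrFun hc 1
          simp at this
      obtain ⟨c, hc⟩ := IsAlgClosed.exists_root (M g).charpoly
        (by rw [Matrix.charpoly_degree_eq_dim]; simp)
      have hdet0 : (Matrix.scalar (Fin 2) c - M g).det = 0 := by
        rw [← Matrix.eval_charpoly]
        exact hc
      refine ⟨B * (Matrix.scalar (Fin 2) c - M g), ?_, ?_, ?_⟩
      · intro h
        have hu : IsUnit B := by
          rw [Matrix.isUnit_iff_isUnit_det]
          exact isUnit_iff_ne_zero.mpr hdet
        have := hu.mul_right_eq_zero.mp h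
        apply hg c
        rw [sub_eq_zero] at this
        rw [← this]
        ext i j
        simp [Matrix.scalar_apply, Matrix.diagonal_apply, Matrix.one_apply]
      · rw [Matrix.det_mul, hdet0, mul_zero]
      · intro h
        rw [mul_assoc, sub_mul, ← map_mul, mul_sub, Matrix.trace_sub, hBM, sub_zero]
        have : (Matrix.scalar (Fin 2) c * M h) = c • M h := by
          ext i j
          simp [Matrix.scalar_apply]
        rw [this, Matrix.mul_smul, Matrix.trace_smul, hBM, smul_zero]
  -- now the invariant subspace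
  let W : Submodule K (Fin 2 → K) := ⨅ g, LinearMap.ker ((C * M g).mulVecLin)
  have hW : ∀ x, x ∈ W ↔ ∀ g, (C * M g).mulVec x = 0 := fun x => by
    simp only [W, Submodule.mem_iInf, LinearMap.mem_ker, Matrix.mulVecLin_apply]
  rcases hirr W (fun g x hx => by
    rw [hW] at hx ⊢
    intro h
    rw [Matrix.mulVec_mulVec, mul_assoc, ← map_mul]
    exact hx _) with h | h
  · apply hC0
    ext i j
    have : C.mulVec (Pi.single j 1) ∈ W := by
      rw [hW]
      intro g
      rw [Matrix.mulVec_mulVec, mul_mul_eq_trace_smul, hCdet, hCM, zero_smul, zero_smul, sub_zero,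
        Matrix.zero_mulVec]
    rw [h, Submodule.mem_bot] at this
    have h2 := congrFun this i
    simpa using h2
  · apply hC0
    ext i j
    have : (Pi.single j 1 : Fin 2 → K) ∈ W := by rw [h]; exact Submodule.mem_top
    rw [hW] at this
    have h2 := congrFun (this 1) i
    simpa using h2

end Fermat.Agent.UDef
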