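import Mathlib
import Fermat.Agent.DefRing.Burnside
import Fermat.Agent.DefRing.Dictionary

set_option autoImplicit false

namespace Fermat.Agent.UDef

open Matrix IsLocalRing

/-- Irreducibility of a residual representation in terms of a matrix model. -/
theorem IsModelR.irreducible {K : Type} [Field K] {ρ : ResidualGaloisRep K}
    {M : GalQ →* Matrix (Fin 2) (Fin 2) K} (h : IsModelR ρ M) (hirr : ρ.IsIrreducible)
    (W : Submodule K (Fin 2 → K)) (hW : ∀ g, ∀ x ∈ W, (M g).mulVec x ∈ W) : W = ⊥ ∨ W = ⊤ := by
  obtain ⟨b, hb⟩ := h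
  have key : ∀ g (x : ρ.V), b.equivFun (ρ.ρ g x) = (M g).mulVec (b.equivFun x) := by
    intro g x
    rw [← hb, Module.Basis.equivFun_apply, Module.Basis.equivFun_apply]
    exact (LinearMap.toMatrix_mulVec_repr b b (ρ.ρ g) x).symm
  rcases hirr (W.comap b.equivFun.toLinearMap) (fun g x hx => by
    rw [Submodule.mem_comap] at hx ⊢
    change b.equivFun (ρ.ρ g x) ∈ W
    rw [key]
    exact hW g _ hx) with h1 | h1
  · left
    rw [eq_bot_iff]
    intro x hx
    have h2 : b.equivFun.symm x ∈ W.comap b.equivFun.toLinearMap := by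
      rw [Submodule.mem_comap]
      change b.equivFun (b.equivFun.symm x) ∈ W
      rwa [LinearEquiv.apply_symm_apply]
    rw [h1, Submodule.mem_bot, LinearEquiv.map_eq_zero_iff] at h2
    rw [h2]; exact Submodule.zero_mem _
  · right
    rw [eq_top_iff]
    intro x _
    have h2 : b.equivFun.symm x ∈ W.comap b.equivFun.toLinearMap := by rw [h1]; trivial
    rw [Submodule.mem_comap] at h2
    change b.equivFun (b.equivFun.symm x) ∈ W at h2
    rwa [LinearEquiv.apply_symm_apply] at h2

/-- Absolutely irreducible representations span the full matrix algebra. -/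
theorem span_of_absIrr {k : Type} [Field k] {ρ : ResidualGaloisRep k}
    {M : GalQ →* Matrix (Fin 2) (Fin 2) k} (h : IsModelR ρ M) (habs : ρ.IsAbsolutelyIrreducible) :
    Submodule.span k (Set.range M) = ⊤ := by
  by_contra hne
  obtain ⟨f, hf0, hf⟩ := Submodule.exists_le_ker_of_lt_top _ (lt_top_iff_ne_top.mpr hne)
  obtain ⟨B, hB⟩ := exists_trace_repr f
  have h1 := burnside_two (mapRep (algebraMap k (AlgebraicClosure k)) M)
    ((h.baseChange (k' := AlgebraicClosure k)).irreducible habs)
  have h2 : ∀ X : Matrix (Fin 2) (Fin 2) (AlgebraicClosure k),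
      ((algebraMap k (AlgebraicClosure k)).mapMatrix B * X).trace = 0 := by
    intro X
    have hX : X ∈ Submodule.span (AlgebraicClosure k)
        (Set.range (mapRep (algebraMap k (AlgebraicClosure k)) M)) := by rw [h1]; trivial
    induction hX using Submodule.span_induction with
    | mem X hX =>
      obtain ⟨g, rfl⟩ := hX
      have h3 : f (M g) = 0 := hf (Submodule.subset_span ⟨g, rfl⟩)
      rw [hB] at h3
      have h4 := congrArg (algebraMap k (AlgebraicClosure k)) h3
      rw [map_zero, Matrix.trace_fin_two, map_add] at h4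
      rw [Matrix.trace_fin_two]
      change ((algebraMap k (AlgebraicClosure k)).mapMatrix B *
        (algebraMap k (AlgebraicClosure k)).mapMatrix (M g)) 0 0 +
        ((algebraMap k (AlgebraicClosure k)).mapMatrix B *
        (algebraMap k (AlgebraicClosure k)).mapMatrix (M g)) 1 1 = 0
      rw [← map_mul]
      exact h4
    | zero => simp
    | add X Y _ _ hX hY => rw [mul_add, Matrix.trace_add, hX, hY, add_zero]
    | smul c X _ hX => rw [Matrix.mul_smul, Matrix.trace_smul, hX, smul_zero]
  apply hf0
  have hB0 : B = 0 := by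
    ext i j
    have := h2 (Matrix.single j i 1)
    rw [Matrix.trace_mul_single] at this
    apply FaithfulSMul.algebraMap_injective k (AlgebraicClosure k)
    simpa using this
  ext X
  simp [hB, hB0]

end Fermat.Agent.UDef
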