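import Mathlib

set_option autoImplicit false

namespace Fermat.Agent.UDef

open Matrix IsLocalRing

section general

variable {A : Type*} [CommRing A] [IsLocalRing A] {G : Type*} [Monoid G]

/-- The reduction of `M` modulo the maximal ideal spans the full matrix algebra. -/
def ResSpan (M : G →* Matrix (Fin 2) (Fin 2) A) : Prop :=
  Submodule.span (ResidueField A) (Set.range fun g => (M g).map (residue A)) = ⊤

omit [IsLocalRing A] in
theorem mem_smul_top_of_entries {I : Ideal A} {X : Matrix (Fin 2) (Fin 2) A}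
    (h : ∀ i j, X i j ∈ I) : X ∈ I • (⊤ : Submodule A (Matrix (Fin 2) (Fin 2) A)) := by
  rw [Matrix.matrix_eq_sum_single X]
  refine Submodule.sum_mem _ fun i _ => Submodule.sum_mem _ fun j _ => ?_
  have : Matrix.single i j (X i j) = X i j • Matrix.single i j (1 : A) := by
    rw [Matrix.smul_single, smul_eq_mul, mul_one]
  rw [this]
  exact Submodule.smul_mem_smul (h i j) Submodule.mem_top

theorem exists_lift_mem_span {G : Type*} (T : Subring A) (hTk : ∀ a : A, ∃ t ∈ T, a - t ∈ maximalIdeal A)
    (M : G → Matrix (Fin 2) (Fin 2) A) (Y : Matrix (Fin 2) (Fin 2) (ResidueField A))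
    (hY : Y ∈ Submodule.span (ResidueField A) (Set.range fun g => (M g).map (residue A))) :
    ∃ X ∈ Submodule.span T (Set.range M), X.map (residue A) = Y := by
  induction hY using Submodule.span_induction with
  | mem Y hY =>
    obtain ⟨g, rfl⟩ := hY
    exact ⟨M g, Submodule.subset_span ⟨g, rfl⟩, rfl⟩
  | zero => exact ⟨0, Submodule.zero_mem _, by ext i j; simp⟩
  | add Y₁ Y₂ _ _ h₁ h₂ =>
    obtain ⟨X₁, hX₁, rfl⟩ := h₁
    obtain ⟨X₂, hX₂, rfl⟩ := h₂
    exact ⟨X₁ + X₂, Submodule.add_mem _ hX₁ hX₂, by ext i j; simp⟩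
  | smul c Y _ h =>
    obtain ⟨X, hX, rfl⟩ := h
    obtain ⟨a, rfl⟩ := IsLocalRing.residue_surjective c
    obtain ⟨t, ht, hat⟩ := hTk a
    refine ⟨(⟨t, ht⟩ : T) • X, Submodule.smul_mem _ _ hX, ?_⟩
    have h1 : residue A a = residue A t := by
      rw [← sub_eq_zero, ← map_sub]
      exact (residue_eq_zero_iff _).mpr hat
    ext i j
    rw [h1]
    simp [Subring.smul_def]

theorem ResSpan.span_eq_top {M : G →* Matrix (Fin 2) (Fin 2) A} (h : ResSpan M) :
    Submodule.span A (Set.range M) = ⊤ := by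
  rw [eq_top_iff]
  refine Submodule.le_of_le_smul_of_le_jacobson_bot (I := maximalIdeal A) Module.Finite.fg_top
    (IsLocalRing.maximalIdeal_le_jacobson _) ?_
  intro X _
  obtain ⟨Z, hZ, hZX⟩ := exists_lift_mem_span (⊤ : Subring A)
    (fun a => ⟨a, trivial, by simp⟩) M (X.map (residue A)) (by rw [h]; trivial)
  have hZ' : Z ∈ Submodule.span A (Set.range M) := by
    refine Submodule.span_induction (p := fun x _ => x ∈ Submodule.span A (Set.range M))
      (fun x hx => Submodule.subset_span hx) (Submodule.zero_mem _)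
      (fun x y _ _ hx hy => Submodule.add_mem _ hx hy)
      (fun c x _ hx => ?_) hZ
    exact Submodule.smul_mem _ (c : A) hx
  rw [Submodule.mem_sup]
  refine ⟨Z, hZ', X - Z, mem_smul_top_of_entries fun i j => ?_, by abel⟩
  have := congrFun (congrFun hZX i) j
  rw [Matrix.map_apply, Matrix.map_apply] at this
  rw [← residue_eq_zero_iff, Matrix.sub_apply, map_sub, this, sub_self]

/-- a matrix over a local ring is a unit if its reduction is injective -/
theorem isUnit_of_mulVec_res {P : Matrix (Fin 2) (Fin 2) A}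
    (h : ∀ x : Fin 2 → ResidueField A, (P.map (residue A)).mulVec x = 0 → x = 0) : IsUnit P := by
  rw [Matrix.isUnit_iff_isUnit_det]
  have h1 : (P.map (residue A)).det ≠ 0 := by
    intro h0
    obtain ⟨v, hv, hv0⟩ := Matrix.exists_mulVec_eq_zero_iff.mpr h0
    exact hv (h v hv0)
  have h2 : residue A P.det ≠ 0 := by
    rw [RingHom.map_det]
    exact h1
  by_contra hn
  exact h2 ((residue_eq_zero_iff _).mpr ((mem_maximalIdeal _).mpr hn))

/-- **Equal traces imply conjugate** over a local ring, if the residual representation spans. -/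
theorem exists_conj_of_trace_eq {M M' : G →* Matrix (Fin 2) (Fin 2) A} (h : ResSpan M)
    (h' : ResSpan M') (htr : ∀ g, (M g).trace = (M' g).trace) :
    ∃ P : Matrix (Fin 2) (Fin 2) A, IsUnit P ∧ ∀ g, P * M g = M' g * P := by
  classical
  set S : Submodule A (Matrix (Fin 2) (Fin 2) A × Matrix (Fin 2) (Fin 2) A) :=
    Submodule.span A (Set.range fun g => (M g, M' g)) with hS
  have hSmul : ∀ x ∈ S, ∀ y ∈ S, x * y ∈ S := by
    intro x hx y hy
    induction hx using Submodule.span_induction with
    | mem x hx =>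
      obtain ⟨g, rfl⟩ := hx
      induction hy using Submodule.span_induction with
      | mem y hy =>
        obtain ⟨g', rfl⟩ := hy
        refine Submodule.subset_span ⟨g * g', ?_⟩
        simp
      | zero => simp
      | add x y _ _ hx hy => rw [mul_add]; exact Submodule.add_mem _ hx hy
      | smul c x _ hx => rw [mul_smul_comm]; exact Submodule.smul_mem _ _ hx
    | zero => simp
    | add x y _ _ hx hy => rw [add_mul]; exact Submodule.add_mem _ hx hy
    | smul c x _ hx => rw [smul_mul_assoc]; exact Submodule.smul_mem _ _ hx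
  have hStr : ∀ x ∈ S, x.1.trace = x.2.trace := by
    intro x hx
    induction hx using Submodule.span_induction with
    | mem x hx => obtain ⟨g, rfl⟩ := hx; exact htr g
    | zero => simp
    | add x y _ _ hx hy => simp [hx, hy]
    | smul c x _ hx => simp [hx]
  have hfst : ∀ X, ∃ X', (X, X') ∈ S := by
    intro X
    have hX : X ∈ Submodule.span A (Set.range M) := by rw [h.span_eq_top]; trivial
    induction hX using Submodule.span_induction with
    | mem x hx => obtain ⟨g, rfl⟩ := hx; exact ⟨M' g, Submodule.subset_span ⟨g, rfl⟩⟩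
    | zero => exact ⟨0, Submodule.zero_mem _⟩
    | add x y _ _ hx hy =>
      obtain ⟨x', hx⟩ := hx
      obtain ⟨y', hy⟩ := hy
      exact ⟨x' + y', Submodule.add_mem _ hx hy⟩
    | smul c x _ hx =>
      obtain ⟨x', hx⟩ := hx
      exact ⟨c • x', Submodule.smul_mem _ c hx⟩
  have hsnd : ∀ X', ∃ X, (X, X') ∈ S := by
    intro X
    have hX : X ∈ Submodule.span A (Set.range M') := by rw [h'.span_eq_top]; trivial
    induction hX using Submodule.span_induction with
    | mem x hx => obtain ⟨g, rfl⟩ := hx; exact ⟨M g, Submodule.subset_span ⟨g, rfl⟩⟩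
    | zero => exact ⟨0, Submodule.zero_mem _⟩
    | add x y _ _ hx hy =>
      obtain ⟨x', hx⟩ := hx
      obtain ⟨y', hy⟩ := hy
      exact ⟨x' + y', Submodule.add_mem _ hx hy⟩
    | smul c x _ hx =>
      obtain ⟨x', hx⟩ := hx
      exact ⟨c • x', Submodule.smul_mem _ c hx⟩
  have hzero : ∀ X', ((0 : Matrix (Fin 2) (Fin 2) A), X') ∈ S → X' = 0 := by
    intro X' hX'
    ext i j
    obtain ⟨Y, hY⟩ := hsnd (Matrix.single j i 1)
    have := hStr _ (hSmul _ hX' _ hY)
    simp only [Prod.mk_mul_mk, zero_mul, Matrix.trace_zero] at this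
    rw [Matrix.trace_mul_comm] at this
    simpa [Matrix.trace, Matrix.mul_apply, Matrix.single_apply, Fin.sum_univ_two, ite_and]
      using this.symm
  have huniq : ∀ X X' X'', (X, X') ∈ S → (X, X'') ∈ S → X' = X'' := by
    intro X X' X'' h1 h2
    have := Submodule.sub_mem _ h1 h2
    rw [Prod.mk_sub_mk, sub_self] at this
    exact sub_eq_zero.mp (hzero _ this)
  choose θ hθ using hfst
  have hθmul : ∀ X Y, θ (X * Y) = θ X * θ Y := fun X Y =>
    huniq _ _ _ (hθ _) (hSmul _ (hθ X) _ (hθ Y))
  have hθadd : ∀ X Y, θ (X + Y) = θ X + θ Y := fun X Y =>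
    huniq _ _ _ (hθ _) (Submodule.add_mem _ (hθ X) (hθ Y))
  have hθsmul : ∀ (c : A) X, θ (c • X) = c • θ X := fun c X =>
    huniq _ _ _ (hθ _) (Submodule.smul_mem _ c (hθ X))
  have hθM : ∀ g, θ (M g) = M' g := fun g => huniq _ _ _ (hθ _) (Submodule.subset_span ⟨g, rfl⟩)
  have hθ1 : θ 1 = 1 := by
    have := hθM 1
    rwa [map_one, map_one] at this
  have hθ0 : θ 0 = 0 := by
    have := hθsmul 0 0
    simpa using this
  let F : Fin 2 → Fin 2 → Matrix (Fin 2) (Fin 2) A := fun i j => θ (Matrix.single i j 1)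
  have hFF : ∀ i j l, F i j * F j l = F i l := by
    intro i j l
    simp only [F]
    rw [← hθmul, Matrix.single_mul_single_same, mul_one]
  have hFF0 : ∀ i j l m, j ≠ l → F i j * F l m = 0 := by
    intro i j l m hjl
    simp only [F]
    rw [← hθmul, Matrix.single_mul_single_of_ne (h := hjl), hθ0]
  have hF1 : F 0 0 + F 1 1 = 1 := by
    simp only [F]
    rw [← hθadd, ← hθ1]
    congr 1
    ext i j
    fin_cases i <;> fin_cases j <;> simp [Matrix.single]
  -- `F 0 0` is nonzero mod the maximal ideal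
  have hF00 : (F 0 0).map (residue A) ≠ 0 := by
    intro h0
    have h1 : (F 1 1).map (residue A) = 0 := by
      rw [← hFF 1 0 1, ← hFF 1 0 0, Matrix.map_mul, Matrix.map_mul, h0]
      simp
    have h2 := congrArg (fun X => (X : Matrix (Fin 2) (Fin 2) A).map (residue A)) hF1
    simp only [Matrix.map_add _ (map_add (residue A)), h0, h1] at h2
    have := congrFun (congrFun h2 0) 0
    simp at this
  obtain ⟨i₀, j₀, hij⟩ : ∃ i j, residue A (F 0 0 i j) ≠ 0 := by
    by_contra hcon
    push Not at hcon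
    exact hF00 (by ext i j; simpa using hcon i j)
  let P : Matrix (Fin 2) (Fin 2) A := Matrix.of fun i l => F l 0 i j₀
  have hent : ∀ i j a b : Fin 2,
      (P * Matrix.single i j (1 : A)) a b = if j = b then P a i else 0 := by
    intro i j a b
    rw [Matrix.mul_apply]
    simp only [Matrix.single_apply, mul_ite, mul_one, mul_zero, ite_and]
    simp
  have hPE : ∀ i j, P * Matrix.single i j 1 = F i j * P := by
    intro i j
    ext a b
    rw [hent]
    have h1 : (F i j * P) a b = (F i j * F b 0) a j₀ := by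
      simp only [Matrix.mul_apply, P, Matrix.of_apply]
    rw [h1]
    by_cases hjb : j = b
    · subst hjb
      rw [hFF, if_pos rfl]
      rfl
    · rw [hFF0 _ _ _ _ hjb, if_neg hjb]
      rfl
  have hPθ : ∀ X, P * X = θ X * P := by
    intro X
    have hX : ∀ X : Matrix (Fin 2) (Fin 2) A,
        X = ∑ i, ∑ j, X i j • Matrix.single i j (1 : A) := by
      intro X
      conv_lhs => rw [Matrix.matrix_eq_sum_single X]
      refine Finset.sum_congr rfl fun i _ => Finset.sum_congr rfl fun j _ => ?_
      rw [Matrix.smul_single, smul_eq_mul, mul_one]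
    rw [hX X]
    simp only [Fin.sum_univ_two, hθadd, hθsmul, mul_add, add_mul, Matrix.mul_smul, hPE,
      Matrix.smul_mul, F]
  refine ⟨P, isUnit_of_mulVec_res ?_, fun g => by rw [hPθ, hθM]⟩
  intro x hx
  ext l
  have h1 : ((P * Matrix.single 0 l 1).map (residue A)).mulVec x = 0 := by
    rw [hPE, Matrix.map_mul, ← Matrix.mulVec_mulVec, hx, Matrix.mulVec_zero]
  have h2 := congrFun h1 i₀
  simp only [Matrix.mulVec, dotProduct, Matrix.map_apply, hent, Pi.zero_apply] at h2
  rw [Finset.sum_eq_single l] at h2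
  · rw [if_pos rfl, mul_eq_zero] at h2
    exact h2.resolve_left hij
  · intro b _ hb
    rw [if_neg (Ne.symm hb), map_zero, zero_mul]
  · simp

end general

end Fermat.Agent.UDef

namespace Fermat.Agent.UDef

open Matrix IsLocalRing

section finite

variable {A : Type*} [CommRing A]

theorem inv_mem_of_finite [Finite A] (T : Subring A) {u v : A} (hu : u ∈ T) (huv : u * v = 1) :
    v ∈ T := by
  let w : Aˣ := ⟨u, v, huv, by rw [mul_comm]; exact huv⟩
  obtain ⟨n, hn, hw⟩ := isOfFinOrder_iff_pow_eq_one.mp (isOfFinOrder_of_finite w)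
  have h1 : u ^ n = 1 := by
    have := congrArg (fun x : Aˣ => (x : A)) hw
    simpa using this
  obtain ⟨m, rfl⟩ : ∃ m, n = m + 1 := ⟨n - 1, by omega⟩
  have h2 : v = u ^ m := by
    calc v = u ^ (m + 1) * v := by rw [h1, one_mul]
      _ = u ^ m * (u * v) := by ring
      _ = u ^ m := by rw [huv, mul_one]
  rw [h2]
  exact pow_mem hu m

theorem pow_entries_mem {I : Ideal A} {X : Matrix (Fin 2) (Fin 2) A} (h : ∀ i j, X i j ∈ I) (n : ℕ) :
    ∀ i j, (X ^ n) i j ∈ I ^ n := by
  induction n with
  | zero => intro i j; simp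
  | succ n ih =>
    intro i j
    rw [pow_succ, pow_succ, Matrix.mul_apply]
    exact Ideal.sum_mem _ fun c _ => Ideal.mul_mem_mul (ih i c) (h c j)

/-- Final normal form step in Carayol's lemma. -/
theorem entries_mem_of_normal (T : Subring A) [Finite A] (S : Subring (Matrix (Fin 2) (Fin 2) A))
    (hStr : ∀ X ∈ S, X.trace ∈ T) (hE : Matrix.single 0 0 1 ∈ S)
    (X₀ : Matrix (Fin 2) (Fin 2) A) (hX₀ : X₀ ∈ S) (hX₀1 : X₀ 0 1 = 1)
    (Y₀ : Matrix (Fin 2) (Fin 2) A) (hY₀ : Y₀ ∈ S) (hY₀1 : IsUnit (Y₀ 1 0))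
    (X : Matrix (Fin 2) (Fin 2) A) (hX : X ∈ S) (i j : Fin 2) : X i j ∈ T := by
  have hE2 : (1 - Matrix.single 0 0 1 : Matrix (Fin 2) (Fin 2) A) ∈ S := S.sub_mem S.one_mem hE
  have h00 : ∀ X ∈ S, X 0 0 ∈ T := by
    intro X hX
    have := hStr _ (S.mul_mem hE hX)
    rw [Matrix.trace_single_mul] at this
    simpa using this
  have h11 : ∀ X ∈ S, X 1 1 ∈ T := by
    intro X hX
    have := T.sub_mem (hStr _ hX) (h00 X hX)
    rw [Matrix.trace_fin_two] at this
    simpa using this
  have h10 : ∀ X ∈ S, X 1 0 ∈ T := by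
    intro X hX
    have := h00 _ (S.mul_mem (S.mul_mem hX₀ hE2) hX)
    simpa [Matrix.mul_apply, Fin.sum_univ_two, hX₀1, Matrix.single_apply, Matrix.one_apply]
      using this
  have h01 : ∀ X ∈ S, X 0 1 ∈ T := by
    intro X hX
    have h1 := h00 _ (S.mul_mem (S.mul_mem hX hE2) hY₀)
    have h2 : X 0 1 * Y₀ 1 0 ∈ T := by
      simpa [Matrix.mul_apply, Fin.sum_univ_two, Matrix.single_apply, Matrix.one_apply]
        using h1
    obtain ⟨v, hv⟩ := hY₀1.exists_right_inv
    have h3 := T.mul_mem h2 (inv_mem_of_finite T (h10 _ hY₀) hv)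
    rwa [mul_assoc, hv, mul_one] at h3
  fin_cases i <;> fin_cases j
  · exact h00 X hX
  · exact h01 X hX
  · exact h10 X hX
  · exact h11 X hX

variable [IsLocalRing A] [Finite A] {G : Type*} [Monoid G]

omit [Finite A] in
theorem isUnit_of_map_residue_eq_one {P : Matrix (Fin 2) (Fin 2) A} (h : P.map (residue A) = 1) :
    IsUnit P := by
  refine isUnit_of_mulVec_res fun x hx => ?_
  rwa [h, Matrix.one_mulVec] at hx

/-- **Carayol's lemma** over a finite local ring: a representation that is residually spanning and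
whose traces lie in a subring `T` with the same residue field is conjugate, by a matrix congruent to
`1` modulo the maximal ideal, to a representation with entries in `T`. -/
theorem carayol (T : Subring A) (hTk : ∀ a : A, ∃ t ∈ T, a - t ∈ maximalIdeal A)
    (M : G →* Matrix (Fin 2) (Fin 2) A) (hM : ResSpan M) (htr : ∀ g, (M g).trace ∈ T) :
    ∃ P Q : Matrix (Fin 2) (Fin 2) A, P * Q = 1 ∧ Q * P = 1 ∧ P.map (residue A) = 1 ∧
      ∀ g i j, (P * M g * Q) i j ∈ T := by
  classical
  -- the subring `S = T-span of M`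
  have hSmul : ∀ x ∈ Submodule.span T (Set.range M), ∀ y ∈ Submodule.span T (Set.range M),
      x * y ∈ Submodule.span T (Set.range M) := by
    intro x hx y hy
    induction hx using Submodule.span_induction with
    | mem x hx =>
      obtain ⟨g, rfl⟩ := hx
      induction hy using Submodule.span_induction with
      | mem y hy =>
        obtain ⟨g', rfl⟩ := hy
        refine Submodule.subset_span ⟨g * g', ?_⟩
        simp
      | zero => simp
      | add x y _ _ hx hy => rw [mul_add]; exact Submodule.add_mem _ hx hy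
      | smul c x _ hx => rw [mul_smul_comm]; exact Submodule.smul_mem _ _ hx
    | zero => simp
    | add x y _ _ hx hy => rw [add_mul]; exact Submodule.add_mem _ hx hy
    | smul c x _ hx => rw [smul_mul_assoc]; exact Submodule.smul_mem _ _ hx
  let S : Subring (Matrix (Fin 2) (Fin 2) A) :=
    { carrier := Submodule.span T (Set.range M)
      mul_mem' := fun {a b} ha hb => hSmul a ha b hb
      one_mem' := Submodule.subset_span ⟨1, map_one M⟩
      add_mem' := fun {a b} ha hb => Submodule.add_mem _ ha hb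
      zero_mem' := Submodule.zero_mem _
      neg_mem' := fun {a} ha => Submodule.neg_mem _ ha }
  have hSM : ∀ g, M g ∈ S := fun g => Submodule.subset_span ⟨g, rfl⟩
  have hStr : ∀ X ∈ S, X.trace ∈ T := by
    change ∀ X ∈ Submodule.span T (Set.range M), X.trace ∈ T
    intro X hX
    induction hX using Submodule.span_induction with
    | mem x hx => obtain ⟨g, rfl⟩ := hx; exact htr g
    | zero => rw [Matrix.trace_zero]; exact T.zero_mem
    | add x y _ _ hx hy => rw [Matrix.trace_add]; exact T.add_mem hx hy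
    | smul c x _ hx =>
      rw [Matrix.trace_smul]
      exact T.mul_mem c.2 hx
  have hSsurj : ∀ Y : Matrix (Fin 2) (Fin 2) (ResidueField A), ∃ X ∈ S, X.map (residue A) = Y :=
    fun Y => exists_lift_mem_span T hTk M Y (by
      have := hM
      rw [ResSpan] at this
      rw [this]; trivial)
  -- the reduction map
  let f : S →+* Matrix (Fin 2) (Fin 2) (ResidueField A) :=
    ((residue A).mapMatrix).comp S.subtype
  have hf : ∀ X : S, f X = (X : Matrix (Fin 2) (Fin 2) A).map (residue A) := fun X => rfl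
  obtain ⟨N, hN⟩ := IsArtinianRing.isNilpotent_jacobson_bot (R := A)
  have hker : ∀ x ∈ RingHom.ker f, IsNilpotent x := by
    intro x hx
    refine ⟨N, ?_⟩
    rw [RingHom.mem_ker, hf] at hx
    have h1 : ∀ i j, (x : Matrix (Fin 2) (Fin 2) A) i j ∈ maximalIdeal A := by
      intro i j
      rw [← residue_eq_zero_iff]
      exact congrFun (congrFun hx i) j
    have h2 : ∀ i j, ((x : Matrix (Fin 2) (Fin 2) A) ^ N) i j = 0 := by
      intro i j
      have := pow_entries_mem h1 N i j
      rw [← IsLocalRing.jacobson_eq_maximalIdeal ⊥ bot_ne_top, hN] at this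
      simpa using this
    ext i j
    simpa using h2 i j
  obtain ⟨e, he, hfe⟩ := exists_isIdempotentElem_eq_of_ker_isNilpotent f hker
    (Matrix.single 0 0 1) (by
      obtain ⟨X, hX, hX'⟩ := hSsurj (Matrix.single 0 0 1)
      exact ⟨⟨X, hX⟩, hX'⟩) (by
      rw [IsIdempotentElem, Matrix.single_mul_single_same, mul_one])
  set E : Matrix (Fin 2) (Fin 2) A := Matrix.single 0 0 1 with hE
  have hEr : E.map (residue A) = Matrix.single 0 0 1 := by
    ext i j
    simp [E, Matrix.single_apply, apply_ite]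
  have hEE : E * E = E := by
    rw [hE, Matrix.single_mul_single_same, mul_one]
  have hee : (e : Matrix (Fin 2) (Fin 2) A) * e = e := by
    have := congrArg (Subtype.val) he.eq
    simpa using this
  have her : (e : Matrix (Fin 2) (Fin 2) A).map (residue A) = Matrix.single 0 0 1 := hfe
  set P₁ : Matrix (Fin 2) (Fin 2) A := E * e + (1 - E) * (1 - e) with hP₁
  have hP₁e : P₁ * e = E * P₁ := by
    rw [hP₁]
    have h1 : (1 - (e : Matrix (Fin 2) (Fin 2) A)) * e = 0 := by rw [sub_mul, one_mul, hee, sub_self]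
    have h2 : E * (1 - E) = 0 := by rw [mul_sub, mul_one, hEE, sub_self]
    rw [add_mul, mul_add, mul_assoc, mul_assoc, h1, hee, ← mul_assoc E E, hEE, ← mul_assoc E, h2]
    simp
  have hP₁r : P₁.map (residue A) = 1 := by
    have h0 : (residue A).mapMatrix P₁ = 1 := by
      have h1 : (residue A).mapMatrix E = Matrix.single 0 0 1 := hEr
      have h2 : (residue A).mapMatrix (e : Matrix (Fin 2) (Fin 2) A) = Matrix.single 0 0 1 := her
      rw [hP₁, map_add, map_mul, map_mul, map_sub, map_sub, map_one, h1, h2]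
      have h3 : (Matrix.single 0 0 1 : Matrix (Fin 2) (Fin 2) (ResidueField A)) *
        Matrix.single 0 0 1 = Matrix.single 0 0 1 := by rw [Matrix.single_mul_single_same, mul_one]
      rw [sub_mul, one_mul, mul_sub, mul_one, h3]
      abel
    exact h0
  obtain ⟨Q₁, hPQ₁, hQP₁⟩ := isUnit_iff_exists.mp (isUnit_of_map_residue_eq_one hP₁r)
  have hQ₁r : Q₁.map (residue A) = 1 := by
    have h0 : (residue A).mapMatrix (P₁ * Q₁) = 1 := by rw [hPQ₁, map_one]
    rw [map_mul] at h0
    have h1 : (residue A).mapMatrix P₁ = 1 := hP₁r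
    rw [h1, one_mul] at h0
    exact h0
  -- lifts of E_12 and E_21
  obtain ⟨X₀, hX₀, hX₀r⟩ := hSsurj (Matrix.single 0 1 1)
  obtain ⟨Y₀, hY₀, hY₀r⟩ := hSsurj (Matrix.single 1 0 1)
  set b : A := (P₁ * X₀ * Q₁) 0 1 with hb
  have hbr : residue A b = 1 := by
    have h0 : (residue A).mapMatrix (P₁ * X₀ * Q₁) = Matrix.single 0 1 1 := by
      have h1 : (residue A).mapMatrix P₁ = 1 := hP₁r
      have h2 : (residue A).mapMatrix Q₁ = 1 := hQ₁r
      have h3 : (residue A).mapMatrix X₀ = Matrix.single 0 1 1 := hX₀r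
      rw [map_mul, map_mul, h1, h2, h3, one_mul, mul_one]
    have := congrFun (congrFun h0 0) 1
    simpa using this
  have hbu : IsUnit b := by
    by_contra hn
    have : residue A b = 0 := (residue_eq_zero_iff _).mpr ((mem_maximalIdeal _).mpr hn)
    rw [hbr] at this
    exact one_ne_zero this
  obtain ⟨b', hbb'⟩ := hbu.exists_right_inv
  have hb'r : residue A b' = 1 := by
    have := congrArg (residue A) hbb'
    rwa [map_mul, hbr, one_mul, map_one] at this
  let D : Matrix (Fin 2) (Fin 2) A := Matrix.diagonal ![1, b]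
  let D' : Matrix (Fin 2) (Fin 2) A := Matrix.diagonal ![1, b']
  have hDD' : D * D' = 1 := by
    simp only [D, D', Matrix.diagonal_mul_diagonal]
    rw [← Matrix.diagonal_one]
    congr 1
    ext i
    fin_cases i <;> simp [hbb']
  have hD'D : D' * D = 1 := by
    simp only [D, D', Matrix.diagonal_mul_diagonal]
    rw [← Matrix.diagonal_one]
    congr 1
    ext i
    fin_cases i <;> simp [mul_comm b' b, hbb']
  have hDr : (residue A).mapMatrix D = 1 := by
    ext i j
    fin_cases i <;> fin_cases j <;> simp [D, hbr]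
  have hPQ : (D * P₁) * (Q₁ * D') = 1 := by
    rw [mul_assoc, ← mul_assoc P₁, hPQ₁, one_mul, hDD']
  have hQP : (Q₁ * D') * (D * P₁) = 1 := by
    rw [mul_assoc, ← mul_assoc D', hD'D, one_mul, hQP₁]
  have hDPr : (residue A).mapMatrix (D * P₁) = 1 := by
    have h1 : (residue A).mapMatrix P₁ = 1 := hP₁r
    rw [map_mul, hDr, h1, one_mul]
  refine ⟨D * P₁, Q₁ * D', hPQ, hQP, hDPr, ?_⟩
  -- the conjugated subring
  let c : Matrix (Fin 2) (Fin 2) A →+* Matrix (Fin 2) (Fin 2) A :=
    { toFun := fun X => (D * P₁) * X * (Q₁ * D')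
      map_one' := by simp only [mul_one]; exact hPQ
      map_zero' := by simp only [mul_zero, zero_mul]
      map_add' := fun X Y => by simp only [mul_add, add_mul]
      map_mul' := fun X Y => by
        show (D * P₁) * (X * Y) * (Q₁ * D') =
          ((D * P₁) * X * (Q₁ * D')) * ((D * P₁) * Y * (Q₁ * D'))
        calc (D * P₁) * (X * Y) * (Q₁ * D') = (D * P₁) * X * 1 * Y * (Q₁ * D') := by
              rw [mul_one]; simp only [mul_assoc]
          _ = ((D * P₁) * X * (Q₁ * D')) * ((D * P₁) * Y * (Q₁ * D')) := by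
              rw [← hQP]; simp only [mul_assoc] }
  have hc : ∀ X, c X = (D * P₁) * X * (Q₁ * D') := fun X => rfl
  have hctr : ∀ X ∈ S.map c, X.trace ∈ T := by
    rintro _ ⟨X, hX, rfl⟩
    rw [hc, Matrix.trace_mul_comm, ← mul_assoc, hQP, one_mul]
    exact hStr X hX
  have hcE : c e = E := by
    rw [hc]
    have h1 : (D * P₁) * (e : Matrix (Fin 2) (Fin 2) A) * (Q₁ * D') = D * E * D' := by
      rw [mul_assoc D, hP₁e]
      calc D * (E * P₁) * (Q₁ * D') = D * E * (P₁ * Q₁) * D' := by simp only [mul_assoc]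
        _ = D * E * D' := by rw [hPQ₁, mul_one]
    rw [h1]
    ext i j
    fin_cases i <;> fin_cases j <;>
      simp [D, D', E, Matrix.mul_diagonal]
  have hcX₀ : c X₀ 0 1 = 1 := by
    rw [hc]
    have h1 : (D * P₁) * X₀ * (Q₁ * D') = D * (P₁ * X₀ * Q₁) * D' := by simp only [mul_assoc]
    rw [h1]
    simp only [D, D', Matrix.mul_diagonal, Matrix.diagonal_mul]
    simp only [Matrix.cons_val_zero, Matrix.cons_val_one, one_mul]
    exact hbb'
  have hcY₀ : IsUnit (c Y₀ 1 0) := by
    by_contra hn
    have h1 : residue A (c Y₀ 1 0) = 0 := (residue_eq_zero_iff _).mpr ((mem_maximalIdeal _).mpr hn)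
    have h2 : (residue A).mapMatrix (c Y₀) = Matrix.single 1 0 1 := by
      have h3 : (residue A).mapMatrix (Q₁ * D') = 1 := by
        have := congrArg (residue A).mapMatrix hPQ
        rwa [map_mul, hDPr, one_mul, map_one] at this
      have h4 : (residue A).mapMatrix Y₀ = Matrix.single 1 0 1 := hY₀r
      rw [hc, map_mul, map_mul, hDPr, h3, h4, one_mul, mul_one]
    have h5 := congrFun (congrFun h2 1) 0
    simp at h5
    rw [h5] at h1
    exact one_ne_zero h1
  intro g i j
  exact entries_mem_of_normal T (S.map c) hctr ⟨e, e.2, hcE⟩ (c X₀) ⟨X₀, hX₀, rfl⟩ hcX₀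
    (c Y₀) ⟨Y₀, hY₀, rfl⟩ hcY₀ (c (M g)) ⟨M g, hSM g, rfl⟩ i j

end finite

end Fermat.Agent.UDef
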