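import Mathlib
import Fermat.Prelude.Def_GaloisRep_DeformationRingData
import Fermat.Prelude.Def_GaloisRep_DeformationCondition
import Fermat.Agent.DefRing.Carayol
import Fermat.Agent.DefRing.Dictionary

set_option autoImplicit false

namespace Fermat.Agent.UDef

open Matrix IsLocalRing

/-- Local `𝒪`-algebras with the same residue field as `𝒪`. -/
class CoefAlg (𝒪 A : Type) [CommRing 𝒪] [IsLocalRing 𝒪] [CommRing A] [IsLocalRing A]
    [Algebra 𝒪 A] : Prop where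
  isLocalHom : IsLocalHom (algebraMap 𝒪 A)
  residue_surjective : Function.Surjective (IsLocalRing.residue A ∘ algebraMap 𝒪 A)

section basic

variable (𝒪 : Type) [CommRing 𝒪] [IsLocalRing 𝒪]
variable (A : Type) [CommRing A] [IsLocalRing A] [Algebra 𝒪 A] [CoefAlg 𝒪 A]

/-- The comparison of residue fields. -/
noncomputable def resEquiv : ResidueField 𝒪 ≃+* ResidueField A :=
  haveI := CoefAlg.isLocalHom (𝒪 := 𝒪) (A := A)
  RingEquiv.ofBijective (ResidueField.map (algebraMap 𝒪 A)) ⟨RingHom.injective _, fun y => by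
    obtain ⟨c, hc⟩ := CoefAlg.residue_surjective (𝒪 := 𝒪) (A := A) y
    exact ⟨residue 𝒪 c, hc⟩⟩

theorem resEquiv_residue (c : 𝒪) :
    resEquiv 𝒪 A (residue 𝒪 c) = residue A (algebraMap 𝒪 A c) := rfl

theorem resEquiv_symm_residue (c : 𝒪) :
    (resEquiv 𝒪 A).symm (residue A (algebraMap 𝒪 A c)) = residue 𝒪 c := by
  rw [← resEquiv_residue, RingEquiv.symm_apply_apply]

theorem resEquiv_eq (h : IsLocalHom (algebraMap 𝒪 A)) :
    ((resEquiv 𝒪 A : ResidueField 𝒪 ≃+* ResidueField A) : ResidueField 𝒪 →+* ResidueField A) =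
      ResidueField.map (algebraMap 𝒪 A) := rfl

/-- The residue map of a coefficient algebra, with values in the residue field of `𝒪`. -/
noncomputable def toK : A →ₐ[𝒪] ResidueField 𝒪 :=
  { ((resEquiv 𝒪 A).symm : ResidueField A →+* ResidueField 𝒪).comp (residue A) with
    commutes' := fun c => resEquiv_symm_residue 𝒪 A c }

theorem toK_apply (a : A) : toK 𝒪 A a = (resEquiv 𝒪 A).symm (residue A a) := rfl

theorem resEquiv_toK (a : A) : resEquiv 𝒪 A (toK 𝒪 A a) = residue A a := by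
  rw [toK_apply, RingEquiv.apply_symm_apply]

theorem toK_eq_zero_iff (a : A) : toK 𝒪 A a = 0 ↔ a ∈ maximalIdeal A := by
  rw [toK_apply, ← residue_eq_zero_iff]
  simp

theorem isUnit_of_toK_ne_zero (a : A) (h : toK 𝒪 A a ≠ 0) : IsUnit a := by
  by_contra hn
  exact h ((toK_eq_zero_iff 𝒪 A a).mpr ((mem_maximalIdeal _).mpr hn))

theorem algebraMap_resField (c : 𝒪) : algebraMap 𝒪 (ResidueField 𝒪) c = residue 𝒪 c := rfl

theorem toK_algebraMap (c : 𝒪) : toK 𝒪 A (algebraMap 𝒪 A c) = residue 𝒪 c := (toK 𝒪 A).commutes c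

theorem exists_sub_mem (a : A) : ∃ c : 𝒪, a - algebraMap 𝒪 A c ∈ maximalIdeal A := by
  obtain ⟨c, hc⟩ := IsLocalRing.residue_surjective (toK 𝒪 A a)
  refine ⟨c, ?_⟩
  rw [← toK_eq_zero_iff 𝒪, map_sub, toK_algebraMap, hc, sub_self]

variable {𝒪 A}

theorem CoefAlg.algebraMap_mem {c : 𝒪} (hc : c ∈ maximalIdeal 𝒪) :
    algebraMap 𝒪 A c ∈ maximalIdeal A := by
  rw [← toK_eq_zero_iff 𝒪, toK_algebraMap, residue_eq_zero_iff]
  exact hc

/-- Any two `𝒪`-algebra maps to the residue field agree. -/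
theorem toK_unique (f : A →ₐ[𝒪] ResidueField 𝒪) : f = toK 𝒪 A := by
  have hsurj : Function.Surjective f := fun y => by
    obtain ⟨c, rfl⟩ := IsLocalRing.residue_surjective y
    exact ⟨algebraMap 𝒪 A c, f.commutes c⟩
  have hker : RingHom.ker f = maximalIdeal A :=
    IsLocalRing.eq_maximalIdeal (RingHom.ker_isMaximal_of_surjective f hsurj)
  ext a
  obtain ⟨c, hc⟩ := exists_sub_mem 𝒪 A a
  have h1 : f (a - algebraMap 𝒪 A c) = 0 := by
    rw [← RingHom.mem_ker, hker]; exact hc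
  have h2 : toK 𝒪 A (a - algebraMap 𝒪 A c) = 0 := (toK_eq_zero_iff 𝒪 A _).mpr hc
  rw [map_sub, sub_eq_zero] at h1 h2
  rw [h1, h2, AlgHom.commutes, AlgHom.commutes]

variable {B : Type} [CommRing B] [IsLocalRing B] [Algebra 𝒪 B] [CoefAlg 𝒪 B]

theorem toK_comp (f : A →ₐ[𝒪] B) : (toK 𝒪 B).comp f = toK 𝒪 A := toK_unique _

theorem toK_map (f : A →ₐ[𝒪] B) (a : A) : toK 𝒪 B (f a) = toK 𝒪 A a := by
  rw [← toK_comp f]; rfl

/-- Any `𝒪`-algebra map between coefficient algebras is local. -/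
theorem isLocalHom_algHom (f : A →ₐ[𝒪] B) : IsLocalHom (f : A →+* B) := by
  refine ⟨fun a ha => isUnit_of_toK_ne_zero 𝒪 A a fun h => ?_⟩
  have h1 : toK 𝒪 B (f a) = 0 := by rw [toK_map, h]
  rw [toK_eq_zero_iff] at h1
  exact h1 ha

theorem map_mem_maximalIdeal (f : A →ₐ[𝒪] B) {a : A} (ha : a ∈ maximalIdeal A) :
    f a ∈ maximalIdeal B := by
  rw [← toK_eq_zero_iff 𝒪, toK_map, toK_eq_zero_iff]
  exact ha

theorem mem_maximalIdeal_of_map (f : A →ₐ[𝒪] B) {a : A} (ha : f a ∈ maximalIdeal B) :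
    a ∈ maximalIdeal A := by
  rwa [← toK_eq_zero_iff 𝒪, toK_map, toK_eq_zero_iff] at ha

end basic

section construct

variable {𝒪 : Type} [CommRing 𝒪] [IsLocalRing 𝒪]
variable {A : Type} [CommRing A] [Algebra 𝒪 A]

theorem isLocalRing_of_toK (κ : A →ₐ[𝒪] ResidueField 𝒪) (hκ : ∀ a, κ a ≠ 0 → IsUnit a) :
    IsLocalRing A := by
  have : IsLocalHom (κ : A →+* ResidueField 𝒪) := ⟨fun a ha => hκ a ha.ne_zero⟩
  exact RingHom.domain_isLocalRing (κ : A →+* ResidueField 𝒪)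

theorem coefAlg_of_toK [IsLocalRing A] (κ : A →ₐ[𝒪] ResidueField 𝒪) (hκ : ∀ a, κ a ≠ 0 → IsUnit a) :
    CoefAlg 𝒪 A where
  isLocalHom := ⟨fun c hc => by
    by_contra hn
    have h1 : IsUnit (κ (algebraMap 𝒪 A c)) := hc.map κ
    rw [AlgHom.commutes, algebraMap_resField, (residue_eq_zero_iff c).mpr ((mem_maximalIdeal _).mpr hn)] at h1
    exact not_isUnit_zero h1⟩
  residue_surjective := fun y => by
    obtain ⟨a, rfl⟩ := IsLocalRing.residue_surjective y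
    obtain ⟨c, hc⟩ := IsLocalRing.residue_surjective (κ a)
    refine ⟨c, ?_⟩
    rw [Function.comp_apply, ← sub_eq_zero, ← map_sub, residue_eq_zero_iff, mem_maximalIdeal]
    intro hu
    have h1 := hu.map κ
    rw [map_sub, AlgHom.commutes, algebraMap_resField, hc, sub_self] at h1
    exact not_isUnit_zero h1

end construct

section instances

variable {𝒪 : Type} [CommRing 𝒪] [IsLocalRing 𝒪]

instance coefAlg_residueField : CoefAlg 𝒪 (ResidueField 𝒪) :=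
  coefAlg_of_toK (AlgHom.id 𝒪 _) fun a ha => isUnit_iff_ne_zero.mpr ha

section subalgebra

variable {A : Type} [CommRing A] [IsLocalRing A] [Algebra 𝒪 A] [CoefAlg 𝒪 A] [Finite A]

theorem subalgebra_isUnit (T : Subalgebra 𝒪 A) (a : T) (ha : ((toK 𝒪 A).comp T.val) a ≠ 0) :
    IsUnit a := by
  obtain ⟨v, hv⟩ := (isUnit_of_toK_ne_zero 𝒪 A (a : A) ha).exists_right_inv
  have hvT : v ∈ T := inv_mem_of_finite T.toSubring a.2 hv
  exact IsUnit.of_mul_eq_one ⟨v, hvT⟩ (Subtype.ext hv)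

instance isLocalRing_subalgebra (T : Subalgebra 𝒪 A) : IsLocalRing T :=
  isLocalRing_of_toK ((toK 𝒪 A).comp T.val) (subalgebra_isUnit T)

instance coefAlg_subalgebra (T : Subalgebra 𝒪 A) : CoefAlg 𝒪 T :=
  coefAlg_of_toK ((toK 𝒪 A).comp T.val) (subalgebra_isUnit T)

end subalgebra

section fibre

variable (𝒪)
variable (A B : Type) [CommRing A] [IsLocalRing A] [Algebra 𝒪 A] [CoefAlg 𝒪 A]
  [CommRing B] [IsLocalRing B] [Algebra 𝒪 B] [CoefAlg 𝒪 B]

/-- The fibre product over the residue field. -/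
noncomputable def FP : Subalgebra 𝒪 (A × B) :=
  AlgHom.equalizer ((toK 𝒪 A).comp (AlgHom.fst 𝒪 A B)) ((toK 𝒪 B).comp (AlgHom.snd 𝒪 A B))

variable {A B}

theorem mem_FP {x : A × B} : x ∈ FP 𝒪 A B ↔ toK 𝒪 A x.1 = toK 𝒪 B x.2 := Iff.rfl

variable (A B)

/-- first projection -/
noncomputable def fpFst : FP 𝒪 A B →ₐ[𝒪] A := (AlgHom.fst 𝒪 A B).comp (FP 𝒪 A B).val

/-- second projection -/
noncomputable def fpSnd : FP 𝒪 A B →ₐ[𝒪] B := (AlgHom.snd 𝒪 A B).comp (FP 𝒪 A B).val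

theorem FP_isUnit (x : FP 𝒪 A B) (hx : ((toK 𝒪 A).comp (fpFst 𝒪 A B)) x ≠ 0) : IsUnit x := by
  obtain ⟨u, hu⟩ := (isUnit_of_toK_ne_zero 𝒪 A _ hx).exists_right_inv
  have hx' : toK 𝒪 B (x : A × B).2 ≠ 0 := by
    rw [← (mem_FP 𝒪).mp x.2]; exact hx
  obtain ⟨v, hv⟩ := (isUnit_of_toK_ne_zero 𝒪 B _ hx').exists_right_inv
  have h1 : toK 𝒪 A (x : A × B).1 * toK 𝒪 A u = 1 := by
    rw [← map_mul]; erw [hu]; exact map_one _
  have h2 : toK 𝒪 B (x : A × B).2 * toK 𝒪 B v = 1 := by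
    rw [← map_mul, hv, map_one]
  have huv : toK 𝒪 A u = toK 𝒪 B v := by
    apply mul_left_cancel₀ hx
    change toK 𝒪 A (x : A × B).1 * toK 𝒪 A u = toK 𝒪 A (x : A × B).1 * toK 𝒪 B v
    rw [h1, (mem_FP 𝒪).mp x.2, h2]
  exact IsUnit.of_mul_eq_one ⟨(u, v), huv⟩ (Subtype.ext (Prod.ext hu hv))

instance isLocalRing_FP : IsLocalRing (FP 𝒪 A B) :=
  isLocalRing_of_toK _ (FP_isUnit 𝒪 A B)

instance coefAlg_FP : CoefAlg 𝒪 (FP 𝒪 A B) :=
  coefAlg_of_toK _ (FP_isUnit 𝒪 A B)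

end fibre

theorem finite_of_artinian [Finite (ResidueField 𝒪)] (A : Type) [CommRing A] [IsLocalRing A]
    [Algebra 𝒪 A] [CoefAlg 𝒪 A] [IsArtinianRing A] : Finite A := by
  have : Finite (A ⧸ maximalIdeal A) := Finite.of_equiv _ (resEquiv 𝒪 A).toEquiv
  obtain ⟨n, hn⟩ := IsArtinianRing.isNilpotent_jacobson_bot (R := A)
  have h1 := Ideal.finite_quotient_pow (I := maximalIdeal A) (IsNoetherian.noetherian _) n
  rw [← IsLocalRing.jacobson_eq_maximalIdeal ⊥ bot_ne_top, hn] at h1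
  exact Finite.of_equiv _ (RingEquiv.quotientBot A).toEquiv

end instances

end Fermat.Agent.UDef
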