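import Mathlib
import Fermat.Agent.DefRing.Coef

set_option autoImplicit false

namespace Fermat.Agent.UDef

open Matrix IsLocalRing

section mcont

variable {A : Type} [CommRing A] [IsLocalRing A]

/-- For Artinian local rings, continuity means factoring through a finite level. -/
theorem MCont.factors [IsArtinianRing A] {M : GalQ →* Matrix (Fin 2) (Fin 2) A} (h : MCont M) :
    ∃ L : IntermediateField ℚ (AlgebraicClosure ℚ), FiniteDimensional ℚ L ∧
      ∀ σ : GalQ, (∀ x ∈ L, σ x = x) → M σ = 1 := by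
  obtain ⟨n, hn⟩ := IsArtinianRing.isNilpotent_jacobson_bot (R := A)
  obtain ⟨L, hL, h1⟩ := h n
  refine ⟨L, hL, fun σ hσ => ?_⟩
  rw [← sub_eq_zero]
  ext i j
  have := h1 σ hσ i j
  rw [← IsLocalRing.jacobson_eq_maximalIdeal ⊥ bot_ne_top, hn] at this
  simpa using this

theorem mcont_of_factors {M : GalQ →* Matrix (Fin 2) (Fin 2) A}
    (h : ∃ L : IntermediateField ℚ (AlgebraicClosure ℚ), FiniteDimensional ℚ L ∧
      ∀ σ : GalQ, (∀ x ∈ L, σ x = x) → M σ = 1) : MCont M := by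
  intro n
  obtain ⟨L, hL, h1⟩ := h
  refine ⟨L, hL, fun σ hσ i j => ?_⟩
  rw [h1 σ hσ, sub_self]
  exact Ideal.zero_mem _

end mcont

section good

variable {𝒪 : Type} [CommRing 𝒪] [IsLocalRing 𝒪]
  (𝒟 : ∀ ⦃A : Type⦄ [CommRing A] [IsLocalRing A] [Algebra 𝒪 A], GaloisRepAdic A → Prop)
  (Mbar : GalQ →* Matrix (Fin 2) (Fin 2) (ResidueField 𝒪))

/-- Matrix lifts of `Mbar` of type `𝒟`. -/
structure Good {A : Type} [CommRing A] [IsLocalRing A] [Algebra 𝒪 A] [CoefAlg 𝒪 A]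
    (M : GalQ →* Matrix (Fin 2) (Fin 2) A) : Prop where
  lift : mapRep (toK 𝒪 A : A →+* ResidueField 𝒪) M = Mbar
  exists_type : ∃ ρ : GaloisRepAdic A, IsModel ρ M ∧ 𝒟 ρ

variable {𝒟 Mbar}

theorem isArtinianTestAlgebra (A : Type) [CommRing A] [IsLocalRing A] [Algebra 𝒪 A] [CoefAlg 𝒪 A]
    [IsArtinianRing A] : GaloisRep.IsArtinianTestAlgebra 𝒪 A :=
  ⟨CoefAlg.isLocalHom, CoefAlg.residue_surjective, inferInstance⟩

variable {A B : Type} [CommRing A] [IsLocalRing A] [Algebra 𝒪 A] [CoefAlg 𝒪 A]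
  [CommRing B] [IsLocalRing B] [Algebra 𝒪 B] [CoefAlg 𝒪 B]

theorem type_of_model (h𝒟 : GaloisRep.IsDeformationCondition 𝒪 𝒟) [IsArtinianRing A]
    {ρ ρ' : GaloisRepAdic A} {M : GalQ →* Matrix (Fin 2) (Fin 2) A} (h : IsModel ρ M)
    (h' : IsModel ρ' M) (hρ : 𝒟 ρ) : 𝒟 ρ' :=
  h𝒟.of_isEquiv (isArtinianTestAlgebra A)
    (h.isEquiv h' 1 isUnit_one (fun σ => by rw [one_mul, mul_one])) hρ

theorem Good.mcont {M : GalQ →* Matrix (Fin 2) (Fin 2) A} (h : Good 𝒟 Mbar M) : MCont M := by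
  obtain ⟨ρ, hρ, _⟩ := h.exists_type
  exact hρ.mcont

theorem Good.type (h𝒟 : GaloisRep.IsDeformationCondition 𝒪 𝒟) [IsArtinianRing A]
    {M : GalQ →* Matrix (Fin 2) (Fin 2) A} (h : Good 𝒟 Mbar M) {ρ : GaloisRepAdic A}
    (hρ : IsModel ρ M) : 𝒟 ρ := by
  obtain ⟨ρ', hρ', hD⟩ := h.exists_type
  exact type_of_model h𝒟 hρ' hρ hD

theorem mapRep_mapRep {A B C : Type*} [CommRing A] [CommRing B] [CommRing C] (φ : A →+* B)
    (ψ : B →+* C) (M : GalQ →* Matrix (Fin 2) (Fin 2) A) :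
    mapRep ψ (mapRep φ M) = mapRep (ψ.comp φ) M := rfl

theorem mapRep_toK (f : A →ₐ[𝒪] B) (M : GalQ →* Matrix (Fin 2) (Fin 2) A) :
    mapRep (toK 𝒪 B : B →+* ResidueField 𝒪) (mapRep (f : A →+* B) M) =
      mapRep (toK 𝒪 A : A →+* ResidueField 𝒪) M := by
  rw [mapRep_mapRep, ← toK_comp f]; rfl

theorem Good.map (h𝒟 : GaloisRep.IsDeformationCondition 𝒪 𝒟) [IsArtinianRing A] [IsArtinianRing B]
    {M : GalQ →* Matrix (Fin 2) (Fin 2) A} (h : Good 𝒟 Mbar M) (f : A →ₐ[𝒪] B) :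
    Good 𝒟 Mbar (mapRep (f : A →+* B) M) := by
  refine ⟨?_, ?_⟩
  · rw [mapRep_toK, h.lift]
  · obtain ⟨ρ, hρ, hD⟩ := h.exists_type
    exact ⟨ρ.baseChangeAlong (f : A →+* B) (isLocalHom_algHom f), hρ.baseChangeAlong _ _,
      h𝒟.baseChangeAlong (isArtinianTestAlgebra A) (isArtinianTestAlgebra B) f _ hD⟩

theorem Good.conj {M M' : GalQ →* Matrix (Fin 2) (Fin 2) A} (h : Good 𝒟 Mbar M)
    (P : Matrix (Fin 2) (Fin 2) A) (hP : IsUnit P) (hPM : ∀ σ, P * M σ = M' σ * P)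
    (hM' : mapRep (toK 𝒪 A : A →+* ResidueField 𝒪) M' = Mbar) : Good 𝒟 Mbar M' := by
  obtain ⟨ρ, hρ, hD⟩ := h.exists_type
  exact ⟨hM', ρ, hρ.of_conj P hP hPM, hD⟩

theorem Good.of_injective (h𝒟 : GaloisRep.IsDeformationCondition 𝒪 𝒟) [IsArtinianRing A]
    [IsArtinianRing B] {M : GalQ →* Matrix (Fin 2) (Fin 2) A} (f : A →ₐ[𝒪] B)
    (hf : Function.Injective f) (h : Good 𝒟 Mbar (mapRep (f : A →+* B) M)) : Good 𝒟 Mbar M := by
  have hcont : MCont M := by
    apply mcont_of_factors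
    obtain ⟨L, hL, h1⟩ := h.mcont.factors
    refine ⟨L, hL, fun σ hσ => ?_⟩
    have h2 := h1 σ hσ
    ext i j
    apply hf
    have h3 := congrFun (congrFun h2 i) j
    rw [mapRep_apply, Matrix.map_apply] at h3
    change f (M σ i j) = _ at h3
    rw [h3, Matrix.one_apply, Matrix.one_apply]
    split_ifs <;> simp
  refine ⟨by rw [← mapRep_toK f, h.lift], ofMatrix M hcont, isModel_ofMatrix M hcont, ?_⟩
  exact h𝒟.of_baseChangeAlong_injective (isArtinianTestAlgebra A) (isArtinianTestAlgebra B) f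
    (isLocalHom_algHom f) hf (h.type h𝒟 ((isModel_ofMatrix M hcont).baseChangeAlong _ _))

theorem Good.of_fp (h𝒟 : GaloisRep.IsDeformationCondition 𝒪 𝒟) [Finite A] [Finite B]
    {M : GalQ →* Matrix (Fin 2) (Fin 2) (FP 𝒪 A B)}
    (hA : Good 𝒟 Mbar (mapRep (fpFst 𝒪 A B : FP 𝒪 A B →+* A) M))
    (hB : Good 𝒟 Mbar (mapRep (fpSnd 𝒪 A B : FP 𝒪 A B →+* B) M)) : Good 𝒟 Mbar M := by
  have hcont : MCont M := by
    apply mcont_of_factors
    obtain ⟨L₁, hL₁, h1⟩ := hA.mcont.factors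
    obtain ⟨L₂, hL₂, h2⟩ := hB.mcont.factors
    refine ⟨L₁ ⊔ L₂, inferInstance, fun σ hσ => ?_⟩
    have h3 := h1 σ (fun x hx => hσ x (le_sup_left (a := L₁) hx))
    have h4 := h2 σ (fun x hx => hσ x (le_sup_right (b := L₂) hx))
    ext i j
    · have h5 := congrFun (congrFun h3 i) j
      rw [mapRep_apply, Matrix.map_apply] at h5
      change ((M σ i j : FP 𝒪 A B) : A × B).1 = _ at h5
      rw [h5, Matrix.one_apply, Matrix.one_apply]
      split_ifs <;> rfl
    · have h5 := congrFun (congrFun h4 i) j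
      rw [mapRep_apply, Matrix.map_apply] at h5
      change ((M σ i j : FP 𝒪 A B) : A × B).2 = _ at h5
      rw [h5, Matrix.one_apply, Matrix.one_apply]
      split_ifs <;> rfl
  refine ⟨by rw [← mapRep_toK (fpFst 𝒪 A B), hA.lift], ofMatrix M hcont,
    isModel_ofMatrix M hcont, ?_⟩
  have hk : Finite (ResidueField 𝒪) := by
    refine Finite.of_surjective (toK 𝒪 A) fun y => ?_
    obtain ⟨c, rfl⟩ := IsLocalRing.residue_surjective y
    exact ⟨algebraMap 𝒪 A c, toK_algebraMap 𝒪 A c⟩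
  refine h𝒟.of_fibreProduct (isArtinianTestAlgebra A) (isArtinianTestAlgebra B)
    (isArtinianTestAlgebra (ResidueField 𝒪)) (isArtinianTestAlgebra (FP 𝒪 A B))
    (toK 𝒪 A) (toK 𝒪 B) (fpFst 𝒪 A B) (fpSnd 𝒪 A B) (isLocalHom_algHom _) (isLocalHom_algHom _)
    ?_ ?_ ?_ (hA.type h𝒟 ((isModel_ofMatrix M hcont).baseChangeAlong _ _))
    (hB.type h𝒟 ((isModel_ofMatrix M hcont).baseChangeAlong _ _))
  · ext x
    exact x.2
  · intro x y hxy
    exact Subtype.ext hxy
  · intro a b hab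
    exact ⟨⟨(a, b), hab⟩, rfl, rfl⟩

/-- The product of two lifts. -/
noncomputable def prodRep (M : GalQ →* Matrix (Fin 2) (Fin 2) A)
    (M' : GalQ →* Matrix (Fin 2) (Fin 2) B)
    (h : mapRep (toK 𝒪 A : A →+* ResidueField 𝒪) M = mapRep (toK 𝒪 B : B →+* ResidueField 𝒪) M') :
    GalQ →* Matrix (Fin 2) (Fin 2) (FP 𝒪 A B) where
  toFun σ := Matrix.of fun i j => ⟨(M σ i j, M' σ i j), by
    have := congrFun (congrFun (DFunLike.congr_fun h σ) i) j
    exact this⟩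
  map_one' := by
    ext i j
    · simp only [map_one, Matrix.of_apply, Matrix.one_apply]
      split_ifs <;> rfl
    · simp only [map_one, Matrix.of_apply, Matrix.one_apply]
      split_ifs <;> rfl
  map_mul' σ τ := by
    ext i j
    · simp only [map_mul, Matrix.of_apply, Matrix.mul_apply, Fin.sum_univ_two]
      rfl
    · simp only [map_mul, Matrix.of_apply, Matrix.mul_apply, Fin.sum_univ_two]
      rfl

theorem prodRep_fst (M : GalQ →* Matrix (Fin 2) (Fin 2) A)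
    (M' : GalQ →* Matrix (Fin 2) (Fin 2) B)
    (h : mapRep (toK 𝒪 A : A →+* ResidueField 𝒪) M = mapRep (toK 𝒪 B : B →+* ResidueField 𝒪) M') :
    mapRep (fpFst 𝒪 A B : FP 𝒪 A B →+* A) (prodRep M M' h) = M := rfl

theorem prodRep_snd (M : GalQ →* Matrix (Fin 2) (Fin 2) A)
    (M' : GalQ →* Matrix (Fin 2) (Fin 2) B)
    (h : mapRep (toK 𝒪 A : A →+* ResidueField 𝒪) M = mapRep (toK 𝒪 B : B →+* ResidueField 𝒪) M') :
    mapRep (fpSnd 𝒪 A B : FP 𝒪 A B →+* B) (prodRep M M' h) = M' := rfl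

/-- Lifts of a residually spanning representation are residually spanning. -/
theorem resSpan_of_lift (hMbar : Submodule.span (ResidueField 𝒪) (Set.range Mbar) = ⊤)
    {M : GalQ →* Matrix (Fin 2) (Fin 2) A}
    (hM : mapRep (toK 𝒪 A : A →+* ResidueField 𝒪) M = Mbar) : ResSpan M := by
  rw [ResSpan, eq_top_iff]
  intro Y _
  have key : ∀ Z ∈ Submodule.span (ResidueField 𝒪) (Set.range Mbar),
      Z.map (resEquiv 𝒪 A) ∈ Submodule.span (ResidueField A)
        (Set.range fun g => (M g).map (residue A)) := by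
    intro Z hZ
    induction hZ using Submodule.span_induction with
    | mem Z hZ =>
      obtain ⟨g, rfl⟩ := hZ
      refine Submodule.subset_span ⟨g, ?_⟩
      ext i j
      rw [Matrix.map_apply, ← hM, mapRep_apply, Matrix.map_apply]
      exact (resEquiv_toK 𝒪 A _).symm
    | zero =>
      convert Submodule.zero_mem _
      ext i j; simp
    | add Z₁ Z₂ _ _ h₁ h₂ =>
      convert Submodule.add_mem _ h₁ h₂ using 1
      ext i j; simp
    | smul c Z _ h =>
      convert Submodule.smul_mem _ (resEquiv 𝒪 A c) h using 1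
      ext i j; simp
  have h1 := key (Y.map (resEquiv 𝒪 A).symm) (by rw [hMbar]; trivial)
  convert h1 using 1
  ext i j
  simp

/-- The subalgebra generated by the traces. -/
noncomputable def trAlg (𝒪 : Type) [CommRing 𝒪] {A : Type} [CommRing A] [Algebra 𝒪 A]
    (M : GalQ →* Matrix (Fin 2) (Fin 2) A) : Subalgebra 𝒪 A :=
  Algebra.adjoin 𝒪 (Set.range fun σ => (M σ).trace)

omit [IsLocalRing 𝒪] in
theorem trace_mem_trAlg {A : Type} [CommRing A] [Algebra 𝒪 A]
    (M : GalQ →* Matrix (Fin 2) (Fin 2) A) (σ : GalQ) : (M σ).trace ∈ trAlg 𝒪 M :=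
  Algebra.subset_adjoin ⟨σ, rfl⟩

/-- Good lifts over finite algebras descend to the subalgebra generated by traces. -/
theorem Good.descend (h𝒟 : GaloisRep.IsDeformationCondition 𝒪 𝒟)
    (hMbar : Submodule.span (ResidueField 𝒪) (Set.range Mbar) = ⊤) [Finite A]
    {M : GalQ →* Matrix (Fin 2) (Fin 2) A} (h : Good 𝒟 Mbar M) (T : Subalgebra 𝒪 A)
    (hT : ∀ σ, (M σ).trace ∈ T) :
    ∃ MT : GalQ →* Matrix (Fin 2) (Fin 2) T, Good 𝒟 Mbar MT ∧
      (∃ P : Matrix (Fin 2) (Fin 2) A, IsUnit P ∧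
        ∀ σ, P * M σ = (mapRep (T.val : T →+* A) MT) σ * P) := by
  obtain ⟨P, Q, hPQ, hQP, hPr, hPM⟩ := carayol T.toSubring (fun a => by
    obtain ⟨c, hc⟩ := exists_sub_mem 𝒪 A a
    exact ⟨algebraMap 𝒪 A c, T.algebraMap_mem c, hc⟩) M (resSpan_of_lift hMbar h.lift)
    hT
  let MT : GalQ →* Matrix (Fin 2) (Fin 2) T :=
    { toFun := fun σ => Matrix.of fun i j => ⟨(P * M σ * Q) i j, hPM σ i j⟩
      map_one' := by
        ext i j
        simp only [map_one, mul_one, hPQ, Matrix.of_apply, Matrix.one_apply]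
        split_ifs <;> rfl
      map_mul' := fun σ τ => by
        ext i j
        have h1 : P * M (σ * τ) * Q = (P * M σ * Q) * (P * M τ * Q) := by
          calc P * M (σ * τ) * Q = P * M σ * 1 * M τ * Q := by
                rw [map_mul, mul_one]; simp only [mul_assoc]
            _ = (P * M σ * Q) * (P * M τ * Q) := by rw [← hQP]; simp only [mul_assoc]
        have h2 : (P * M (σ * τ) * Q) i j = ((P * M σ * Q) * (P * M τ * Q)) i j := by rw [h1]
        rw [Matrix.mul_apply (M := P * M σ * Q), Fin.sum_univ_two] at h2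
        rw [Matrix.mul_apply, Fin.sum_univ_two]
        exact h2 }
  have hMT : ∀ σ, (mapRep (T.val : T →+* A) MT) σ = P * M σ * Q := fun σ => rfl
  have hPu : IsUnit P := isUnit_iff_exists.mpr ⟨Q, hPQ, hQP⟩
  have hconj : ∀ σ, P * M σ = (mapRep (T.val : T →+* A) MT) σ * P := fun σ => by
    rw [hMT, mul_assoc, hQP, mul_one]
  have hPr' : (toK 𝒪 A : A →+* ResidueField 𝒪).mapMatrix P = 1 := by
    ext i j
    have h1 := congrFun (congrFun hPr i) j
    rw [Matrix.map_apply] at h1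
    change toK 𝒪 A (P i j) = _
    rw [toK_apply, h1, Matrix.one_apply, Matrix.one_apply]
    split_ifs <;> simp
  refine ⟨MT, Good.of_injective h𝒟 T.val Subtype.val_injective
    (h.conj P hPu hconj ?_), P, hPu, hconj⟩
  ext1 σ
  have h2 := congrArg (toK 𝒪 A : A →+* ResidueField 𝒪).mapMatrix (hconj σ)
  rw [map_mul, map_mul, hPr', one_mul, mul_one] at h2
  rw [← h.lift]
  exact h2.symm

theorem trace_eq_of_conj {A : Type*} [CommRing A] {X Y P : Matrix (Fin 2) (Fin 2) A}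
    (hP : IsUnit P) (h : P * X = Y * P) : X.trace = Y.trace := by
  obtain ⟨Q, hPQ, hQP⟩ := isUnit_iff_exists.mp hP
  have : X = Q * (Y * P) := by rw [← h, ← mul_assoc, hQP, one_mul]
  rw [this, Matrix.trace_mul_comm, mul_assoc, hPQ, mul_one]

end good

end Fermat.Agent.UDef
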