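import Mathlib
import Fermat.Agent.DefRing.Good

set_option autoImplicit false

namespace Fermat.Agent.UDef

open Matrix IsLocalRing

section

variable (𝒪 : Type) [CommRing 𝒪] [IsLocalRing 𝒪]

/-- The dual numbers over the residue field, as an `𝒪`-algebra. -/
def Dual : Type := DualNumber (ResidueField 𝒪)

noncomputable instance : CommRing (Dual 𝒪) := inferInstanceAs (CommRing (DualNumber (ResidueField 𝒪)))

instance : IsLocalRing (Dual 𝒪) := inferInstanceAs (IsLocalRing (DualNumber (ResidueField 𝒪)))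

noncomputable instance : Algebra 𝒪 (Dual 𝒪) :=
  ((algebraMap (ResidueField 𝒪) (DualNumber (ResidueField 𝒪))).comp
      (algebraMap 𝒪 (ResidueField 𝒪))).toAlgebra

instance [Finite (ResidueField 𝒪)] : Finite (Dual 𝒪) :=
  inferInstanceAs (Finite (ResidueField 𝒪 × ResidueField 𝒪))

variable {𝒪}

/-- constant term -/
noncomputable def dfst (x : Dual 𝒪) : ResidueField 𝒪 := TrivSqZeroExt.fst (R := ResidueField 𝒪)
  (M := ResidueField 𝒪) x

/-- coefficient of `ε` -/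
noncomputable def dsnd (x : Dual 𝒪) : ResidueField 𝒪 := TrivSqZeroExt.snd (R := ResidueField 𝒪)
  (M := ResidueField 𝒪) x

/-- constructor -/
noncomputable def dmk (a b : ResidueField 𝒪) : Dual 𝒪 :=
  (TrivSqZeroExt.inl a + TrivSqZeroExt.inr b : DualNumber (ResidueField 𝒪))

@[simp] theorem dfst_dmk (a b : ResidueField 𝒪) : dfst (dmk a b) = a := by simp [dfst, dmk]
@[simp] theorem dsnd_dmk (a b : ResidueField 𝒪) : dsnd (dmk a b) = b := by simp [dsnd, dmk]

theorem dual_ext {x y : Dual 𝒪} (h1 : dfst x = dfst y) (h2 : dsnd x = dsnd y) : x = y :=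
  TrivSqZeroExt.ext h1 h2

@[simp] theorem dfst_add (x y : Dual 𝒪) : dfst (x + y) = dfst x + dfst y := rfl
@[simp] theorem dsnd_add (x y : Dual 𝒪) : dsnd (x + y) = dsnd x + dsnd y := rfl
@[simp] theorem dfst_mul (x y : Dual 𝒪) : dfst (x * y) = dfst x * dfst y := rfl
@[simp] theorem dsnd_mul (x y : Dual 𝒪) : dsnd (x * y) = dfst x * dsnd y + dfst y * dsnd x := by
  have := TrivSqZeroExt.snd_mul (R := ResidueField 𝒪) (M := ResidueField 𝒪) x y
  rw [smul_eq_mul, op_smul_eq_smul, smul_eq_mul] at this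
  exact this
@[simp] theorem dfst_one : dfst (1 : Dual 𝒪) = 1 := rfl
@[simp] theorem dsnd_one : dsnd (1 : Dual 𝒪) = 0 := rfl
@[simp] theorem dfst_zero : dfst (0 : Dual 𝒪) = 0 := rfl
@[simp] theorem dsnd_zero : dsnd (0 : Dual 𝒪) = 0 := rfl
@[simp] theorem dfst_algebraMap (c : 𝒪) : dfst (algebraMap 𝒪 (Dual 𝒪) c) = residue 𝒪 c := rfl
@[simp] theorem dsnd_algebraMap (c : 𝒪) : dsnd (algebraMap 𝒪 (Dual 𝒪) c) = 0 := rfl

instance : CoefAlg 𝒪 (Dual 𝒪) :=
  coefAlg_of_toK (A := Dual 𝒪)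
    { toFun := dfst
      map_one' := rfl
      map_mul' := fun _ _ => rfl
      map_zero' := rfl
      map_add' := fun _ _ => rfl
      commutes' := fun _ => rfl } fun x hx => by
    have hx' : dfst x ≠ 0 := hx
    refine IsUnit.of_mul_eq_one (dmk (dfst x)⁻¹ (-(dfst x)⁻¹ * (dfst x)⁻¹ * dsnd x)) ?_
    apply dual_ext
    · simp [hx']
    · simp
      field_simp
      ring

theorem toK_dual (x : Dual 𝒪) : toK 𝒪 (Dual 𝒪) x = dfst x := by
  let f : Dual 𝒪 →ₐ[𝒪] ResidueField 𝒪 :=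
    { toFun := dfst
      map_one' := rfl
      map_mul' := fun _ _ => rfl
      map_zero' := rfl
      map_add' := fun _ _ => rfl
      commutes' := fun _ => rfl }
  have : f = toK 𝒪 (Dual 𝒪) := toK_unique f
  rw [← this]; rfl

end

section residual

variable {𝒪 : Type} [CommRing 𝒪] [IsLocalRing 𝒪]
  {𝒟 : ∀ ⦃A : Type⦄ [CommRing A] [IsLocalRing A] [Algebra 𝒪 A], GaloisRepAdic A → Prop}
  {Mbar : GalQ →* Matrix (Fin 2) (Fin 2) (ResidueField 𝒪)}
  {ρbar : ResidualGaloisRep (ResidueField 𝒪)}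

variable {A : Type} [CommRing A] [IsLocalRing A] [Algebra 𝒪 A] [CoefAlg 𝒪 A]

theorem mapRep_residue_of_lift {M : GalQ →* Matrix (Fin 2) (Fin 2) A}
    (h : mapRep (toK 𝒪 A : A →+* ResidueField 𝒪) M = Mbar) :
    mapRep (residue A) M = mapRep (resEquiv 𝒪 A : ResidueField 𝒪 →+* ResidueField A) Mbar := by
  rw [← h, mapRep_mapRep]
  congr 1
  ext a
  exact (resEquiv_toK 𝒪 A a).symm

theorem residual_isEquiv_of_lift (hbar : IsModelR ρbar Mbar) {ρ : GaloisRepAdic A}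
    {M : GalQ →* Matrix (Fin 2) (Fin 2) A} (hM : IsModel ρ M)
    (h : mapRep (toK 𝒪 A : A →+* ResidueField 𝒪) M = Mbar) :
    ρ.residual.IsEquiv
      (ρbar.baseChangeAlong (resEquiv 𝒪 A : ResidueField 𝒪 →+* ResidueField A)) := by
  refine hM.residual.isEquiv (hbar.baseChangeAlong _) 1 isUnit_one fun σ => ?_
  rw [one_mul, mul_one, mapRep_residue_of_lift h]

/-- Conversely a representation with the right residual representation has a model lifting `Mbar`. -/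
theorem exists_lift_of_residual (hbar : IsModelR ρbar Mbar) {ρ : GaloisRepAdic A}
    (h : ρ.residual.IsEquiv
      (ρbar.baseChangeAlong (resEquiv 𝒪 A : ResidueField 𝒪 →+* ResidueField A))) :
    ∃ M, IsModel ρ M ∧ mapRep (toK 𝒪 A : A →+* ResidueField 𝒪) M = Mbar := by
  obtain ⟨M₀, hM₀⟩ := exists_model ρ
  obtain ⟨Pbar, hPbar, hPM⟩ := hM₀.residual.exists_conj (hbar.baseChangeAlong _) h
  -- lift Pbar
  let P : Matrix (Fin 2) (Fin 2) A :=
    Matrix.of fun i j => Function.surjInv IsLocalRing.residue_surjective (Pbar i j)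
  have hPr : (residue A).mapMatrix P = Pbar := by
    ext i j
    exact Function.surjInv_eq IsLocalRing.residue_surjective (Pbar i j)
  have hP : IsUnit P := by
    rw [Matrix.isUnit_iff_isUnit_det]
    by_contra hn
    have h1 : residue A P.det = 0 := (residue_eq_zero_iff _).mpr ((mem_maximalIdeal _).mpr hn)
    rw [RingHom.map_det, hPr] at h1
    rw [Matrix.isUnit_iff_isUnit_det, h1] at hPbar
    exact not_isUnit_zero hPbar
  obtain ⟨Q, hPQ, hQP⟩ := isUnit_iff_exists.mp hP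
  let M : GalQ →* Matrix (Fin 2) (Fin 2) A :=
    { toFun := fun σ => P * M₀ σ * Q
      map_one' := by rw [map_one, mul_one, hPQ]
      map_mul' := fun σ τ => by
        calc P * M₀ (σ * τ) * Q = P * M₀ σ * 1 * M₀ τ * Q := by
              rw [map_mul, mul_one]; simp only [mul_assoc]
          _ = (P * M₀ σ * Q) * (P * M₀ τ * Q) := by rw [← hQP]; simp only [mul_assoc] }
  have hMσ : ∀ σ, M σ = P * M₀ σ * Q := fun σ => rfl
  refine ⟨M, hM₀.of_conj P hP fun σ => by rw [hMσ, mul_assoc, hQP, mul_one], ?_⟩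
  have h2 : mapRep (residue A) M = mapRep (resEquiv 𝒪 A : ResidueField 𝒪 →+* ResidueField A) Mbar := by
    ext1 σ
    have h3 : (residue A).mapMatrix P * (residue A).mapMatrix (M₀ σ) =
      (resEquiv 𝒪 A : ResidueField 𝒪 →+* ResidueField A).mapMatrix (Mbar σ) *
        (residue A).mapMatrix P := by
      rw [hPr]; exact hPM σ
    have h4 : (residue A).mapMatrix P * (residue A).mapMatrix Q = 1 := by
      rw [← map_mul, hPQ, map_one]
    change (residue A).mapMatrix (P * M₀ σ * Q) = _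
    rw [map_mul, map_mul, h3, mul_assoc, h4, mul_one]
    rfl
  have h5 : (toK 𝒪 A : A →+* ResidueField 𝒪) =
      ((resEquiv 𝒪 A).symm : ResidueField A →+* ResidueField 𝒪).comp (residue A) := rfl
  rw [h5, ← mapRep_mapRep, h2, mapRep_mapRep]
  have h6 : ((resEquiv 𝒪 A).symm : ResidueField A →+* ResidueField 𝒪).comp
      (resEquiv 𝒪 A : ResidueField 𝒪 →+* ResidueField A) = RingHom.id _ := by
    ext x; simp
  rw [h6]
  rfl

end residual

section tangent

variable {𝒪 : Type} [CommRing 𝒪] [IsLocalRing 𝒪]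
  {𝒟 : ∀ ⦃A : Type⦄ [CommRing A] [IsLocalRing A] [Algebra 𝒪 A], GaloisRepAdic A → Prop}
  {Mbar : GalQ →* Matrix (Fin 2) (Fin 2) (ResidueField 𝒪)}
  {ρbar : ResidualGaloisRep (ResidueField 𝒪)}

/-- The set of trace functions of good lifts to the dual numbers is finite. -/
theorem finite_traces (hbar : IsModelR ρbar Mbar) (hfin : GaloisRep.TangentFinite 𝒪 ρbar 𝒟) :
    {f : GalQ → Dual 𝒪 | ∃ M : GalQ →* Matrix (Fin 2) (Fin 2) (Dual 𝒪), Good 𝒟 Mbar M ∧
      f = fun σ => (M σ).trace}.Finite := by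
  unfold GaloisRep.TangentFinite at hfin
  let _ : Algebra (ResidueField 𝒪) (ResidueField (DualNumber (ResidueField 𝒪))) :=
    ((IsLocalRing.residue (DualNumber (ResidueField 𝒪))).comp
      (algebraMap (ResidueField 𝒪) (DualNumber (ResidueField 𝒪)))).toAlgebra
  let X := {ρ : GaloisRepAdic (Dual 𝒪) // 𝒟 ρ ∧ ρ.residual.IsEquiv
    (ρbar.baseChange (ResidueField (DualNumber (ResidueField 𝒪))))}
  let S : Setoid X := ⟨fun ρ ρ' => ρ.1.IsEquiv ρ'.1, ⟨fun ρ => ⟨GaloisRepAdic.Equiv.refl ρ.1⟩,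
        fun ⟨e⟩ => ⟨e.symm⟩, fun ⟨e⟩ ⟨e'⟩ => ⟨e.trans e'⟩⟩⟩
  have hS : Finite (Quotient S) := hfin
  let F : Quotient S → (GalQ → Dual 𝒪) := Quotient.lift (fun ρ σ => ρ.1.trace σ) (by
    intro ρ ρ' h
    obtain ⟨M, hM⟩ := exists_model ρ.1
    have hM' := hM.of_isEquiv h
    ext σ
    rw [hM.trace, hM'.trace])
  refine Set.Finite.subset (Set.finite_range F) ?_
  rintro f ⟨M, hM, rfl⟩
  obtain ⟨ρ, hρ, hD⟩ := hM.exists_type
  have hres : ρ.residual.IsEquiv
      (ρbar.baseChange (ResidueField (DualNumber (ResidueField 𝒪)))) := by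
    have hb := hbar.baseChange (k' := ResidueField (DualNumber (ResidueField 𝒪)))
    refine IsModelR.isEquiv hρ.residual hb 1 isUnit_one fun σ => ?_
    rw [one_mul, mul_one, mapRep_residue_of_lift hM.lift]
    have h1 : (resEquiv 𝒪 (Dual 𝒪) : ResidueField 𝒪 →+* ResidueField (Dual 𝒪)) =
        algebraMap (ResidueField 𝒪) (ResidueField (DualNumber (ResidueField 𝒪))) := by
      ext x
      obtain ⟨c, rfl⟩ := IsLocalRing.residue_surjective x
      rfl
    rw [h1]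
    rfl
  refine ⟨Quotient.mk S ⟨ρ, hD, hres⟩, ?_⟩
  ext σ
  exact hρ.trace σ

/-- set-theoretic section of the residue map -/
noncomputable def sec (x : ResidueField 𝒪) : 𝒪 := Function.surjInv IsLocalRing.residue_surjective x

theorem residue_sec (x : ResidueField 𝒪) : residue 𝒪 (sec x) = x :=
  Function.surjInv_eq IsLocalRing.residue_surjective x

section hom

variable {A : Type} [CommRing A] [IsLocalRing A] [Algebra 𝒪 A] [CoefAlg 𝒪 A]

theorem sub_sec_mem (a : A) : a - algebraMap 𝒪 A (sec (toK 𝒪 A a)) ∈ maximalIdeal A := by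
  rw [← toK_eq_zero_iff 𝒪, map_sub, toK_algebraMap, residue_sec, sub_self]

theorem sub_mem_iff (a : A) (c : 𝒪) :
    a - algebraMap 𝒪 A c ∈ maximalIdeal A ↔ toK 𝒪 A a = residue 𝒪 c := by
  rw [← toK_eq_zero_iff 𝒪, map_sub, toK_algebraMap, sub_eq_zero]

/-- A tangent vector gives a map to the dual numbers. -/
theorem exists_dual_hom (ϖ : 𝒪) (hϖ : maximalIdeal 𝒪 = Ideal.span {ϖ})
    (ℓ : maximalIdeal A →ₗ[A] ResidueField A)
    (hℓ : ∀ h : algebraMap 𝒪 A ϖ ∈ maximalIdeal A, ℓ ⟨algebraMap 𝒪 A ϖ, h⟩ = 0) :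
    ∃ φ : A →ₐ[𝒪] Dual 𝒪, ∀ a (m : maximalIdeal A) (c : 𝒪), a = m + algebraMap 𝒪 A c →
      φ a = dmk (residue 𝒪 c) ((resEquiv 𝒪 A).symm (ℓ m)) := by
  set L : maximalIdeal A → ResidueField 𝒪 := fun m => (resEquiv 𝒪 A).symm (ℓ m) with hL
  have hLadd : ∀ m n, L (m + n) = L m + L n := fun m n => by simp [hL]
  have hLsub : ∀ m n, L (m - n) = L m - L n := fun m n => by simp [hL]
  have hLsmul : ∀ (a : A) m, L (a • m) = toK 𝒪 A a * L m := fun a m => by
    simp only [hL, map_smul, Algebra.smul_def, map_mul]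
    rfl
  have hLc : ∀ (c : 𝒪) (_ : c ∈ maximalIdeal 𝒪) (h : algebraMap 𝒪 A c ∈ maximalIdeal A),
      L ⟨algebraMap 𝒪 A c, h⟩ = 0 := by
    intro c hc h
    rw [hϖ, Ideal.mem_span_singleton'] at hc
    obtain ⟨d, rfl⟩ := hc
    have hϖm : algebraMap 𝒪 A ϖ ∈ maximalIdeal A :=
      CoefAlg.algebraMap_mem (hϖ ▸ Ideal.mem_span_singleton_self ϖ)
    have h1 : (⟨algebraMap 𝒪 A (d * ϖ), h⟩ : maximalIdeal A) =
        algebraMap 𝒪 A d • ⟨algebraMap 𝒪 A ϖ, hϖm⟩ := by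
      apply Subtype.ext
      change algebraMap 𝒪 A (d * ϖ) = algebraMap 𝒪 A d * algebraMap 𝒪 A ϖ
      rw [map_mul]
    rw [h1, hLsmul]
    simp [hL, hℓ hϖm]
  have key : ∀ (m m' : maximalIdeal A) (c c' : 𝒪),
      (m : A) + algebraMap 𝒪 A c = m' + algebraMap 𝒪 A c' → L m = L m' := by
    intro m m' c c' h
    have h1 : ((m - m' : maximalIdeal A) : A) = algebraMap 𝒪 A (c' - c) := by
      rw [map_sub]
      push_cast
      linear_combination h
    have h2 : algebraMap 𝒪 A (c' - c) ∈ maximalIdeal A := h1 ▸ (m - m').2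
    have h3 : c' - c ∈ maximalIdeal 𝒪 := by
      rw [← toK_eq_zero_iff 𝒪, toK_algebraMap, residue_eq_zero_iff] at h2
      exact h2
    have h4 := hLc _ h3 h2
    have h5 : (m - m') = ⟨algebraMap 𝒪 A (c' - c), h2⟩ := Subtype.ext h1
    rw [← h5, hLsub, sub_eq_zero] at h4
    exact h4
  let φ₀ : A → Dual 𝒪 := fun a =>
    dmk (toK 𝒪 A a) (L ⟨a - algebraMap 𝒪 A (sec (toK 𝒪 A a)), sub_sec_mem a⟩)
  have hφ₀ : ∀ a (m : maximalIdeal A) (c : 𝒪), a = m + algebraMap 𝒪 A c →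
      φ₀ a = dmk (residue 𝒪 c) (L m) := by
    intro a m c h
    have h1 : toK 𝒪 A a = residue 𝒪 c := by
      rw [h, map_add, toK_algebraMap, (toK_eq_zero_iff 𝒪 A _).mpr m.2, zero_add]
    simp only [φ₀, h1]
    congr 1
    apply key _ _ (sec (residue 𝒪 c)) c
    rw [← h]
    simp
  have hdec : ∀ a : A, ∃ (m : maximalIdeal A) (c : 𝒪), a = m + algebraMap 𝒪 A c := fun a =>
    ⟨⟨_, sub_sec_mem (𝒪 := 𝒪) a⟩, sec (toK 𝒪 A a), (sub_add_cancel _ _).symm⟩
  refine ⟨{ toFun := φ₀, map_one' := ?_, map_mul' := ?_, map_zero' := ?_, map_add' := ?_,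
            commutes' := ?_ }, hφ₀⟩
  · rw [hφ₀ 1 0 1 (by simp)]
    apply dual_ext <;> simp [hL]
  · intro a b
    obtain ⟨m, c, ha⟩ := hdec a
    obtain ⟨n, d, hb⟩ := hdec b
    have hab : a * b = ((b • m + algebraMap 𝒪 A c • n : maximalIdeal A) : A)
        + algebraMap 𝒪 A (c * d) := by
      rw [map_mul]
      push_cast
      rw [smul_eq_mul, smul_eq_mul]
      rw [hb, ha]
      ring
    have hbK : toK 𝒪 A b = residue 𝒪 d := by
      rw [hb, map_add, toK_algebraMap, (toK_eq_zero_iff 𝒪 A _).mpr n.2, zero_add]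
    rw [hφ₀ _ _ _ hab, hφ₀ _ _ _ ha, hφ₀ _ _ _ hb, hLadd, hLsmul, hLsmul, toK_algebraMap, hbK]
    apply dual_ext
    · simp
    · simp
      ring
  · rw [hφ₀ 0 0 0 (by simp)]
    apply dual_ext <;> simp [hL]
  · intro a b
    obtain ⟨m, c, ha⟩ := hdec a
    obtain ⟨n, d, hb⟩ := hdec b
    have hab : a + b = ((m + n : maximalIdeal A) : A) + algebraMap 𝒪 A (c + d) := by
      rw [map_add, ha, hb]
      push_cast
      ring
    rw [hφ₀ _ _ _ hab, hφ₀ _ _ _ ha, hφ₀ _ _ _ hb, hLadd]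
    apply dual_ext <;> simp
  · intro c
    rw [hφ₀ (algebraMap 𝒪 A c) 0 c (by simp)]
    apply dual_ext <;> simp [hL]

end hom

/-- Trace coordinates. -/
noncomputable def xc {A : Type} [CommRing A] [Algebra 𝒪 A]
    (Mbar : GalQ →* Matrix (Fin 2) (Fin 2) (ResidueField 𝒪))
    (M : GalQ →* Matrix (Fin 2) (Fin 2) A) (σ : GalQ) : A :=
  (M σ).trace - algebraMap 𝒪 A (sec (Mbar σ).trace)

theorem toK_trace {A : Type} [CommRing A] [IsLocalRing A] [Algebra 𝒪 A] [CoefAlg 𝒪 A]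
    {M : GalQ →* Matrix (Fin 2) (Fin 2) A}
    (h : mapRep (toK 𝒪 A : A →+* ResidueField 𝒪) M = Mbar) (σ : GalQ) :
    toK 𝒪 A (M σ).trace = (Mbar σ).trace := by
  rw [← h, mapRep_apply, Matrix.trace_fin_two, Matrix.trace_fin_two, map_add]
  rfl

theorem xc_mem {A : Type} [CommRing A] [IsLocalRing A] [Algebra 𝒪 A] [CoefAlg 𝒪 A]
    {M : GalQ →* Matrix (Fin 2) (Fin 2) A}
    (h : mapRep (toK 𝒪 A : A →+* ResidueField 𝒪) M = Mbar) (σ : GalQ) :
    xc Mbar M σ ∈ maximalIdeal A := by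
  rw [xc, sub_mem_iff, toK_trace h, residue_sec]

/-- **Finiteness of the tangent space gives uniformly finitely many trace generators of the
maximal ideal.** -/
theorem exists_tangent_gens [Finite (ResidueField 𝒪)] (h𝒟 : GaloisRep.IsDeformationCondition 𝒪 𝒟)
    (hbar : IsModelR ρbar Mbar) (hfin : GaloisRep.TangentFinite 𝒪 ρbar 𝒟)
    (ϖ : 𝒪) (hϖ : maximalIdeal 𝒪 = Ideal.span {ϖ}) :
    ∃ F : Finset GalQ, ∀ (A : Type) [CommRing A] [IsLocalRing A] [Algebra 𝒪 A] [CoefAlg 𝒪 A]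
      [Finite A] (M : GalQ →* Matrix (Fin 2) (Fin 2) A), Good 𝒟 Mbar M → trAlg 𝒪 M = ⊤ →
      maximalIdeal A =
        Ideal.span (insert (algebraMap 𝒪 A ϖ) ((fun σ => xc Mbar M σ) '' (F : Set GalQ))) := by
  classical
  set 𝓕 := {f : GalQ → Dual 𝒪 | ∃ M : GalQ →* Matrix (Fin 2) (Fin 2) (Dual 𝒪), Good 𝒟 Mbar M ∧
      f = fun σ => (M σ).trace} with h𝓕
  have h𝓕fin : 𝓕.Finite := finite_traces hbar hfin
  have hch : ∀ f : GalQ → Dual 𝒪, ∃ σ : GalQ, (∃ τ, dsnd (f τ) ≠ 0) → dsnd (f σ) ≠ 0 := by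
    intro f
    by_cases h : ∃ τ, dsnd (f τ) ≠ 0
    · obtain ⟨τ, hτ⟩ := h
      exact ⟨τ, fun _ => hτ⟩
    · exact ⟨1, fun h' => absurd h' h⟩
  choose g hg using hch
  refine ⟨h𝓕fin.toFinset.image g, ?_⟩
  intro A _ _ _ _ _ M hM htr
  have hϖm : algebraMap 𝒪 A ϖ ∈ maximalIdeal A :=
    CoefAlg.algebraMap_mem (hϖ ▸ Ideal.mem_span_singleton_self ϖ)
  set s : Set (maximalIdeal A) := insert ⟨algebraMap 𝒪 A ϖ, hϖm⟩
    ((fun σ => (⟨xc Mbar M σ, xc_mem hM.lift σ⟩ : maximalIdeal A)) ''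
      (h𝓕fin.toFinset.image g : Set GalQ)) with hs
  have himg : Subtype.val '' s = insert (algebraMap 𝒪 A ϖ)
      ((fun σ => xc Mbar M σ) '' (h𝓕fin.toFinset.image g : Set GalQ)) := by
    rw [hs, Set.image_insert_eq, Set.image_image]
  suffices hspan : Submodule.span A s = ⊤ by
    have h1 := congrArg (Submodule.map (maximalIdeal A).subtype) hspan
    rw [Submodule.map_span, Submodule.map_top, Submodule.range_subtype] at h1
    rw [← himg]
    exact h1.symm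
  rw [← IsLocalRing.CotangentSpace.span_image_eq_top_iff]
  by_contra hne
  obtain ⟨ℓ', hℓ'0, hℓ'⟩ := Submodule.exists_le_ker_of_lt_top _ (lt_top_iff_ne_top.mpr hne)
  let ℓ : maximalIdeal A →ₗ[A] ResidueField A :=
    (ℓ'.restrictScalars A).comp (maximalIdeal A).toCotangent
  have hℓs : ∀ x ∈ s, ℓ x = 0 := fun x hx => hℓ' (Submodule.subset_span ⟨x, hx, rfl⟩)
  obtain ⟨φ, hφ⟩ := exists_dual_hom ϖ hϖ ℓ (fun h => hℓs _ (Set.mem_insert _ _))
  have hφtr : ∀ σ, φ (M σ).trace = dmk (Mbar σ).trace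
      ((resEquiv 𝒪 A).symm (ℓ ⟨xc Mbar M σ, xc_mem hM.lift σ⟩)) := by
    intro σ
    rw [hφ _ ⟨xc Mbar M σ, xc_mem hM.lift σ⟩ (sec (Mbar σ).trace) (by simp [xc]), residue_sec]
  have hgood : Good 𝒟 Mbar (mapRep (φ : A →+* Dual 𝒪) M) := hM.map h𝒟 φ
  have htrφ : ∀ σ, (mapRep (φ : A →+* Dual 𝒪) M σ).trace = φ (M σ).trace := by
    intro σ
    rw [mapRep_apply, Matrix.trace_fin_two, Matrix.trace_fin_two, map_add]
    rfl
  set f : GalQ → Dual 𝒪 := fun σ => (mapRep (φ : A →+* Dual 𝒪) M σ).trace with hf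
  have hf𝓕 : f ∈ 𝓕 := ⟨_, hgood, rfl⟩
  have hfσ : ∀ σ, dsnd (f σ) = (resEquiv 𝒪 A).symm (ℓ ⟨xc Mbar M σ, xc_mem hM.lift σ⟩) := by
    intro σ
    simp only [hf]
    rw [htrφ, hφtr, dsnd_dmk]
  have hf0 : ∀ σ, dsnd (f σ) = 0 := by
    by_contra hcon
    push Not at hcon
    apply hg f hcon
    rw [hfσ, hℓs, map_zero]
    refine Set.mem_insert_of_mem _ ⟨g f, ?_, rfl⟩
    simp only [Finset.coe_image, Set.Finite.coe_toFinset]
    exact ⟨f, hf𝓕, rfl⟩
  -- hence `φ` takes values in `k`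
  have hall : ∀ a, dsnd (φ a) = 0 := by
    intro a
    have ha : a ∈ trAlg 𝒪 M := by rw [htr]; trivial
    induction ha using Algebra.adjoin_induction with
    | mem x hx =>
      obtain ⟨σ, rfl⟩ := hx
      rw [← htrφ]
      exact hf0 σ
    | algebraMap c => rw [AlgHom.commutes, dsnd_algebraMap]
    | add x y _ _ hx hy => rw [map_add, dsnd_add, hx, hy, add_zero]
    | mul x y _ _ hx hy => rw [map_mul, dsnd_mul, hx, hy, mul_zero, mul_zero, add_zero]
  apply hℓ'0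
  ext x
  obtain ⟨m, rfl⟩ := Ideal.toCotangent_surjective _ x
  have h1 := hall m
  rw [hφ _ m 0 (by simp), dsnd_dmk] at h1
  have h2 : ℓ m = 0 := by
    have := congrArg (resEquiv 𝒪 A) h1
    simpa using this
  exact h2

end tangent

end Fermat.Agent.UDef
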