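import Mathlib
import Fermat.Agent.DefRing.Coef

set_option autoImplicit false

namespace Fermat.Agent.UDef

open IsLocalRing

section density

variable {ι R : Type*} [CommRing R]

/-- the ideal of variables -/
noncomputable abbrev varIdeal (ι R : Type*) [CommRing R] : Ideal (MvPowerSeries ι R) :=
  Ideal.span (Set.range MvPowerSeries.X)

theorem algebraMap_mvPolynomial (p : MvPolynomial ι R) :
    algebraMap (MvPolynomial ι R) (MvPowerSeries ι R) p = (p : MvPowerSeries ι R) := rfl

theorem map_idealOfVars : (MvPolynomial.idealOfVars ι R).map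
    (algebraMap (MvPolynomial ι R) (MvPowerSeries ι R)) = varIdeal ι R := by
  rw [MvPolynomial.idealOfVars, Ideal.map_span, ← Set.range_comp]
  congr 2
  ext1 i
  rw [Function.comp_apply, algebraMap_mvPolynomial, MvPolynomial.coe_X]

variable [Finite ι]

theorem exists_sub_coe_mem (f : MvPowerSeries ι R) (n : ℕ) :
    ∃ p : MvPolynomial ι R, f - (p : MvPowerSeries ι R) ∈ varIdeal ι R ^ n := by
  let e := MvPowerSeries.toAdicCompletionAlgEquiv ι R
  refine ⟨MvPowerSeries.truncTotal n f, ?_⟩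
  set g := f - (MvPowerSeries.truncTotal n f : MvPowerSeries ι R) with hg
  have h0 : MvPowerSeries.truncTotal n g = 0 := by
    rw [hg, map_sub, sub_eq_zero]
    ext x
    by_cases hx : Finsupp.degree x < n
    · rw [MvPowerSeries.coeff_truncTotal _ hx, MvPowerSeries.coeff_truncTotal _ hx,
        MvPolynomial.coeff_coe, MvPowerSeries.coeff_truncTotal _ hx]
    · rw [MvPowerSeries.coeff_truncTotal_eq_zero _ (not_lt.mp hx),
        MvPowerSeries.coeff_truncTotal_eq_zero _ (not_lt.mp hx)]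
  have h1 : AdicCompletion.eval (MvPolynomial.idealOfVars ι R) (MvPolynomial ι R) n (e g) = 0 := by
    change (MvPowerSeries.toAdicCompletion ι R g).val n = 0
    rw [MvPowerSeries.toAdicCompletion_apply_eq_mk_truncTotal, h0]
    rfl
  have h2 : e g ∈ (MvPolynomial.idealOfVars ι R) ^ n •
      (⊤ : Submodule (MvPolynomial ι R) (AdicCompletion (MvPolynomial.idealOfVars ι R) (MvPolynomial ι R))) := by
    rw [AdicCompletion.pow_smul_top_eq_ker_eval (MvPolynomial.idealOfVars_fg ι R)]
    exact h1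
  have h3 : g ∈ (MvPolynomial.idealOfVars ι R) ^ n •
      (⊤ : Submodule (MvPolynomial ι R) (MvPowerSeries ι R)) := by
    have := Submodule.mem_map_of_mem (f := (e.symm.toLinearEquiv).toLinearMap) h2
    rw [Submodule.map_smul''] at this
    have h4 : e.symm.toLinearEquiv.toLinearMap (e g) = g := e.symm_apply_apply g
    rw [h4] at this
    exact Submodule.smul_mono le_rfl le_top this
  rw [Ideal.smul_top_eq_map, Submodule.restrictScalars_mem, Ideal.map_pow, map_idealOfVars] at h3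
  exact h3

end density

section eval

variable {ι : Type*} [Finite ι] {𝒪 : Type*} [CommRing 𝒪]

/-- Evaluation of power series at nilpotent elements. -/
theorem exists_eval {A : Type*} [CommRing A] [Algebra 𝒪 A] (J : Ideal A) (n : ℕ) (hJ : J ^ n = ⊥)
    (x : ι → A) (hx : ∀ i, x i ∈ J) :
    ∃ φ : MvPowerSeries ι 𝒪 →ₐ[𝒪] A, ∀ i, φ (MvPowerSeries.X i) = x i := by
  have hle : ∀ a ∈ MvPolynomial.idealOfVars ι 𝒪 ^ n, MvPolynomial.aeval (R := 𝒪) x a = 0 := by
    intro a ha
    have h1 : (MvPolynomial.idealOfVars ι 𝒪).map (MvPolynomial.aeval (R := 𝒪) x).toRingHom ≤ J := by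
      rw [MvPolynomial.idealOfVars, Ideal.map_span, Ideal.span_le]
      rintro _ ⟨_, ⟨i, rfl⟩, rfl⟩
      change MvPolynomial.aeval (R := 𝒪) x (MvPolynomial.X i) ∈ J
      rw [MvPolynomial.aeval_X]
      exact hx i
    have h2 := Ideal.mem_map_of_mem (MvPolynomial.aeval (R := 𝒪) x).toRingHom ha
    rw [Ideal.map_pow] at h2
    have h3 := Ideal.pow_right_mono h1 n h2
    rw [hJ] at h3
    exact h3
  let ψ : (MvPolynomial ι 𝒪 ⧸ MvPolynomial.idealOfVars ι 𝒪 ^ n) →ₐ[𝒪] A :=
    Ideal.Quotient.liftₐ _ (MvPolynomial.aeval (R := 𝒪) x) hle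
  let τ : MvPowerSeries ι 𝒪 →ₐ[𝒪] (MvPolynomial ι 𝒪 ⧸ MvPolynomial.idealOfVars ι 𝒪 ^ n) :=
    (MvPowerSeries.truncTotalAlgHom ι 𝒪 n).restrictScalars 𝒪
  refine ⟨ψ.comp τ, fun i => ?_⟩
  have h1 : τ (MvPowerSeries.X i) = Ideal.Quotient.mk _ (MvPolynomial.X i) := by
    have := (MvPowerSeries.truncTotalAlgHom ι 𝒪 n).commutes (MvPolynomial.X i)
    rw [algebraMap_mvPolynomial, MvPolynomial.coe_X] at this
    exact this
  rw [AlgHom.comp_apply, h1]
  change MvPolynomial.aeval (R := 𝒪) x (MvPolynomial.X i) = x i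
  rw [MvPolynomial.aeval_X]

/-- Uniqueness of evaluation. -/
theorem eval_unique {A : Type*} [CommRing A] [Algebra 𝒪 A] (J : Ideal A)
    [IsHausdorff J A] (φ ψ : MvPowerSeries ι 𝒪 →ₐ[𝒪] A)
    (hφ : ∀ i, φ (MvPowerSeries.X i) ∈ J)
    (h : ∀ i, φ (MvPowerSeries.X i) = ψ (MvPowerSeries.X i)) : φ = ψ := by
  have hψ : ∀ i, ψ (MvPowerSeries.X i) ∈ J := fun i => h i ▸ hφ i
  have hpow : ∀ (χ : MvPowerSeries ι 𝒪 →ₐ[𝒪] A), (∀ i, χ (MvPowerSeries.X i) ∈ J) →
      ∀ n, ∀ g ∈ varIdeal ι 𝒪 ^ n, χ g ∈ J ^ n := by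
    intro χ hχ n g hg
    have h1 : (varIdeal ι 𝒪).map χ.toRingHom ≤ J := by
      rw [Ideal.map_span, Ideal.span_le]
      rintro _ ⟨_, ⟨i, rfl⟩, rfl⟩
      exact hχ i
    have h2 := Ideal.mem_map_of_mem χ.toRingHom hg
    rw [Ideal.map_pow] at h2
    exact Ideal.pow_right_mono h1 n h2
  have hpoly : ∀ p : MvPolynomial ι 𝒪, φ (p : MvPowerSeries ι 𝒪) = ψ (p : MvPowerSeries ι 𝒪) := by
    intro p
    induction p using MvPolynomial.induction_on with
    | C a =>
      rw [MvPolynomial.coe_C]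
      exact (φ.commutes a).trans (ψ.commutes a).symm
    | add p q hp hq => rw [MvPolynomial.coe_add, map_add, map_add, hp, hq]
    | mul_X p i hp => rw [MvPolynomial.coe_mul, map_mul, map_mul, hp, MvPolynomial.coe_X, h]
  ext f
  rw [← sub_eq_zero]
  apply IsHausdorff.haus (inferInstance : IsHausdorff J A)
  intro n
  rw [SModEq.zero, smul_eq_mul, Ideal.mul_top]
  obtain ⟨p, hp⟩ := exists_sub_coe_mem f n
  have h1 := hpow φ hφ n _ hp
  have h2 := hpow ψ hψ n _ hp
  rw [map_sub] at h1 h2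
  have h3 := Ideal.sub_mem _ h1 h2
  rw [hpoly] at h3
  convert h3 using 1
  ring

omit [Finite ι] in
/-- Surjectivity criterion. -/
theorem eval_surjective {A : Type*} [CommRing A] [Algebra 𝒪 A] (J : Ideal A) (n : ℕ) (hJ : J ^ n = ⊥)
    (hA : ∀ a : A, ∃ c : 𝒪, a - algebraMap 𝒪 A c ∈ J)
    (φ : MvPowerSeries ι 𝒪 →ₐ[𝒪] A)
    (hJφ : J = Ideal.span (Set.range fun i => φ (MvPowerSeries.X i))) :
    Function.Surjective φ := by
  have key : ∀ m : ℕ, ∀ a : A, ∃ f, a - φ f ∈ J ^ m := by
    intro m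
    induction m with
    | zero => intro a; exact ⟨0, by simp⟩
    | succ m ih =>
      intro a
      obtain ⟨c, hc⟩ := hA a
      have hc' : a - algebraMap 𝒪 A c ∈ Ideal.span (Set.range fun i => φ (MvPowerSeries.X i)) := by
        rw [← hJφ]; exact hc
      -- elements of J are congruent to elements of the image modulo J^(m+1)
      have h1 : ∀ b ∈ Ideal.span (Set.range fun i => φ (MvPowerSeries.X i)),
          ∃ f, b - φ f ∈ J ^ (m + 1) := by
        intro b hb
        induction hb using Submodule.span_induction with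
        | mem b hb =>
          obtain ⟨i, rfl⟩ := hb
          exact ⟨MvPowerSeries.X i, by simp⟩
        | zero => exact ⟨0, by simp⟩
        | add x y _ _ hx hy =>
          obtain ⟨f, hf⟩ := hx
          obtain ⟨g, hg⟩ := hy
          refine ⟨f + g, ?_⟩
          rw [map_add, add_sub_add_comm]
          exact Ideal.add_mem _ hf hg
        | smul r x hx' hx =>
          obtain ⟨f, hf⟩ := hx
          obtain ⟨g, hg⟩ := ih r
          refine ⟨g * f, ?_⟩
          have hxJ : x ∈ J := by rw [hJφ]; exact hx'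
          have : r • x - φ (g * f) = (r - φ g) * x + φ g * (x - φ f) := by
            rw [smul_eq_mul, map_mul]; ring
          rw [this]
          refine Ideal.add_mem _ ?_ (Ideal.mul_mem_left _ _ hf)
          rw [pow_succ]
          exact Ideal.mul_mem_mul hg hxJ
      obtain ⟨f, hf⟩ := h1 _ hc'
      refine ⟨f + algebraMap 𝒪 _ c, ?_⟩
      rw [map_add, AlgHom.commutes]
      convert hf using 1
      ring
  intro a
  obtain ⟨f, hf⟩ := key n a
  refine ⟨f, ?_⟩
  rw [hJ] at hf
  exact (sub_eq_zero.mp hf).symm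

end eval

section coef

variable {ι : Type} [Finite ι] {𝒪 : Type} [CommRing 𝒪] [IsLocalRing 𝒪]

/-- constant coefficient modulo the maximal ideal -/
noncomputable def psK : MvPowerSeries ι 𝒪 →ₐ[𝒪] ResidueField 𝒪 :=
  { (residue 𝒪).comp (MvPowerSeries.constantCoeff (σ := ι) (R := 𝒪)) with
    commutes' := fun c => by
      change residue 𝒪 (MvPowerSeries.constantCoeff (MvPowerSeries.C c)) = _
      rw [MvPowerSeries.constantCoeff_C]; rfl }

instance : CoefAlg 𝒪 (MvPowerSeries ι 𝒪) := coefAlg_of_toK psK (fun f hf => by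
  rw [MvPowerSeries.isUnit_iff_constantCoeff]
  by_contra hn
  exact hf ((residue_eq_zero_iff _).mpr ((mem_maximalIdeal _).mpr hn)))

end coef

end Fermat.Agent.UDef
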