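import Mathlib
import Fermat.Agent.DefRing.Tangent
import Fermat.Agent.DefRing.PS

set_option autoImplicit false

namespace Fermat.Agent.UDef

open Matrix IsLocalRing

section coord

variable {𝒪 : Type} [CommRing 𝒪] [IsLocalRing 𝒪]
  (ϖ : 𝒪) (F : Finset GalQ) (Mbar : GalQ →* Matrix (Fin 2) (Fin 2) (ResidueField 𝒪))

/-- Coordinates of a lift. -/
noncomputable def coord {A : Type} [CommRing A] [Algebra 𝒪 A]
    (M : GalQ →* Matrix (Fin 2) (Fin 2) A) : Option F → A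
  | none => algebraMap 𝒪 A ϖ
  | some σ => xc Mbar M (σ : GalQ)

variable {ϖ F Mbar}

theorem coord_map {A B : Type} [CommRing A] [Algebra 𝒪 A] [CommRing B] [Algebra 𝒪 B]
    {M : GalQ →* Matrix (Fin 2) (Fin 2) A} {M' : GalQ →* Matrix (Fin 2) (Fin 2) B}
    (f : A →ₐ[𝒪] B) (h : ∀ σ, f (M σ).trace = (M' σ).trace) (i : Option F) :
    f (coord ϖ F Mbar M i) = coord ϖ F Mbar M' i := by
  cases i with
  | none => exact f.commutes ϖ
  | some σ => rw [coord, coord, xc, xc, map_sub, AlgHom.commutes, h]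

theorem coord_mem {A : Type} [CommRing A] [IsLocalRing A] [Algebra 𝒪 A] [CoefAlg 𝒪 A]
    {M : GalQ →* Matrix (Fin 2) (Fin 2) A}
    (h : mapRep (toK 𝒪 A : A →+* ResidueField 𝒪) M = Mbar) (hϖ : ϖ ∈ maximalIdeal 𝒪)
    (i : Option F) : coord ϖ F Mbar M i ∈ maximalIdeal A := by
  cases i with
  | none => exact CoefAlg.algebraMap_mem hϖ
  | some σ => exact xc_mem h σ

theorem range_coord {A : Type} [CommRing A] [Algebra 𝒪 A]
    (M : GalQ →* Matrix (Fin 2) (Fin 2) A) :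
    Set.range (coord ϖ F Mbar M) =
      insert (algebraMap 𝒪 A ϖ) ((fun σ => xc Mbar M σ) '' (F : Set GalQ)) := by
  ext x
  constructor
  · rintro ⟨i, rfl⟩
    cases i with
    | none => exact Set.mem_insert _ _
    | some σ => exact Set.mem_insert_of_mem _ ⟨σ, σ.2, rfl⟩
  · intro hx
    rcases Set.mem_insert_iff.mp hx with rfl | ⟨σ, hσ, rfl⟩
    · exact ⟨none, rfl⟩
    · exact ⟨some ⟨σ, hσ⟩, rfl⟩

end coord

section fpair

variable {𝒪 : Type} [CommRing 𝒪] [IsLocalRing 𝒪]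
  (𝒟 : ∀ ⦃A : Type⦄ [CommRing A] [IsLocalRing A] [Algebra 𝒪 A], GaloisRepAdic A → Prop)
  (ϖ : 𝒪) (F : Finset GalQ) (Mbar : GalQ →* Matrix (Fin 2) (Fin 2) (ResidueField 𝒪))

/-- Finite pairs presented as quotients of the power series ring. -/
structure FPair : Type 1 where
  A : Type
  [cr : CommRing A]
  [lr : IsLocalRing A]
  [alg : Algebra 𝒪 A]
  [ca : CoefAlg 𝒪 A]
  [fin : Finite A]
  M : GalQ →* Matrix (Fin 2) (Fin 2) A
  good : Good 𝒟 Mbar M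
  φ : MvPowerSeries (Option F) 𝒪 →ₐ[𝒪] A
  surj : Function.Surjective φ
  hφ : ∀ i, φ (MvPowerSeries.X i) = coord ϖ F Mbar M i

attribute [instance] FPair.cr FPair.lr FPair.alg FPair.ca FPair.fin

variable {𝒟 ϖ F Mbar}

/-- The kernel ideal. -/
noncomputable def FPair.ker (X : FPair 𝒟 ϖ F Mbar) : Ideal (MvPowerSeries (Option F) 𝒪) :=
  RingHom.ker (X.φ : MvPowerSeries (Option F) 𝒪 →+* X.A)

theorem FPair.mem_ker (X : FPair 𝒟 ϖ F Mbar) (f : MvPowerSeries (Option F) 𝒪) :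
    f ∈ X.ker ↔ X.φ f = 0 := Iff.rfl

/-- The standing hypotheses of the construction. -/
structure Hyp (𝒟 : ∀ ⦃A : Type⦄ [CommRing A] [IsLocalRing A] [Algebra 𝒪 A], GaloisRepAdic A → Prop)
    (ϖ : 𝒪) (F : Finset GalQ) (Mbar : GalQ →* Matrix (Fin 2) (Fin 2) (ResidueField 𝒪)) : Prop where
  h𝒟 : GaloisRep.IsDeformationCondition 𝒪 𝒟
  hMbar : Submodule.span (ResidueField 𝒪) (Set.range Mbar) = ⊤
  hϖ : maximalIdeal 𝒪 = Ideal.span {ϖ}
  hF : ∀ (A : Type) [CommRing A] [IsLocalRing A] [Algebra 𝒪 A] [CoefAlg 𝒪 A]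
      [Finite A] (M : GalQ →* Matrix (Fin 2) (Fin 2) A), Good 𝒟 Mbar M → trAlg 𝒪 M = ⊤ →
      maximalIdeal A =
        Ideal.span (insert (algebraMap 𝒪 A ϖ) ((fun σ => xc Mbar M σ) '' (F : Set GalQ)))
  hbar : Good 𝒟 Mbar Mbar

variable (H : Hyp 𝒟 ϖ F Mbar)

theorem maximalIdeal_pow_eq_bot (A : Type) [CommRing A] [IsLocalRing A] [IsArtinianRing A] :
    ∃ n, maximalIdeal A ^ n = ⊥ := by
  obtain ⟨n, hn⟩ := IsArtinianRing.isNilpotent_jacobson_bot (R := A)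
  rw [IsLocalRing.jacobson_eq_maximalIdeal ⊥ bot_ne_top] at hn
  exact ⟨n, hn⟩

include H in
theorem Hyp.ϖ_mem : ϖ ∈ maximalIdeal 𝒪 := H.hϖ ▸ Ideal.mem_span_singleton_self ϖ

include H in
/-- Every good lift over a finite coefficient algebra comes from an `FPair`. -/
theorem exists_fpair {A : Type} [CommRing A] [IsLocalRing A] [Algebra 𝒪 A] [CoefAlg 𝒪 A] [Finite A]
    {M : GalQ →* Matrix (Fin 2) (Fin 2) A} (hM : Good 𝒟 Mbar M) :
    ∃ (X : FPair 𝒟 ϖ F Mbar) (j : X.A →ₐ[𝒪] A), Function.Injective j ∧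
      (∀ σ, j (X.M σ).trace = (M σ).trace) := by
  obtain ⟨MT, hMT, P, hP, hPM⟩ := hM.descend H.h𝒟 H.hMbar (trAlg 𝒪 M) (trace_mem_trAlg M)
  have htr : ∀ σ, (trAlg 𝒪 M).val (MT σ).trace = (M σ).trace := by
    intro σ
    rw [trace_eq_of_conj hP (hPM σ), mapRep_apply, Matrix.trace_fin_two, Matrix.trace_fin_two,
      map_add]
    rfl
  have htop : trAlg 𝒪 MT = ⊤ := by
    have h1 : (Set.range fun σ => (MT σ).trace) =
        ((↑) : trAlg 𝒪 M → A) ⁻¹' (Set.range fun σ => (M σ).trace) := by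
      ext x
      constructor
      · rintro ⟨σ, rfl⟩
        exact ⟨σ, (htr σ).symm⟩
      · rintro ⟨σ, hσ⟩
        refine ⟨σ, Subtype.ext ?_⟩
        exact (htr σ).trans hσ
    change Algebra.adjoin 𝒪 (Set.range fun σ => (MT σ).trace) = ⊤
    rw [h1]
    exact Algebra.adjoin_adjoin_coe_preimage
  obtain ⟨n, hn⟩ := maximalIdeal_pow_eq_bot (trAlg 𝒪 M)
  obtain ⟨φ, hφ⟩ := exists_eval (𝒪 := 𝒪) (maximalIdeal (trAlg 𝒪 M)) n hn (coord ϖ F Mbar MT)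
    (coord_mem hMT.lift H.ϖ_mem)
  have hsurj : Function.Surjective φ := by
    refine eval_surjective (maximalIdeal (trAlg 𝒪 M)) n hn (exists_sub_mem 𝒪 _) φ ?_
    rw [H.hF _ MT hMT htop, ← range_coord]
    congr 1
    ext x
    simp only [Set.mem_range, hφ]
  exact ⟨⟨trAlg 𝒪 M, MT, hMT, φ, hsurj, hφ⟩, (trAlg 𝒪 M).val, Subtype.val_injective, htr⟩

include H in
theorem FPair.comp_eq (X : FPair 𝒟 ϖ F Mbar) {B : Type} [CommRing B] [IsLocalRing B] [Algebra 𝒪 B]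
    [CoefAlg 𝒪 B] [IsHausdorff (maximalIdeal B) B] (j : X.A →ₐ[𝒪] B)
    (ψ : MvPowerSeries (Option F) 𝒪 →ₐ[𝒪] B)
    (h : ∀ i, j (coord ϖ F Mbar X.M i) = ψ (MvPowerSeries.X i)) : j.comp X.φ = ψ := by
  refine eval_unique (maximalIdeal B) _ _ (fun i => ?_) (fun i => ?_)
  · rw [AlgHom.comp_apply, X.hφ]
    exact map_mem_maximalIdeal j (coord_mem X.good.lift H.ϖ_mem i)
  · rw [AlgHom.comp_apply, X.hφ, h]

include H in
theorem FPair.exists_inf (X Y : FPair 𝒟 ϖ F Mbar) :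
    ∃ (Z : FPair 𝒟 ϖ F Mbar) (p : Z.A →ₐ[𝒪] X.A) (q : Z.A →ₐ[𝒪] Y.A),
      (∀ σ, p (Z.M σ).trace = (X.M σ).trace) ∧ (∀ σ, q (Z.M σ).trace = (Y.M σ).trace) ∧
      p.comp Z.φ = X.φ ∧ q.comp Z.φ = Y.φ ∧ Z.ker = X.ker ⊓ Y.ker := by
  have hXY : mapRep (toK 𝒪 X.A : X.A →+* ResidueField 𝒪) X.M =
      mapRep (toK 𝒪 Y.A : Y.A →+* ResidueField 𝒪) Y.M := by
    have h1 := X.good.lift
    have h2 := Y.good.lift
    exact h1.trans h2.symm
  have hgood : Good (A := FP 𝒪 X.A Y.A) 𝒟 Mbar (prodRep X.M Y.M hXY) :=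
    Good.of_fp H.h𝒟 (by rw [prodRep_fst]; exact X.good) (by rw [prodRep_snd]; exact Y.good)
  obtain ⟨Z, j, hj, htr⟩ := exists_fpair H hgood
  have hp : ∀ σ, ((fpFst 𝒪 X.A Y.A).comp j) (Z.M σ).trace = (X.M σ).trace := by
    intro σ
    rw [AlgHom.comp_apply, htr, Matrix.trace_fin_two, Matrix.trace_fin_two, map_add]
    rfl
  have hq : ∀ σ, ((fpSnd 𝒪 X.A Y.A).comp j) (Z.M σ).trace = (Y.M σ).trace := by
    intro σ
    rw [AlgHom.comp_apply, htr, Matrix.trace_fin_two, Matrix.trace_fin_two, map_add]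
    rfl
  have hpφ : ((fpFst 𝒪 X.A Y.A).comp j).comp Z.φ = X.φ :=
    Z.comp_eq H _ _ fun i => by rw [coord_map _ hp, X.hφ]
  have hqφ : ((fpSnd 𝒪 X.A Y.A).comp j).comp Z.φ = Y.φ :=
    Z.comp_eq H _ _ fun i => by rw [coord_map _ hq, Y.hφ]
  refine ⟨Z, (fpFst 𝒪 X.A Y.A).comp j, (fpSnd 𝒪 X.A Y.A).comp j, hp, hq, hpφ, hqφ, ?_⟩
  ext f
  rw [Ideal.mem_inf, FPair.mem_ker, FPair.mem_ker, FPair.mem_ker, ← hpφ, ← hqφ]
  constructor
  · intro h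
    simp [AlgHom.comp_apply, h]
  · rintro ⟨h1, h2⟩
    apply hj
    rw [map_zero]
    exact Subtype.ext (Prod.ext h1 h2)

include H in
/-- Compatibility of traces. -/
theorem FPair.trace_compat (X Y : FPair 𝒟 ϖ F Mbar) (hXY : X.ker ≤ Y.ker) (σ : GalQ)
    (f : MvPowerSeries (Option F) 𝒪) (hf : X.φ f = (X.M σ).trace) : Y.φ f = (Y.M σ).trace := by
  obtain ⟨Z, p, q, hp, hq, hpφ, hqφ, hker⟩ := X.exists_inf H Y
  obtain ⟨f', hf'⟩ := Z.surj (Z.M σ).trace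
  have h1 : X.φ f' = (X.M σ).trace := by
    rw [← hpφ, AlgHom.comp_apply, hf', hp]
  have h2 : f - f' ∈ X.ker := by
    rw [FPair.mem_ker, map_sub, hf, h1, sub_self]
  have h3 : Y.φ (f - f') = 0 := hXY h2
  rw [map_sub, sub_eq_zero] at h3
  rw [h3, ← hqφ, AlgHom.comp_apply, hf', hq]

/-- Quotients of pairs. -/
theorem FPair.exists_quotient (h𝒟 : GaloisRep.IsDeformationCondition 𝒪 𝒟)
    (X : FPair 𝒟 ϖ F Mbar) {B : Type} [CommRing B] [IsLocalRing B] [Algebra 𝒪 B]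
    [CoefAlg 𝒪 B] [Finite B] (f : X.A →ₐ[𝒪] B) (hf : Function.Surjective f) :
    ∃ Y : FPair 𝒟 ϖ F Mbar, Y.ker = RingHom.ker ((f.comp X.φ : MvPowerSeries (Option F) 𝒪 →ₐ[𝒪] B) :
      MvPowerSeries (Option F) 𝒪 →+* B) := by
  refine ⟨⟨B, mapRep (f : X.A →+* B) X.M, X.good.map h𝒟 f, f.comp X.φ, hf.comp X.surj, fun i => ?_⟩,
    rfl⟩
  rw [AlgHom.comp_apply, X.hφ]
  refine coord_map f (fun σ => ?_) i
  rw [mapRep_apply, Matrix.trace_fin_two, Matrix.trace_fin_two, map_add]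
  rfl

end fpair

end Fermat.Agent.UDef
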