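import Mathlib
import Fermat.Prelude.Thm_IsAdicComplete_of_module_finite
import Fermat.Agent.DefRing.FPair

set_option autoImplicit false

namespace Fermat.Agent.UDef

open Matrix IsLocalRing

section complete

/-- A Chevalley-type lemma for complete rings. -/
theorem ker_eq_pow {R : Type*} [CommRing R] (𝔪 : Ideal R) [IsAdicComplete 𝔪 R] (K : ℕ → Ideal R)
    (h1 : ∀ n, 𝔪 ^ n ≤ K n) (h2 : ∀ n, K n ≤ K (n + 1) ⊔ 𝔪 ^ n) (hanti : Antitone K)
    (h3 : ⨅ n, K n = ⊥) (n : ℕ) : K n = 𝔪 ^ n := by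
  refine le_antisymm ?_ (h1 n)
  intro x hx
  have hstep : ∀ m y, y ∈ K m → ∃ z, z ∈ K (m + 1) ∧ y - z ∈ 𝔪 ^ m := by
    intro m y hy
    obtain ⟨a, ha, b, hb, hab⟩ := Submodule.mem_sup.mp (h2 m hy)
    exact ⟨a, ha, by rw [← hab]; simpa using hb⟩
  choose! z hz hyz using hstep
  let g : ℕ → R := fun j => Nat.rec x (fun j y => z (n + j) y) j
  have hg0 : g 0 = x := rfl
  have hgs : ∀ j, g (j + 1) = z (n + j) (g j) := fun j => rfl
  have hg : ∀ j, g j ∈ K (n + j) := by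
    intro j
    induction j with
    | zero => simpa [hg0] using hx
    | succ j ih => rw [hgs]; exact hz _ _ ih
  have hgd : ∀ j, g j - g (j + 1) ∈ 𝔪 ^ (n + j) := fun j => by rw [hgs]; exact hyz _ _ (hg j)
  let f : ℕ → R := fun j => g (j - n)
  have hfs : ∀ j, f j - f (j + 1) ∈ 𝔪 ^ j := by
    intro j
    by_cases hj : n ≤ j
    · obtain ⟨i, rfl⟩ := Nat.exists_eq_add_of_le hj
      have e1 : n + i - n = i := by omega
      have e2 : n + i + 1 - n = i + 1 := by omega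
      simp only [f, e1, e2]
      exact hgd i
    · have e1 : j - n = 0 := by omega
      have e2 : j + 1 - n = 0 := by omega
      simp only [f, e1, e2, sub_self]
      exact Ideal.zero_mem _
  have hf : ∀ {m k : ℕ}, m ≤ k → f m ≡ f k [SMOD (𝔪 ^ m • ⊤ : Submodule R R)] := by
    intro m k hmk
    rw [SModEq.sub_mem, smul_eq_mul, Ideal.mul_top]
    obtain ⟨i, rfl⟩ := Nat.exists_eq_add_of_le hmk
    induction i with
    | zero => simp
    | succ i ih =>
      have h4 := Ideal.add_mem _ (ih (by omega)) (Ideal.pow_le_pow_right (by omega) (hfs (m + i)))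
      convert h4 using 1
      ring_nf
  obtain ⟨L, hL⟩ := IsPrecomplete.prec (I := 𝔪) (inferInstance : IsPrecomplete 𝔪 R) hf
  have hL' : ∀ j, f j - L ∈ 𝔪 ^ j := by
    intro j
    have := hL j
    rwa [SModEq.sub_mem, smul_eq_mul, Ideal.mul_top] at this
  have hLK : ∀ j, L ∈ K j := by
    intro j
    have h5 : f (n + j) ∈ K (n + j) := by
      have e1 : n + j - n = j := by omega
      simp only [f, e1]
      exact hg j
    have h6 := Ideal.sub_mem _ h5 (h1 _ (hL' (n + j)))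
    rw [sub_sub_cancel] at h6
    exact hanti (Nat.le_add_left j n) h6
  have hL0 : L = 0 := by
    have : L ∈ ⨅ n, K n := by rw [Submodule.mem_iInf]; exact hLK
    rw [h3] at this
    simpa using this
  have := hL' n
  simpa [f, hL0, hg0] using this

/-- Limits of compatible sequences. -/
theorem exists_lim {R : Type*} [CommRing R] (𝔪 : Ideal R) [IsAdicComplete 𝔪 R]
    (a : ∀ n : ℕ, R ⧸ 𝔪 ^ (n + 1))
    (ha : ∀ n, Ideal.Quotient.factor (Ideal.pow_le_pow_right (Nat.le_succ (n + 1))) (a (n + 1)) = a n) :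
    ∃ r : R, ∀ n, Ideal.Quotient.mk (𝔪 ^ (n + 1)) r = a n := by
  choose b hb using fun n => Ideal.Quotient.mk_surjective (a n)
  have hbs : ∀ n, b n - b (n + 1) ∈ 𝔪 ^ (n + 1) := by
    intro n
    rw [← Ideal.Quotient.eq, hb, ← ha n, ← hb (n + 1)]
    rfl
  have hf : ∀ {m k : ℕ}, m ≤ k → b m ≡ b k [SMOD (𝔪 ^ m • ⊤ : Submodule R R)] := by
    intro m k hmk
    rw [SModEq.sub_mem, smul_eq_mul, Ideal.mul_top]
    obtain ⟨i, rfl⟩ := Nat.exists_eq_add_of_le hmk
    induction i with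
    | zero => simp
    | succ i ih =>
      have h4 := Ideal.add_mem _ (ih (by omega)) (Ideal.pow_le_pow_right (by omega) (hbs (m + i)))
      convert h4 using 1
      ring_nf
  obtain ⟨L, hL⟩ := IsPrecomplete.prec (I := 𝔪) (inferInstance : IsPrecomplete 𝔪 R) hf
  have hL' : ∀ j, b j - L ∈ 𝔪 ^ j := by
    intro j
    have := hL j
    rwa [SModEq.sub_mem, smul_eq_mul, Ideal.mul_top] at this
  refine ⟨L, fun n => ?_⟩
  rw [← hb n, eq_comm, Ideal.Quotient.eq]
  have h5 := Ideal.add_mem _ (hbs n) (hL' (n + 1))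
  rwa [sub_add_sub_cancel] at h5

theorem eq_of_mk_eq {R : Type*} [CommRing R] (𝔪 : Ideal R) [IsHausdorff 𝔪 R] {x y : R}
    (h : ∀ n, Ideal.Quotient.mk (𝔪 ^ (n + 1)) x = Ideal.Quotient.mk (𝔪 ^ (n + 1)) y) : x = y := by
  rw [← sub_eq_zero]
  apply IsHausdorff.haus (inferInstance : IsHausdorff 𝔪 R)
  intro n
  rw [SModEq.zero, smul_eq_mul, Ideal.mul_top]
  have := h n
  rw [Ideal.Quotient.eq] at this
  exact Ideal.pow_le_pow_right (Nat.le_succ n) this

end complete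

section minimal

variable {𝒪 : Type} [CommRing 𝒪] [IsLocalRing 𝒪] [IsNoetherianRing 𝒪] [Finite (ResidueField 𝒪)]
  {𝒟 : ∀ ⦃A : Type⦄ [CommRing A] [IsLocalRing A] [Algebra 𝒪 A], GaloisRepAdic A → Prop}
  {ϖ : 𝒪} {F : Finset GalQ} {Mbar : GalQ →* Matrix (Fin 2) (Fin 2) (ResidueField 𝒪)}

omit [IsNoetherianRing 𝒪] in
theorem finite_quot (A : Type) [CommRing A] [IsLocalRing A] [Algebra 𝒪 A] [CoefAlg 𝒪 A]
    [IsNoetherianRing A] (n : ℕ) : Finite (A ⧸ maximalIdeal A ^ n) := by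
  have : Finite (A ⧸ maximalIdeal A) := Finite.of_equiv _ (resEquiv 𝒪 A).toEquiv
  exact Ideal.finite_quotient_pow (IsNoetherian.noetherian _) n

theorem finite_ideals_above (A : Type) [CommRing A] (I : Ideal A) [Finite (A ⧸ I)] :
    {K : Ideal A | I ≤ K}.Finite := by
  have hfin : Finite (Ideal (A ⧸ I)) := Finite.of_injective (fun K => (K : Set (A ⧸ I)))
    SetLike.coe_injective
  refine Set.Finite.of_injOn (f := fun K : Ideal A => K.map (Ideal.Quotient.mk I))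
    (t := Set.univ) (fun _ _ => trivial) ?_ Set.finite_univ
  intro K hK K' hK' h
  have h1 := congrArg (Ideal.comap (Ideal.Quotient.mk I)) h
  simp only at h1
  rw [Ideal.comap_map_of_surjective _ Ideal.Quotient.mk_surjective,
    Ideal.comap_map_of_surjective _ Ideal.Quotient.mk_surjective] at h1
  have h2 : Ideal.comap (Ideal.Quotient.mk I) ⊥ = I := by
    rw [← RingHom.ker_eq_comap_bot, Ideal.mk_ker]
  rw [h2, sup_eq_left.mpr hK, sup_eq_left.mpr hK'] at h1
  exact h1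

variable (H : Hyp 𝒟 ϖ F Mbar)

omit [IsNoetherianRing 𝒪] [Finite (ResidueField 𝒪)] in
theorem FPair.ker_le (X : FPair 𝒟 ϖ F Mbar) : X.ker ≤ maximalIdeal (MvPowerSeries (Option F) 𝒪) := by
  intro f hf
  rw [FPair.mem_ker] at hf
  apply mem_maximalIdeal_of_map X.φ
  rw [hf]
  exact Ideal.zero_mem _

omit [IsNoetherianRing 𝒪] in
include H in
theorem exists_fpair_one : ∃ X : FPair 𝒟 ϖ F Mbar,
    X.ker = maximalIdeal (MvPowerSeries (Option F) 𝒪) := by
  obtain ⟨X, j, hj, _⟩ := exists_fpair H H.hbar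
  refine ⟨X, le_antisymm X.ker_le ?_⟩
  intro f hf
  rw [FPair.mem_ker]
  apply hj
  rw [map_zero]
  have h1 := map_mem_maximalIdeal (j.comp X.φ) hf
  rw [IsLocalRing.maximalIdeal_eq_bot] at h1
  simpa using h1

include H in
theorem exists_min (n : ℕ) (hn : n ≠ 0) : ∃ U : FPair 𝒟 ϖ F Mbar,
    maximalIdeal (MvPowerSeries (Option F) 𝒪) ^ n ≤ U.ker ∧
    ∀ X : FPair 𝒟 ϖ F Mbar, maximalIdeal (MvPowerSeries (Option F) 𝒪) ^ n ≤ X.ker →
      U.ker ≤ X.ker := by
  set S : Set (Ideal (MvPowerSeries (Option F) 𝒪)) :=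
    {K | (∃ X : FPair 𝒟 ϖ F Mbar, X.ker = K) ∧
      maximalIdeal (MvPowerSeries (Option F) 𝒪) ^ n ≤ K} with hS
  have hfin : Finite (MvPowerSeries (Option F) 𝒪 ⧸
      maximalIdeal (MvPowerSeries (Option F) 𝒪) ^ n) := finite_quot (𝒪 := 𝒪) _ n
  have hSfin : S.Finite := (finite_ideals_above _
    (maximalIdeal (MvPowerSeries (Option F) 𝒪) ^ n)).subset fun K hK => hK.2
  have hSne : S.Nonempty := by
    obtain ⟨X, hX⟩ := exists_fpair_one H
    exact ⟨X.ker, ⟨X, rfl⟩, by rw [hX]; exact Ideal.pow_le_self hn⟩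
  obtain ⟨K, hK⟩ := hSfin.exists_minimal hSne
  obtain ⟨⟨U, rfl⟩, hU⟩ := hK.prop
  refine ⟨U, hU, fun X hX => ?_⟩
  obtain ⟨Z, _, _, _, _, _, _, hZ⟩ := U.exists_inf H X
  have h1 : Z.ker ∈ S := ⟨⟨Z, rfl⟩, by rw [hZ]; exact le_inf hU hX⟩
  have h2 := hK.le_of_le h1 (by rw [hZ]; exact inf_le_left)
  rw [hZ] at h2
  exact h2.trans inf_le_right

end minimal

end Fermat.Agent.UDef
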