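import Mathlib
import Fermat.Agent.DefRing.URing

set_option autoImplicit false

namespace Fermat.Agent.UDef

open Matrix IsLocalRing

section ring

variable {𝒪 : Type} [CommRing 𝒪] [IsLocalRing 𝒪] [IsNoetherianRing 𝒪] [Finite (ResidueField 𝒪)]
  (𝒟 : ∀ ⦃A : Type⦄ [CommRing A] [IsLocalRing A] [Algebra 𝒪 A], GaloisRepAdic A → Prop)
  (ϖ : 𝒪) (F : Finset GalQ) (Mbar : GalQ →* Matrix (Fin 2) (Fin 2) (ResidueField 𝒪))

/-- The intersection of all kernels. -/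
noncomputable def Jid : Ideal (MvPowerSeries (Option F) 𝒪) := ⨅ X : FPair 𝒟 ϖ F Mbar, X.ker

/-- The universal ring. -/
abbrev UR : Type := MvPowerSeries (Option F) 𝒪 ⧸ Jid 𝒟 ϖ F Mbar

variable {𝒟 ϖ F Mbar}

/-- The map to a finite pair. -/
noncomputable def FPair.ψ (X : FPair 𝒟 ϖ F Mbar) : UR 𝒟 ϖ F Mbar →ₐ[𝒪] X.A :=
  Ideal.Quotient.liftₐ _ X.φ (fun f hf => by
    rw [Jid, Submodule.mem_iInf] at hf
    exact hf X)

omit [IsNoetherianRing 𝒪] [Finite (ResidueField 𝒪)] in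
theorem FPair.ψ_mk (X : FPair 𝒟 ϖ F Mbar) (f : MvPowerSeries (Option F) 𝒪) :
    X.ψ (Ideal.Quotient.mk _ f) = X.φ f := rfl

omit [IsNoetherianRing 𝒪] [Finite (ResidueField 𝒪)] in
theorem FPair.ψ_surj (X : FPair 𝒟 ϖ F Mbar) : Function.Surjective X.ψ := by
  intro a
  obtain ⟨f, hf⟩ := X.surj a
  exact ⟨Ideal.Quotient.mk _ f, hf⟩

omit [IsNoetherianRing 𝒪] [Finite (ResidueField 𝒪)] in
theorem UR.eq_zero {x : UR 𝒟 ϖ F Mbar} (h : ∀ X : FPair 𝒟 ϖ F Mbar, X.ψ x = 0) : x = 0 := by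
  obtain ⟨f, rfl⟩ := Ideal.Quotient.mk_surjective x
  rw [Ideal.Quotient.eq_zero_iff_mem, Jid, Submodule.mem_iInf]
  exact h

variable [hH : Fact (Hyp 𝒟 ϖ F Mbar)]

omit [IsNoetherianRing 𝒪] in
theorem exists_urK : ∃ κ : UR 𝒟 ϖ F Mbar →ₐ[𝒪] ResidueField 𝒪, ∀ x, κ x ≠ 0 → IsUnit x := by
  obtain ⟨X, _⟩ := exists_fpair_one hH.out
  refine ⟨(toK 𝒪 X.A).comp X.ψ, fun x hx => ?_⟩
  obtain ⟨f, rfl⟩ := Ideal.Quotient.mk_surjective x
  have h1 : toK 𝒪 (MvPowerSeries (Option F) 𝒪) f ≠ 0 := by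
    have := toK_map X.φ f
    rw [← this]
    exact hx
  exact (isUnit_of_toK_ne_zero 𝒪 _ f h1).map _

instance : IsLocalRing (UR 𝒟 ϖ F Mbar) := by
  obtain ⟨κ, hκ⟩ := exists_urK (𝒟 := 𝒟) (ϖ := ϖ) (F := F) (Mbar := Mbar)
  exact isLocalRing_of_toK κ hκ

instance : CoefAlg 𝒪 (UR 𝒟 ϖ F Mbar) := by
  obtain ⟨κ, hκ⟩ := exists_urK (𝒟 := 𝒟) (ϖ := ϖ) (F := F) (Mbar := Mbar)
  exact coefAlg_of_toK κ hκ

omit [IsLocalRing 𝒪] [IsNoetherianRing 𝒪] [Finite (ResidueField 𝒪)] in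
theorem sub_C_mem (f : MvPowerSeries (Option F) 𝒪) :
    ∃ c : 𝒪, f - algebraMap 𝒪 _ c ∈ varIdeal (Option F) 𝒪 := by
  obtain ⟨p, hp⟩ := exists_sub_coe_mem f 1
  rw [pow_one] at hp
  have hpoly : ∀ p : MvPolynomial (Option F) 𝒪, ∃ c : 𝒪,
      (p : MvPowerSeries (Option F) 𝒪) - algebraMap 𝒪 _ c ∈ varIdeal (Option F) 𝒪 := by
    intro p
    induction p using MvPolynomial.induction_on with
    | C a => exact ⟨a, by rw [MvPolynomial.coe_C]; simp [MvPowerSeries.algebraMap_apply]⟩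
    | add p q hp hq =>
      obtain ⟨c, hc⟩ := hp
      obtain ⟨d, hd⟩ := hq
      refine ⟨c + d, ?_⟩
      rw [MvPolynomial.coe_add, map_add, add_sub_add_comm]
      exact Ideal.add_mem _ hc hd
    | mul_X p i hp =>
      refine ⟨0, ?_⟩
      rw [MvPolynomial.coe_mul, MvPolynomial.coe_X, map_zero, sub_zero]
      exact Ideal.mul_mem_left _ _ (Ideal.subset_span ⟨i, rfl⟩)
  obtain ⟨c, hc⟩ := hpoly p
  refine ⟨c, ?_⟩
  have := Ideal.add_mem _ hp hc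
  rwa [sub_add_sub_cancel] at this

omit [IsNoetherianRing 𝒪] [Finite (ResidueField 𝒪)] hH in
theorem mk_X_none : (Ideal.Quotient.mk (Jid 𝒟 ϖ F Mbar) (MvPowerSeries.X none)) =
    algebraMap 𝒪 (UR 𝒟 ϖ F Mbar) ϖ := by
  rw [← sub_eq_zero]
  apply UR.eq_zero
  intro X
  rw [map_sub, FPair.ψ_mk, X.hφ, AlgHom.commutes]
  simp [coord]

omit [IsNoetherianRing 𝒪] in
theorem maximalIdeal_UR : maximalIdeal (UR 𝒟 ϖ F Mbar) =
    (varIdeal (Option F) 𝒪).map (algebraMap (MvPowerSeries (Option F) 𝒪) (UR 𝒟 ϖ F Mbar)) := by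
  let q : MvPowerSeries (Option F) 𝒪 →ₐ[𝒪] UR 𝒟 ϖ F Mbar := Ideal.Quotient.mkₐ 𝒪 _
  apply le_antisymm
  · intro x hx
    obtain ⟨f, rfl⟩ := Ideal.Quotient.mk_surjective x
    obtain ⟨c, hc⟩ := sub_C_mem f
    have hcq : q (f - algebraMap 𝒪 _ c) ∈ (varIdeal (Option F) 𝒪).map
      (algebraMap (MvPowerSeries (Option F) 𝒪) (UR 𝒟 ϖ F Mbar)) := Ideal.mem_map_of_mem _ hc
    have hX : ∀ i, (MvPowerSeries.X i : MvPowerSeries (Option F) 𝒪) ∈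
        maximalIdeal (MvPowerSeries (Option F) 𝒪) := by
      intro i
      rw [mem_maximalIdeal, mem_nonunits_iff, MvPowerSeries.isUnit_iff_constantCoeff]
      simp
    have hvar : varIdeal (Option F) 𝒪 ≤ maximalIdeal (MvPowerSeries (Option F) 𝒪) := by
      rw [Ideal.span_le]
      rintro _ ⟨i, rfl⟩
      exact hX i
    have hc2 : c ∈ maximalIdeal 𝒪 := by
      have h1 : f ∈ maximalIdeal (MvPowerSeries (Option F) 𝒪) := mem_maximalIdeal_of_map q hx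
      have h2 := Ideal.sub_mem _ h1 (hvar hc)
      rw [sub_sub_cancel] at h2
      rw [← toK_eq_zero_iff 𝒪, toK_algebraMap, residue_eq_zero_iff] at h2
      exact h2
    rw [hH.out.hϖ, Ideal.mem_span_singleton'] at hc2
    obtain ⟨d, rfl⟩ := hc2
    have h3 : q (algebraMap 𝒪 _ (d * ϖ)) ∈ (varIdeal (Option F) 𝒪).map
      (algebraMap (MvPowerSeries (Option F) 𝒪) (UR 𝒟 ϖ F Mbar)) := by
      rw [AlgHom.commutes, map_mul, ← mk_X_none]
      exact Ideal.mul_mem_left _ _ (Ideal.mem_map_of_mem _ (Ideal.subset_span ⟨none, rfl⟩))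
    have h4 := Ideal.add_mem _ hcq h3
    rw [← map_add, sub_add_cancel] at h4
    exact h4
  · rw [Ideal.map_span, Ideal.span_le]
    rintro _ ⟨_, ⟨i, rfl⟩, rfl⟩
    refine map_mem_maximalIdeal q ?_
    rw [mem_maximalIdeal, mem_nonunits_iff, MvPowerSeries.isUnit_iff_constantCoeff]
    simp

instance : IsAdicComplete (maximalIdeal (UR 𝒟 ϖ F Mbar)) (UR 𝒟 ϖ F Mbar) := by
  rw [maximalIdeal_UR, IsAdicComplete.map_algebraMap_iff]
  exact IsAdicComplete.of_module_finite (varIdeal (Option F) 𝒪) (UR 𝒟 ϖ F Mbar)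

end ring

end Fermat.Agent.UDef
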