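import Mathlib
import Fermat.Agent.DefRing.URing2

set_option autoImplicit false

namespace Fermat.Agent.UDef

open Matrix IsLocalRing

section quot

variable {𝒪 : Type} [CommRing 𝒪] [IsLocalRing 𝒪]
  (A : Type) [CommRing A] [IsLocalRing A] [Algebra 𝒪 A] [CoefAlg 𝒪 A]

/-- The quotients `A / 𝔪^(n+1)`. -/
abbrev Qn (n : ℕ) : Type := A ⧸ maximalIdeal A ^ (n + 1)

instance finite_Qn [Finite A] (n : ℕ) : Finite (Qn A n) :=
  Finite.of_surjective _ (Ideal.Quotient.mk_surjective (I := maximalIdeal A ^ (n + 1)))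

instance isLocalRing_Qn (n : ℕ) : IsLocalRing (Qn A n) := by
  have : Nontrivial (Qn A n) := Ideal.Quotient.nontrivial_iff.mpr fun h => by
    have h1 : maximalIdeal A ^ (n + 1) ≤ maximalIdeal A := Ideal.pow_le_self (Nat.succ_ne_zero n)
    rw [h] at h1
    exact (Ideal.IsMaximal.ne_top (inferInstance : (maximalIdeal A).IsMaximal)) (top_le_iff.mp h1)
  exact IsLocalRing.of_surjective' (Ideal.Quotient.mk _) Ideal.Quotient.mk_surjective

variable {A}

variable (𝒪) in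
/-- The quotient map as an `𝒪`-algebra map. -/
noncomputable def qn (n : ℕ) : A →ₐ[𝒪] Qn A n := Ideal.Quotient.mkₐ 𝒪 _

omit [IsLocalRing 𝒪] [CoefAlg 𝒪 A] in
theorem qn_surj (n : ℕ) : Function.Surjective (qn 𝒪 (A := A) n) := Ideal.Quotient.mkₐ_surjective _ _

omit [IsLocalRing 𝒪] [CoefAlg 𝒪 A] in
theorem qn_eq_zero_iff (n : ℕ) (a : A) : qn 𝒪 n a = 0 ↔ a ∈ maximalIdeal A ^ (n + 1) :=
  Ideal.Quotient.eq_zero_iff_mem

instance coefAlg_Qn (n : ℕ) : CoefAlg 𝒪 (Qn A n) := by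
  refine coefAlg_of_toK (Ideal.Quotient.liftₐ _ (toK 𝒪 A) fun a ha => ?_) (fun x hx => ?_)
  · exact (toK_eq_zero_iff 𝒪 A a).mpr (Ideal.pow_le_self (Nat.succ_ne_zero n) ha)
  · obtain ⟨a, rfl⟩ := Ideal.Quotient.mk_surjective x
    exact (isUnit_of_toK_ne_zero 𝒪 A a hx).map _

variable (𝒪 A) in
/-- Transition maps. -/
noncomputable def qt (n : ℕ) : Qn A (n + 1) →ₐ[𝒪] Qn A n :=
  Ideal.Quotient.factorₐ 𝒪 (Ideal.pow_le_pow_right (Nat.le_succ (n + 1)))

omit [IsLocalRing 𝒪] [CoefAlg 𝒪 A] in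
theorem qt_qn (n : ℕ) (a : A) : qt 𝒪 A n (qn 𝒪 (n + 1) a) = qn 𝒪 n a := rfl

omit [IsLocalRing 𝒪] [CoefAlg 𝒪 A] in
theorem qt_surj (n : ℕ) : Function.Surjective (qt 𝒪 A n) := by
  intro x
  obtain ⟨a, rfl⟩ := qn_surj (𝒪 := 𝒪) n x
  exact ⟨qn 𝒪 (n + 1) a, rfl⟩

end quot

section lift

/-- Units of matrix rings lift along surjective local homomorphisms. -/
theorem exists_unit_lift {A B : Type*} [CommRing A] [CommRing B] (f : A →+* B) [IsLocalHom f]
    (hf : Function.Surjective f) (P : Matrix (Fin 2) (Fin 2) B) (hP : IsUnit P) :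
    ∃ P' : Matrix (Fin 2) (Fin 2) A, IsUnit P' ∧ f.mapMatrix P' = P := by
  choose g hg using hf
  refine ⟨P.map g, ?_, ?_⟩
  · rw [Matrix.isUnit_iff_isUnit_det] at hP ⊢
    have h1 : f.mapMatrix (P.map g) = P := by
      ext i j; exact hg _
    rw [← h1, ← RingHom.map_det] at hP
    exact isUnit_of_map_unit f _ hP
  · ext i j; exact hg _

/-- Conjugation of a representation. -/
theorem exists_conjRep {A : Type*} [CommRing A] (M : GalQ →* Matrix (Fin 2) (Fin 2) A)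
    (P : Matrix (Fin 2) (Fin 2) A) (hP : IsUnit P) :
    ∃ M' : GalQ →* Matrix (Fin 2) (Fin 2) A, ∀ σ, P * M σ = M' σ * P := by
  obtain ⟨Q, hPQ, hQP⟩ := isUnit_iff_exists.mp hP
  refine ⟨{ toFun := fun σ => P * M σ * Q
            map_one' := by rw [map_one, mul_one, hPQ]
            map_mul' := fun σ τ => by
              calc P * M (σ * τ) * Q = P * M σ * 1 * M τ * Q := by
                    rw [map_mul, mul_one]; simp only [mul_assoc]
                _ = (P * M σ * Q) * (P * M τ * Q) := by rw [← hQP]; simp only [mul_assoc] },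
    fun σ => ?_⟩
  change P * M σ = P * M σ * Q * P
  rw [mul_assoc (P * M σ), hQP, mul_one]

end lift

section level

variable {𝒪 : Type} [CommRing 𝒪] [IsLocalRing 𝒪] [IsNoetherianRing 𝒪] [Finite (ResidueField 𝒪)]
  {𝒟 : ∀ ⦃A : Type⦄ [CommRing A] [IsLocalRing A] [Algebra 𝒪 A], GaloisRepAdic A → Prop}
  {ϖ : 𝒪} {F : Finset GalQ} {Mbar : GalQ →* Matrix (Fin 2) (Fin 2) (ResidueField 𝒪)}
  [hH : Fact (Hyp 𝒟 ϖ F Mbar)]

omit [IsNoetherianRing 𝒪] in
theorem maximalIdeal_UR_pow (n : ℕ) : maximalIdeal (UR 𝒟 ϖ F Mbar) ^ n =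
    (maximalIdeal (MvPowerSeries (Option F) 𝒪) ^ n).map (Ideal.Quotient.mk (Jid 𝒟 ϖ F Mbar)) := by
  rw [Ideal.map_pow]
  congr 1
  let q : MvPowerSeries (Option F) 𝒪 →ₐ[𝒪] UR 𝒟 ϖ F Mbar := Ideal.Quotient.mkₐ 𝒪 _
  apply le_antisymm
  · intro x hx
    obtain ⟨f, rfl⟩ := Ideal.Quotient.mk_surjective x
    exact Ideal.mem_map_of_mem _ (mem_maximalIdeal_of_map q hx)
  · rw [Ideal.map_le_iff_le_comap]
    intro f hf
    exact map_mem_maximalIdeal q hf

omit [IsNoetherianRing 𝒪] in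
theorem FPair.ψ_eq_zero_of_pow {n : ℕ} (X : FPair 𝒟 ϖ F Mbar)
    (hX : maximalIdeal (MvPowerSeries (Option F) 𝒪) ^ n ≤ X.ker) {x : UR 𝒟 ϖ F Mbar}
    (hx : x ∈ maximalIdeal (UR 𝒟 ϖ F Mbar) ^ n) : X.ψ x = 0 := by
  rw [maximalIdeal_UR_pow, Ideal.mem_map_iff_of_surjective _ Ideal.Quotient.mk_surjective] at hx
  obtain ⟨f, hf, rfl⟩ := hx
  exact hX hf

omit [IsNoetherianRing 𝒪] [Finite (ResidueField 𝒪)] in
theorem map_pow_surj {A B : Type} [CommRing A] [IsLocalRing A] [Algebra 𝒪 A] [CoefAlg 𝒪 A]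
    [CommRing B] [IsLocalRing B] [Algebra 𝒪 B] [CoefAlg 𝒪 B] (f : A →ₐ[𝒪] B)
    (hf : Function.Surjective f) (n : ℕ) (b : B) (hb : b ∈ maximalIdeal B ^ n) :
    ∃ a ∈ maximalIdeal A ^ n, f a = b := by
  have h1 : maximalIdeal B = (maximalIdeal A).map (f : A →+* B) := by
    apply le_antisymm
    · intro x hx
      obtain ⟨a, rfl⟩ := hf x
      exact Ideal.mem_map_of_mem _ (mem_maximalIdeal_of_map f hx)
    · rw [Ideal.map_le_iff_le_comap]
      intro a ha
      exact map_mem_maximalIdeal f ha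
  rw [h1, ← Ideal.map_pow, Ideal.mem_map_iff_of_surjective (f : A →+* B) hf] at hb
  exact hb

/-- The universal pairs of each level, and the key computation of kernels. -/
theorem exists_level : ∃ U : ℕ → FPair 𝒟 ϖ F Mbar,
    (∀ n x, (U n).ψ x = 0 ↔ x ∈ maximalIdeal (UR 𝒟 ϖ F Mbar) ^ (n + 1)) ∧
    (∀ n, ∀ X : FPair 𝒟 ϖ F Mbar,
      maximalIdeal (MvPowerSeries (Option F) 𝒪) ^ (n + 1) ≤ X.ker → (U n).ker ≤ X.ker) := by
  choose U hU hUmin using fun n : ℕ => exists_min hH.out (n + 1) (Nat.succ_ne_zero n)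
  refine ⟨U, ?_, hUmin⟩
  let K : ℕ → Ideal (UR 𝒟 ϖ F Mbar) := fun n => Nat.casesOn n ⊤
    (fun m => RingHom.ker ((U m).ψ : UR 𝒟 ϖ F Mbar →+* (U m).A))
  have hK0 : K 0 = ⊤ := rfl
  have hKs : ∀ n x, x ∈ K (n + 1) ↔ (U n).ψ x = 0 := fun n x => Iff.rfl
  have h1 : ∀ n, maximalIdeal (UR 𝒟 ϖ F Mbar) ^ n ≤ K n := by
    intro n
    cases n with
    | zero => rw [hK0]; exact le_top
    | succ n =>
      intro x hx
      exact (U n).ψ_eq_zero_of_pow (hU n) hx
  have hanti : Antitone K := by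
    refine antitone_nat_of_succ_le fun n => ?_
    cases n with
    | zero => rw [hK0]; exact le_top
    | succ n =>
      intro x hx
      rw [hKs] at hx ⊢
      obtain ⟨f, rfl⟩ := Ideal.Quotient.mk_surjective x
      exact hUmin (n + 1) (U n) ((Ideal.pow_le_pow_right (Nat.le_succ _)).trans (hU n)) hx
  have h2 : ∀ n, K n ≤ K (n + 1) ⊔ maximalIdeal (UR 𝒟 ϖ F Mbar) ^ n := by
    intro n
    cases n with
    | zero => rw [pow_zero, Ideal.one_eq_top, sup_top_eq]; exact le_top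
    | succ n =>
      intro x hx
      rw [hKs] at hx
      obtain ⟨f, rfl⟩ := Ideal.Quotient.mk_surjective x
      obtain ⟨Y, hY⟩ := (U (n + 1)).exists_quotient hH.out.h𝒟 (qn 𝒪 (A := (U (n + 1)).A) n)
        (qn_surj n)
      have h3 : maximalIdeal (MvPowerSeries (Option F) 𝒪) ^ (n + 1) ≤ Y.ker := by
        intro g hg
        rw [hY, RingHom.mem_ker]
        change qn 𝒪 n ((U (n + 1)).φ g) = 0
        rw [qn_eq_zero_iff]
        have h4 : (maximalIdeal (MvPowerSeries (Option F) 𝒪)).map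
            ((U (n + 1)).φ : MvPowerSeries (Option F) 𝒪 →+* (U (n + 1)).A) ≤
            maximalIdeal (U (n + 1)).A := by
          rw [Ideal.map_le_iff_le_comap]
          intro a ha
          exact map_mem_maximalIdeal (U (n + 1)).φ ha
        have h5 := Ideal.mem_map_of_mem
          ((U (n + 1)).φ : MvPowerSeries (Option F) 𝒪 →+* (U (n + 1)).A) hg
        rw [Ideal.map_pow] at h5
        exact Ideal.pow_right_mono h4 _ h5
      have h6 : f ∈ Y.ker := hUmin n Y h3 hx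
      rw [hY, RingHom.mem_ker] at h6
      change qn 𝒪 n ((U (n + 1)).φ f) = 0 at h6
      rw [qn_eq_zero_iff] at h6
      obtain ⟨y, hy, hyf⟩ := map_pow_surj (U (n + 1)).ψ (U (n + 1)).ψ_surj (n + 1) _ h6
      rw [Submodule.mem_sup]
      refine ⟨Ideal.Quotient.mk _ f - y, ?_, y, hy, sub_add_cancel _ _⟩
      rw [hKs, map_sub, hyf, FPair.ψ_mk, sub_self]
  have h3 : ⨅ n, K n = ⊥ := by
    rw [eq_bot_iff]
    intro x hx
    rw [Submodule.mem_iInf] at hx
    rw [Ideal.mem_bot]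
    apply UR.eq_zero
    intro X
    obtain ⟨k, hk⟩ := maximalIdeal_pow_eq_bot X.A
    have h7 : maximalIdeal (MvPowerSeries (Option F) 𝒪) ^ (k + 1) ≤ X.ker := by
      intro g hg
      rw [FPair.mem_ker]
      have h4 : (maximalIdeal (MvPowerSeries (Option F) 𝒪)).map
          (X.φ : MvPowerSeries (Option F) 𝒪 →+* X.A) ≤ maximalIdeal X.A := by
        rw [Ideal.map_le_iff_le_comap]
        intro a ha
        exact map_mem_maximalIdeal X.φ ha
      have h5 := Ideal.mem_map_of_mem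
        (X.φ : MvPowerSeries (Option F) 𝒪 →+* X.A) (Ideal.pow_le_pow_right (Nat.le_succ k) hg)
      rw [Ideal.map_pow] at h5
      have h6 := Ideal.pow_right_mono h4 _ h5
      rw [hk] at h6
      exact h6
    have h8 := hx (k + 1)
    rw [hKs] at h8
    obtain ⟨f, rfl⟩ := Ideal.Quotient.mk_surjective x
    exact hUmin k X h7 h8
  intro n x
  rw [← hKs, ker_eq_pow (maximalIdeal (UR 𝒟 ϖ F Mbar)) K h1 h2 hanti h3 (n + 1)]

end level

end Fermat.Agent.UDef
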