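import Mathlib
import Fermat.Agent.DefRing.Level

set_option autoImplicit false

namespace Fermat.Agent.UDef

open Matrix IsLocalRing

theorem trace_mapRep {A B : Type*} [CommRing A] [CommRing B] (f : A →+* B)
    (M : GalQ →* Matrix (Fin 2) (Fin 2) A) (σ : GalQ) :
    (mapRep f M σ).trace = f (M σ).trace := by
  rw [mapRep_apply, Matrix.trace_fin_two, Matrix.trace_fin_two, map_add]
  rfl

section limit

variable {𝒪 : Type} [CommRing 𝒪] [IsLocalRing 𝒪] [IsNoetherianRing 𝒪] [Finite (ResidueField 𝒪)]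
  {𝒟 : ∀ ⦃A : Type⦄ [CommRing A] [IsLocalRing A] [Algebra 𝒪 A], GaloisRepAdic A → Prop}
  {ϖ : 𝒪} {F : Finset GalQ} {Mbar : GalQ →* Matrix (Fin 2) (Fin 2) (ResidueField 𝒪)}
  [hH : Fact (Hyp 𝒟 ϖ F Mbar)]

instance finite_Qn_UR (n : ℕ) : Finite (Qn (UR 𝒟 ϖ F Mbar) n) := finite_quot (𝒪 := 𝒪) _ (n + 1)

/-- Admissible lifts of level `n`. -/
structure Adm (n : ℕ) (M : GalQ →* Matrix (Fin 2) (Fin 2) (Qn (UR 𝒟 ϖ F Mbar) n)) : Prop where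
  good : Good 𝒟 Mbar M
  tr : ∀ X : FPair 𝒟 ϖ F Mbar, maximalIdeal (MvPowerSeries (Option F) 𝒪) ^ (n + 1) ≤ X.ker →
    ∀ σ (r : UR 𝒟 ϖ F Mbar), qn 𝒪 n r = (M σ).trace → X.ψ r = (X.M σ).trace

omit [IsNoetherianRing 𝒪] in
theorem FPair.pow_le_of_level {U : FPair 𝒟 ϖ F Mbar} {n : ℕ}
    (hU : ∀ x, U.ψ x = 0 ↔ x ∈ maximalIdeal (UR 𝒟 ϖ F Mbar) ^ (n + 1)) :
    maximalIdeal (MvPowerSeries (Option F) 𝒪) ^ (n + 1) ≤ U.ker := by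
  intro f hf
  rw [FPair.mem_ker, ← FPair.ψ_mk, hU, maximalIdeal_UR_pow]
  exact Ideal.mem_map_of_mem _ hf

theorem exists_adm (n : ℕ) : ∃ M : GalQ →* Matrix (Fin 2) (Fin 2) (Qn (UR 𝒟 ϖ F Mbar) n),
    Adm n M := by
  obtain ⟨U, hU, hUmin⟩ := exists_level (𝒟 := 𝒟) (ϖ := ϖ) (F := F) (Mbar := Mbar)
  have hker : RingHom.ker (U n).ψ.toRingHom ≤
      RingHom.ker (qn 𝒪 (A := UR 𝒟 ϖ F Mbar) n).toRingHom := by
    intro x hx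
    exact (qn_eq_zero_iff n x).mpr ((hU n x).mp hx)
  let e : (U n).A →ₐ[𝒪] Qn (UR 𝒟 ϖ F Mbar) n :=
    AlgHom.liftOfSurjective (U n).ψ (U n).ψ_surj (qn 𝒪 n) hker
  have he : ∀ x, e ((U n).ψ x) = qn 𝒪 n x := fun x => AlgHom.liftOfSurjective_apply _ _ _ _ x
  refine ⟨mapRep (e : (U n).A →+* Qn (UR 𝒟 ϖ F Mbar) n) (U n).M, (U n).good.map hH.out.h𝒟 e, ?_⟩
  intro X hX σ r hr
  rw [trace_mapRep] at hr
  change qn 𝒪 n r = e ((U n).M σ).trace at hr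
  obtain ⟨f, rfl⟩ := Ideal.Quotient.mk_surjective r
  obtain ⟨y, hy⟩ := (U n).ψ_surj ((U n).M σ).trace
  rw [← hy, he, ← sub_eq_zero, ← map_sub, qn_eq_zero_iff, ← hU, map_sub, hy, sub_eq_zero] at hr
  exact (U n).trace_compat hH.out X (hUmin n X hX) σ f hr

theorem Adm.trace_eq {n : ℕ} {M M' : GalQ →* Matrix (Fin 2) (Fin 2) (Qn (UR 𝒟 ϖ F Mbar) n)}
    (h : Adm n M) (h' : Adm n M') (σ : GalQ) : (M σ).trace = (M' σ).trace := by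
  obtain ⟨U, hU, hUmin⟩ := exists_level (𝒟 := 𝒟) (ϖ := ϖ) (F := F) (Mbar := Mbar)
  obtain ⟨r, hr⟩ := qn_surj (𝒪 := 𝒪) n (M σ).trace
  obtain ⟨r', hr'⟩ := qn_surj (𝒪 := 𝒪) n (M' σ).trace
  have h1 := h.tr (U n) (FPair.pow_le_of_level (hU n)) σ r hr
  have h2 := h'.tr (U n) (FPair.pow_le_of_level (hU n)) σ r' hr'
  rw [← hr, ← hr', ← sub_eq_zero, ← map_sub, qn_eq_zero_iff, ← hU, map_sub, h1, h2, sub_self]

omit [IsNoetherianRing 𝒪] in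
theorem Adm.conj {n : ℕ} {M M' : GalQ →* Matrix (Fin 2) (Fin 2) (Qn (UR 𝒟 ϖ F Mbar) n)}
    (h : Adm n M) (P : Matrix (Fin 2) (Fin 2) (Qn (UR 𝒟 ϖ F Mbar) n)) (hP : IsUnit P)
    (hPM : ∀ σ, P * M σ = M' σ * P)
    (hM' : mapRep (toK 𝒪 (Qn (UR 𝒟 ϖ F Mbar) n) : _ →+* ResidueField 𝒪) M' = Mbar) : Adm n M' := by
  refine ⟨h.good.conj P hP hPM hM', fun X hX σ r hr => ?_⟩
  refine h.tr X hX σ r ?_
  rw [hr, trace_eq_of_conj hP (hPM σ)]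

theorem Adm.down {n : ℕ} {M : GalQ →* Matrix (Fin 2) (Fin 2) (Qn (UR 𝒟 ϖ F Mbar) (n + 1))}
    (h : Adm (n + 1) M) :
    Adm n (mapRep (qt 𝒪 (UR 𝒟 ϖ F Mbar) n : _ →+* Qn (UR 𝒟 ϖ F Mbar) n) M) := by
  refine ⟨h.good.map hH.out.h𝒟 _, fun X hX σ r hr => ?_⟩
  rw [trace_mapRep] at hr
  change qn 𝒪 n r = qt 𝒪 (UR 𝒟 ϖ F Mbar) n (M σ).trace at hr
  obtain ⟨r', hr'⟩ := qn_surj (𝒪 := 𝒪) (n + 1) (M σ).trace
  have hX' : maximalIdeal (MvPowerSeries (Option F) 𝒪) ^ (n + 1 + 1) ≤ X.ker :=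
    (Ideal.pow_le_pow_right (Nat.le_succ _)).trans hX
  have h1 := h.tr X hX' σ r' hr'
  rw [← hr', qt_qn, ← sub_eq_zero, ← map_sub, qn_eq_zero_iff] at hr
  have h2 := X.ψ_eq_zero_of_pow hX hr
  rw [map_sub, sub_eq_zero] at h2
  rw [h2, h1]

theorem exists_step (n : ℕ) (M : GalQ →* Matrix (Fin 2) (Fin 2) (Qn (UR 𝒟 ϖ F Mbar) n))
    (hM : Adm n M) : ∃ M' : GalQ →* Matrix (Fin 2) (Fin 2) (Qn (UR 𝒟 ϖ F Mbar) (n + 1)),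
      Adm (n + 1) M' ∧
      mapRep (qt 𝒪 (UR 𝒟 ϖ F Mbar) n : _ →+* Qn (UR 𝒟 ϖ F Mbar) n) M' = M := by
  obtain ⟨M₁, hM₁⟩ := exists_adm (𝒟 := 𝒟) (ϖ := ϖ) (F := F) (Mbar := Mbar) (n + 1)
  obtain ⟨P, hP, hPM⟩ := exists_conj_of_trace_eq
    (resSpan_of_lift hH.out.hMbar hM₁.down.good.lift) (resSpan_of_lift hH.out.hMbar hM.good.lift)
    (hM₁.down.trace_eq hM)
  have hloc := isLocalHom_algHom (qt 𝒪 (UR 𝒟 ϖ F Mbar) n)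
  obtain ⟨P', hP', hP'P⟩ := exists_unit_lift
    (qt 𝒪 (UR 𝒟 ϖ F Mbar) n : Qn (UR 𝒟 ϖ F Mbar) (n + 1) →+* Qn (UR 𝒟 ϖ F Mbar) n)
    (qt_surj (𝒪 := 𝒪) n) P hP
  obtain ⟨M', hM'⟩ := exists_conjRep M₁ P' hP'
  have hmap : mapRep (qt 𝒪 (UR 𝒟 ϖ F Mbar) n : _ →+* Qn (UR 𝒟 ϖ F Mbar) n) M' = M := by
    ext1 σ
    have h1 := congrArg (qt 𝒪 (UR 𝒟 ϖ F Mbar) n : Qn (UR 𝒟 ϖ F Mbar) (n + 1) →+*
      Qn (UR 𝒟 ϖ F Mbar) n).mapMatrix (hM' σ)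
    rw [map_mul, map_mul, hP'P] at h1
    have h2 := hPM σ
    have h3 : P * (mapRep (qt 𝒪 (UR 𝒟 ϖ F Mbar) n : _ →+* Qn (UR 𝒟 ϖ F Mbar) n) M₁) σ =
      (mapRep (qt 𝒪 (UR 𝒟 ϖ F Mbar) n : _ →+* Qn (UR 𝒟 ϖ F Mbar) n) M') σ * P := h1
    rw [h2] at h3
    exact (hP.mul_left_injective h3).symm
  refine ⟨M', hM₁.conj P' hP' hM' ?_, hmap⟩
  rw [← mapRep_toK (qt 𝒪 (UR 𝒟 ϖ F Mbar) n), hmap, hM.good.lift]

theorem exists_seq : ∃ M : ∀ n, GalQ →* Matrix (Fin 2) (Fin 2) (Qn (UR 𝒟 ϖ F Mbar) n),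
    (∀ n, Adm n (M n)) ∧
    ∀ n, mapRep (qt 𝒪 (UR 𝒟 ϖ F Mbar) n : _ →+* Qn (UR 𝒟 ϖ F Mbar) n) (M (n + 1)) = M n := by
  choose! s hs using fun n M => exists_step (𝒟 := 𝒟) (ϖ := ϖ) (F := F) (Mbar := Mbar) n M
  obtain ⟨M₀, hM₀⟩ := exists_adm (𝒟 := 𝒟) (ϖ := ϖ) (F := F) (Mbar := Mbar) 0
  let M : ∀ n, GalQ →* Matrix (Fin 2) (Fin 2) (Qn (UR 𝒟 ϖ F Mbar) n) :=
    fun n => Nat.rec M₀ (fun n m => s n m) n
  have hMs : ∀ n, M (n + 1) = s n (M n) := fun n => rfl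
  have hM : ∀ n, Adm n (M n) := by
    intro n
    induction n with
    | zero => exact hM₀
    | succ n ih => rw [hMs]; exact (hs n (M n) ih).1
  exact ⟨M, hM, fun n => by rw [hMs]; exact (hs n (M n) (hM n)).2⟩

theorem exists_limit_rep : ∃ M : GalQ →* Matrix (Fin 2) (Fin 2) (UR 𝒟 ϖ F Mbar),
    ∀ n, Adm n (mapRep (qn 𝒪 (A := UR 𝒟 ϖ F Mbar) n : UR 𝒟 ϖ F Mbar →+* Qn (UR 𝒟 ϖ F Mbar) n) M) := by
  obtain ⟨M, hM, hMs⟩ := exists_seq (𝒟 := 𝒟) (ϖ := ϖ) (F := F) (Mbar := Mbar)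
  have hlim : ∀ σ i j, ∃ r : UR 𝒟 ϖ F Mbar, ∀ n, qn 𝒪 n r = M n σ i j := by
    intro σ i j
    refine exists_lim (maximalIdeal (UR 𝒟 ϖ F Mbar)) (fun n => M n σ i j) (fun n => ?_)
    exact congrFun (congrFun (DFunLike.congr_fun (hMs n) σ) i) j
  choose m hm using hlim
  have hext : ∀ x y : UR 𝒟 ϖ F Mbar, (∀ n, qn 𝒪 n x = qn 𝒪 n y) → x = y := fun x y h =>
    eq_of_mk_eq (maximalIdeal (UR 𝒟 ϖ F Mbar)) h
  let Mlim : GalQ →* Matrix (Fin 2) (Fin 2) (UR 𝒟 ϖ F Mbar) :=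
    { toFun := fun σ => Matrix.of fun i j => m σ i j
      map_one' := by
        ext i j
        apply hext
        intro n
        rw [Matrix.of_apply, hm, map_one, Matrix.one_apply, Matrix.one_apply]
        split_ifs
        · exact (map_one (qn 𝒪 n)).symm
        · exact (map_zero (qn 𝒪 n)).symm
      map_mul' := fun σ τ => by
        ext i j
        apply hext
        intro n
        rw [Matrix.of_apply, hm, map_mul, Matrix.mul_apply, Matrix.mul_apply, map_sum]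
        refine Finset.sum_congr rfl fun c _ => ?_
        rw [map_mul, Matrix.of_apply, Matrix.of_apply, hm, hm] }
  refine ⟨Mlim, fun n => ?_⟩
  have : mapRep (qn 𝒪 (A := UR 𝒟 ϖ F Mbar) n : UR 𝒟 ϖ F Mbar →+* Qn (UR 𝒟 ϖ F Mbar) n) Mlim = M n := by
    ext1 σ
    ext i j
    exact hm σ i j n
  rw [this]
  exact hM n

end limit

end Fermat.Agent.UDef
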