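import Mathlib
import Fermat.Agent.DefRing.AbsIrr
import Fermat.Agent.DefRing.Limit

set_option autoImplicit false

namespace Fermat.Agent.UDef

open Matrix IsLocalRing

section hom

variable {𝒪 : Type} [CommRing 𝒪] [IsLocalRing 𝒪]

omit [IsLocalRing 𝒪] in
/-- Compatible families of algebra maps to the quotients of a complete ring lift. -/
theorem exists_lift_algHom {R A : Type} [CommRing R] [Algebra 𝒪 R] [CommRing A] [IsLocalRing A]
    [Algebra 𝒪 A] [IsAdicComplete (maximalIdeal A) A]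
    (φ : ∀ n, R →ₐ[𝒪] Qn A n) (hφ : ∀ n r, qt 𝒪 A n (φ (n + 1) r) = φ n r) :
    ∃ Φ : R →ₐ[𝒪] A, ∀ n r, qn 𝒪 n (Φ r) = φ n r := by
  have hlim : ∀ r, ∃ a : A, ∀ n, qn 𝒪 n a = φ n r := fun r =>
    exists_lim (maximalIdeal A) (fun n => φ n r) (fun n => hφ n r)
  choose Φ hΦ using hlim
  have hext : ∀ x y : A, (∀ n, qn 𝒪 n x = qn 𝒪 n y) → x = y := fun x y h =>
    eq_of_mk_eq (maximalIdeal A) h
  refine ⟨{ toFun := Φ, map_one' := ?_, map_mul' := ?_, map_zero' := ?_, map_add' := ?_,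
            commutes' := ?_ }, fun n r => hΦ r n⟩
  · apply hext; intro n; rw [hΦ, map_one, map_one]
  · intro x y; apply hext; intro n; rw [hΦ, map_mul, map_mul, hΦ, hΦ]
  · apply hext; intro n; rw [hΦ, map_zero, map_zero]
  · intro x y; apply hext; intro n; rw [hΦ, map_add, map_add, hΦ, hΦ]
  · intro c; apply hext; intro n; rw [hΦ, AlgHom.commutes, AlgHom.commutes]

end hom

section final

variable {𝒪 : Type} [CommRing 𝒪] [IsLocalRing 𝒪] [IsNoetherianRing 𝒪] [Finite (ResidueField 𝒪)]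
  {𝒟 : ∀ ⦃A : Type⦄ [CommRing A] [IsLocalRing A] [Algebra 𝒪 A], GaloisRepAdic A → Prop}
  {ϖ : 𝒪} {F : Finset GalQ} {Mbar : GalQ →* Matrix (Fin 2) (Fin 2) (ResidueField 𝒪)}
  [hH : Fact (Hyp 𝒟 ϖ F Mbar)]

section limitRep

variable {M : GalQ →* Matrix (Fin 2) (Fin 2) (UR 𝒟 ϖ F Mbar)}
  (hM : ∀ n, Adm n (mapRep (qn 𝒪 (A := UR 𝒟 ϖ F Mbar) n :
    UR 𝒟 ϖ F Mbar →+* Qn (UR 𝒟 ϖ F Mbar) n) M))

omit [IsNoetherianRing 𝒪] in
include hM in
theorem lift_of_adm : mapRep (toK 𝒪 (UR 𝒟 ϖ F Mbar) : UR 𝒟 ϖ F Mbar →+* ResidueField 𝒪) M = Mbar := by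
  rw [← mapRep_toK (qn 𝒪 (A := UR 𝒟 ϖ F Mbar) 0)]
  exact (hM 0).good.lift

include hM in
theorem mcont_of_adm : MCont M := by
  intro n
  obtain ⟨L, hL, h1⟩ := (hM n).good.mcont.factors
  refine ⟨L, hL, fun σ hσ i j => ?_⟩
  have h2 := congrFun (congrFun (h1 σ hσ) i) j
  have h3 : qn 𝒪 n ((M σ - 1) i j) = 0 := by
    rw [Matrix.sub_apply, map_sub]
    have h4 : qn 𝒪 n (M σ i j) = (1 : Matrix (Fin 2) (Fin 2) (Qn (UR 𝒟 ϖ F Mbar) n)) i j := h2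
    rw [h4, Matrix.one_apply, Matrix.one_apply]
    split_ifs
    · rw [map_one, sub_self]
    · rw [map_zero, sub_self]
  exact Ideal.pow_le_pow_right (Nat.le_succ n) ((qn_eq_zero_iff (𝒪 := 𝒪) n _).mp h3)

omit [IsNoetherianRing 𝒪] in
include hM in
theorem trace_of_adm (X : FPair 𝒟 ϖ F Mbar) (σ : GalQ) : X.ψ (M σ).trace = (X.M σ).trace := by
  obtain ⟨k, hk⟩ := maximalIdeal_pow_eq_bot X.A
  have h7 : maximalIdeal (MvPowerSeries (Option F) 𝒪) ^ (k + 1) ≤ X.ker := by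
    intro g hg
    rw [FPair.mem_ker]
    have h4 : (maximalIdeal (MvPowerSeries (Option F) 𝒪)).map
        (X.φ : MvPowerSeries (Option F) 𝒪 →+* X.A) ≤ maximalIdeal X.A := by
      rw [Ideal.map_le_iff_le_comap]
      intro a ha
      exact map_mem_maximalIdeal X.φ ha
    have h5 := Ideal.mem_map_of_mem
      (X.φ : MvPowerSeries (Option F) 𝒪 →+* X.A) (Ideal.pow_le_pow_right (Nat.le_succ k) hg)
    rw [Ideal.map_pow] at h5
    have h6 := Ideal.pow_right_mono h4 _ h5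
    rw [hk] at h6
    exact h6
  refine (hM k).tr X h7 σ _ ?_
  rw [trace_mapRep]
  rfl

include hM in
/-- In the universal ring the variables are the trace coordinates. -/
theorem mk_X_eq (i : Option F) : (Ideal.Quotient.mk (Jid 𝒟 ϖ F Mbar) (MvPowerSeries.X i)) =
    coord ϖ F Mbar M i := by
  rw [← sub_eq_zero]
  apply UR.eq_zero
  intro X
  rw [map_sub, FPair.ψ_mk, X.hφ, coord_map X.ψ (trace_of_adm hM X), sub_self]

include hM in
theorem type_of_adm (ρ : GaloisRepAdic (UR 𝒟 ϖ F Mbar)) (hρ : IsModel ρ M) : 𝒟 ρ := by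
  refine (hH.out.h𝒟.iff_forall_surjective (CoefAlg.isLocalHom) (CoefAlg.residue_surjective) ρ).mpr ?_
  intro B _ _ _ hB q hq hqs
  have : CoefAlg 𝒪 B := ⟨hB.isLocalHom, hB.residue_surjective⟩
  have : IsArtinianRing B := hB.isArtinian
  obtain ⟨n, hn⟩ := maximalIdeal_pow_eq_bot B
  have hker : RingHom.ker (qn 𝒪 (A := UR 𝒟 ϖ F Mbar) n).toRingHom ≤ RingHom.ker q.toRingHom := by
    intro x hx
    have h1 : x ∈ maximalIdeal (UR 𝒟 ϖ F Mbar) ^ n :=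
      Ideal.pow_le_pow_right (Nat.le_succ n) ((qn_eq_zero_iff (𝒪 := 𝒪) n _).mp hx)
    have h4 : (maximalIdeal (UR 𝒟 ϖ F Mbar)).map (q : UR 𝒟 ϖ F Mbar →+* B) ≤ maximalIdeal B := by
      rw [Ideal.map_le_iff_le_comap]
      intro a ha
      exact map_mem_maximalIdeal q ha
    have h5 := Ideal.mem_map_of_mem (q : UR 𝒟 ϖ F Mbar →+* B) h1
    rw [Ideal.map_pow] at h5
    have h6 := Ideal.pow_right_mono h4 _ h5
    rw [hn] at h6
    exact h6
  let e : Qn (UR 𝒟 ϖ F Mbar) n →ₐ[𝒪] B :=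
    AlgHom.liftOfSurjective (qn 𝒪 (A := UR 𝒟 ϖ F Mbar) n) (qn_surj n) q hker
  have he : e.comp (qn 𝒪 (A := UR 𝒟 ϖ F Mbar) n) = q := AlgHom.liftOfSurjective_comp _ _ _ _
  have hgood : Good 𝒟 Mbar (mapRep (e : Qn (UR 𝒟 ϖ F Mbar) n →+* B)
    (mapRep (qn 𝒪 (A := UR 𝒟 ϖ F Mbar) n : UR 𝒟 ϖ F Mbar →+* Qn (UR 𝒟 ϖ F Mbar) n) M)) :=
    (hM n).good.map hH.out.h𝒟 e
  have heq : mapRep (e : Qn (UR 𝒟 ϖ F Mbar) n →+* B)
    (mapRep (qn 𝒪 (A := UR 𝒟 ϖ F Mbar) n : UR 𝒟 ϖ F Mbar →+* Qn (UR 𝒟 ϖ F Mbar) n) M) =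
      mapRep (q : UR 𝒟 ϖ F Mbar →+* B) M := by
    rw [← he]; rfl
  rw [heq] at hgood
  exact hgood.type hH.out.h𝒟 (hρ.baseChangeAlong _ _)

variable {ρbar : ResidualGaloisRep (ResidueField 𝒪)}

include hM in
theorem universal_of_adm (hbar : IsModelR ρbar Mbar) (ρ : GaloisRepAdic (UR 𝒟 ϖ F Mbar))
    (hρ : IsModel ρ M) (A : Type) [CommRing A] [IsLocalRing A] [IsNoetherianRing A]
    [IsAdicComplete (maximalIdeal A) A] [Algebra 𝒪 A] [CoefAlg 𝒪 A]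
    (ρA : GaloisRepAdic A) (hD : 𝒟 ρA)
    (hres : ρA.residual.IsEquiv
      (ρbar.baseChangeAlong (resEquiv 𝒪 A : ResidueField 𝒪 →+* ResidueField A))) :
    ∃! φ : UR 𝒟 ϖ F Mbar →ₐ[𝒪] A, ∃ hφ : IsLocalHom (φ : UR 𝒟 ϖ F Mbar →+* A),
      (ρ.baseChangeAlong (φ : UR 𝒟 ϖ F Mbar →+* A) hφ).IsEquiv ρA := by
  obtain ⟨MA, hMA, hMAlift⟩ := exists_lift_of_residual hbar hres
  have hfin : ∀ n, Finite (Qn A n) := fun n => finite_quot (𝒪 := 𝒪) A (n + 1)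
  -- good lifts over the finite quotients of `A`
  have hgood : ∀ n, Good 𝒟 Mbar (mapRep (qn 𝒪 (A := A) n : A →+* Qn A n) MA) := by
    intro n
    refine ⟨by rw [mapRep_toK (qn 𝒪 (A := A) n), hMAlift],
      ρA.baseChangeAlong (qn 𝒪 (A := A) n : A →+* Qn A n) (isLocalHom_algHom _),
      hMA.baseChangeAlong _ _, ?_⟩
    exact (hH.out.h𝒟.iff_forall_surjective (CoefAlg.isLocalHom) (CoefAlg.residue_surjective)
      ρA).mp hD (isArtinianTestAlgebra (Qn A n)) (qn 𝒪 n) _ (qn_surj n)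
  choose X j hj htr using fun n => exists_fpair hH.out (hgood n)
  let φn : ∀ n, UR 𝒟 ϖ F Mbar →ₐ[𝒪] Qn A n := fun n => (j n).comp (X n).ψ
  have hφntr : ∀ n σ, φn n (M σ).trace = qn 𝒪 n (MA σ).trace := by
    intro n σ
    simp only [φn]
    rw [AlgHom.comp_apply, trace_of_adm hM, htr, trace_mapRep]
    rfl
  let q : MvPowerSeries (Option F) 𝒪 →ₐ[𝒪] UR 𝒟 ϖ F Mbar := Ideal.Quotient.mkₐ 𝒪 _
  have hqs : Function.Surjective q := Ideal.Quotient.mkₐ_surjective _ _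
  have hφnX : ∀ n i, φn n (q (MvPowerSeries.X i)) = qn 𝒪 n (coord ϖ F Mbar MA i) := by
    intro n i
    have h1 : q (MvPowerSeries.X i) = coord ϖ F Mbar M i := mk_X_eq hM i
    rw [h1]
    cases i with
    | none => rw [coord, coord, AlgHom.commutes, AlgHom.commutes]
    | some σ =>
      rw [coord, coord, xc, xc, map_sub, map_sub, AlgHom.commutes, AlgHom.commutes, hφntr]
  have hcoordA : ∀ i, coord ϖ F Mbar MA i ∈ maximalIdeal A := coord_mem hMAlift hH.out.ϖ_mem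
  have hcompat : ∀ n r, qt 𝒪 A n (φn (n + 1) r) = φn n r := by
    intro n r
    obtain ⟨f, rfl⟩ := hqs r
    have h1 : ((qt 𝒪 A n).comp (φn (n + 1))).comp q = (φn n).comp q := by
      refine eval_unique (maximalIdeal (Qn A n)) _ _ (fun i => ?_) (fun i => ?_)
      · rw [AlgHom.comp_apply, AlgHom.comp_apply, hφnX, qt_qn]
        exact map_mem_maximalIdeal (qn 𝒪 n) (hcoordA i)
      · rw [AlgHom.comp_apply, AlgHom.comp_apply, hφnX, qt_qn, AlgHom.comp_apply, hφnX]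
    exact DFunLike.congr_fun h1 f
  obtain ⟨Φ, hΦ⟩ := exists_lift_algHom φn hcompat
  have hextA : ∀ x y : A, (∀ n, qn 𝒪 n x = qn 𝒪 n y) → x = y := fun x y h =>
    eq_of_mk_eq (maximalIdeal A) h
  have hΦtr : ∀ σ, Φ (M σ).trace = (MA σ).trace := by
    intro σ
    apply hextA
    intro n
    rw [hΦ, hφntr]
  refine ⟨Φ, ⟨isLocalHom_algHom Φ, ?_⟩, ?_⟩
  · have hlift : mapRep (toK 𝒪 A : A →+* ResidueField 𝒪)
        (mapRep (Φ : UR 𝒟 ϖ F Mbar →+* A) M) = Mbar := by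
      rw [mapRep_toK Φ, lift_of_adm hM]
    obtain ⟨P, hP, hPM⟩ := exists_conj_of_trace_eq (resSpan_of_lift hH.out.hMbar hlift)
      (resSpan_of_lift hH.out.hMbar hMAlift) (fun σ => by
        rw [trace_mapRep]; exact hΦtr σ)
    exact (hρ.baseChangeAlong _ _).isEquiv hMA P hP hPM
  · rintro Ψ ⟨hΨ, he⟩
    have htrΨ : ∀ σ, Ψ (M σ).trace = (MA σ).trace := by
      intro σ
      have h1 := ((hρ.baseChangeAlong (Ψ : UR 𝒟 ϖ F Mbar →+* A) hΨ).of_isEquiv he).trace σ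
      rw [hMA.trace, trace_mapRep] at h1
      exact h1.symm
    have h2 : Ψ.comp q = Φ.comp q := by
      refine eval_unique (maximalIdeal A) _ _ (fun i => ?_) (fun i => ?_)
      · rw [AlgHom.comp_apply]
        have h1 : q (MvPowerSeries.X i) = coord ϖ F Mbar M i := mk_X_eq hM i
        rw [h1, coord_map Ψ htrΨ]
        exact hcoordA i
      · rw [AlgHom.comp_apply, AlgHom.comp_apply]
        have h1 : q (MvPowerSeries.X i) = coord ϖ F Mbar M i := mk_X_eq hM i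
        rw [h1, coord_map Ψ htrΨ, coord_map Φ hΦtr]
    ext r
    obtain ⟨f, rfl⟩ := hqs r
    exact DFunLike.congr_fun h2 f

end limitRep

end final

theorem nonempty_deformationRingData
    (𝒪 : Type) [CommRing 𝒪] [IsDomain 𝒪] [IsDiscreteValuationRing 𝒪]
    [IsAdicComplete (IsLocalRing.maximalIdeal 𝒪) 𝒪] [Finite (IsLocalRing.ResidueField 𝒪)]
    (ρbar : ResidualGaloisRep (IsLocalRing.ResidueField 𝒪))
    (𝒟 : ∀ ⦃A : Type⦄ [CommRing A] [IsLocalRing A] [Algebra 𝒪 A], GaloisRepAdic A → Prop)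
    (habs : ρbar.IsAbsolutelyIrreducible)
    (h𝒟 : GaloisRep.IsDeformationCondition 𝒪 𝒟)
    (hbar : 𝒟 (GaloisRepAdic.ofResidualGaloisRep ρbar))
    (hfin : GaloisRep.TangentFinite 𝒪 ρbar 𝒟) :
    Nonempty (GaloisRep.DeformationRingData 𝒪 ρbar 𝒟) := by
  obtain ⟨Mbar, hMbar⟩ := exists_modelR ρbar
  obtain ⟨ϖ, hϖ⟩ : ∃ ϖ, maximalIdeal 𝒪 = Ideal.span {ϖ} :=
    (IsPrincipalIdealRing.principal (maximalIdeal 𝒪)).principal
  obtain ⟨F, hF⟩ := exists_tangent_gens h𝒟 hMbar hfin ϖ hϖ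
  have hgood : Good 𝒟 Mbar Mbar := by
    refine ⟨?_, _, hMbar.toAdic, hbar⟩
    rw [← toK_unique (AlgHom.id 𝒪 (ResidueField 𝒪))]
    rfl
  have hH : Fact (Hyp 𝒟 ϖ F Mbar) := ⟨⟨h𝒟, span_of_absIrr hMbar habs, hϖ, hF, hgood⟩⟩
  obtain ⟨M, hM⟩ := exists_limit_rep (𝒟 := 𝒟) (ϖ := ϖ) (F := F) (Mbar := Mbar)
  have hcont : MCont M := mcont_of_adm hM
  have hloc : IsLocalHom (algebraMap 𝒪 (UR 𝒟 ϖ F Mbar)) := CoefAlg.isLocalHom
  exact ⟨{
    R := UR 𝒟 ϖ F Mbar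
    residue_surjective := CoefAlg.residue_surjective
    absIrr := habs
    ρ := ofMatrix M hcont
    isOfType := type_of_adm hM _ (isModel_ofMatrix M hcont)
    residual_isEquiv := residual_isEquiv_of_lift hMbar (isModel_ofMatrix M hcont) (lift_of_adm hM)
    universal := by
      intro A _ _ _ _ _ hA hsurj ρA hD hres
      have : CoefAlg 𝒪 A := ⟨hA, hsurj⟩
      exact universal_of_adm hM hMbar _ (isModel_ofMatrix M hcont) A ρA hD hres }⟩

end Fermat.Agent.UDef
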