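import Mathlib

set_option autoImplicit false
set_option linter.unusedSectionVars false

/-!
Basic definitions for the normal form of lifts of a residual representation.
-/

namespace Fermat.Agent.DefRing

open IsLocalRing

variable {𝒪 A B : Type} [CommRing 𝒪] [CommRing A] [CommRing B] [Algebra 𝒪 A] [Algebra 𝒪 B]
  {G : Type}

/-- linear combination of the values of `r` -/
noncomputable def linc (r : G → Matrix (Fin 2) (Fin 2) A) (x : G →₀ 𝒪) :
    Matrix (Fin 2) (Fin 2) A := x.sum fun g a => a • r g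

/-- the normalisation condition -/
structure IsNormalized (x y : G →₀ 𝒪) (r : G → Matrix (Fin 2) (Fin 2) A) : Prop where
  h01 : linc r x 0 1 = 0
  h10 : linc r x 1 0 = 0
  hy : linc r y 0 1 = 1

/-- `r` is a lift of the reduction of `c` -/
def Lifts [IsLocalRing A] (c : G → Matrix (Fin 2) (Fin 2) 𝒪) (r : G → Matrix (Fin 2) (Fin 2) A) :
    Prop := ∀ g i j, r g i j - algebraMap 𝒪 A (c g i j) ∈ maximalIdeal A

/-- the properties of `x` and `y` needed for the normal form -/
structure GoodXY [IsLocalRing 𝒪] (c : G → Matrix (Fin 2) (Fin 2) 𝒪) (x y : G →₀ 𝒪) : Prop where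
  hx : ∀ i j, linc c x i j - (Matrix.single 0 0 1 : Matrix (Fin 2) (Fin 2) 𝒪) i j ∈ maximalIdeal 𝒪
  hy : linc c y 0 1 - 1 ∈ maximalIdeal 𝒪

theorem linc_apply (r : G → Matrix (Fin 2) (Fin 2) A) (x : G →₀ 𝒪) (i j : Fin 2) :
    linc r x i j = x.sum fun g a => a • r g i j := by
  simp only [linc, Finsupp.sum, Matrix.sum_apply, Matrix.smul_apply]

theorem linc_map (r : G → Matrix (Fin 2) (Fin 2) A) (x : G →₀ 𝒪) (φ : A →ₐ[𝒪] B) (i j : Fin 2) :
    linc (fun g => (r g).map φ) x i j = φ (linc r x i j) := by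
  simp only [linc_apply, Finsupp.sum, map_sum, map_smul, Matrix.map_apply]

end Fermat.Agent.DefRing
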