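import Fermat.Prelude.Def_GaloisRep_DeformationRingData
import Fermat.Prelude.Def_GaloisRep_DeformationCondition

set_option autoImplicit false
set_option linter.unusedSectionVars false
set_option linter.style.haveILetI false

/-!
Dictionary between `GaloisRepAdic` and matrix valued representations.
-/

namespace Fermat.Agent.DefRing

open IsLocalRing
open scoped TensorProduct

/-- The absolute Galois group. -/
abbrev GQ : Type := AlgebraicClosure ℚ ≃ₐ[ℚ] AlgebraicClosure ℚ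

section basic

variable {A : Type} [CommRing A] [IsLocalRing A]

/-- adic continuity of a matrix valued map -/
def MatCts (r : GQ → Matrix (Fin 2) (Fin 2) A) : Prop :=
  ∀ n : ℕ, ∃ L : IntermediateField ℚ (AlgebraicClosure ℚ), FiniteDimensional ℚ L ∧
    ∀ σ : GQ, (∀ x ∈ L, σ x = x) → ∀ i j, (r σ - 1) i j ∈ maximalIdeal A ^ n

theorem pi_mem_smul_top {I : Ideal A} {v : Fin 2 → A} (hv : ∀ i, v i ∈ I) :
    v ∈ I • (⊤ : Submodule A (Fin 2 → A)) := by
  rw [pi_eq_sum_univ' v]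
  exact Submodule.sum_mem _ fun i _ => Submodule.smul_mem_smul (hv i) Submodule.mem_top

theorem mulVec_mem {I : Ideal A} {M : Matrix (Fin 2) (Fin 2) A} (hM : ∀ i j, M i j ∈ I)
    (v : Fin 2 → A) : M.mulVec v ∈ I • (⊤ : Submodule A (Fin 2 → A)) := by
  refine pi_mem_smul_top fun i => ?_
  rw [Matrix.mulVec, dotProduct]
  exact Ideal.sum_mem _ fun j _ => Ideal.mul_mem_right _ _ (hM i j)

theorem repr_mem {V : Type} [AddCommGroup V] [Module A V] (b : Module.Basis (Fin 2) A V)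
    {I : Ideal A} {v : V} (hv : v ∈ I • (⊤ : Submodule A V)) (i : Fin 2) : b.repr v i ∈ I := by
  refine Submodule.smul_induction_on (p := fun v => b.repr v i ∈ I) hv ?_ ?_
  · intro a ha w _
    rw [map_smul, Finsupp.smul_apply, smul_eq_mul]
    exact Ideal.mul_mem_right _ _ ha
  · intro x y hx hy
    rw [map_add, Finsupp.add_apply]
    exact Ideal.add_mem _ hx hy

/-- The Galois representation attached to a continuous matrix representation. -/
noncomputable def ofMat (r : GQ →* Matrix (Fin 2) (Fin 2) A) (hr : MatCts (A := A) r) :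
    GaloisRepAdic A where
  V := Fin 2 → A
  finrank_eq := by simp
  ρ := { toFun := fun g => Matrix.toLin' (r g)
         map_one' := by rw [map_one, Matrix.toLin'_one]; rfl
         map_mul' := fun g h => by rw [map_mul, Matrix.toLin'_mul]; rfl }
  isAdicContinuous := by
    intro n
    obtain ⟨L, hL, h1⟩ := hr n
    refine ⟨L, hL, fun σ hσ v => ?_⟩
    have := mulVec_mem (h1 σ hσ) v
    rwa [Matrix.sub_mulVec, Matrix.one_mulVec] at this

theorem ofMat_ρ (r : GQ →* Matrix (Fin 2) (Fin 2) A) (hr : MatCts (A := A) r) (g : GQ) :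
    (ofMat r hr).ρ g = Matrix.toLin' (r g) := rfl

/-- The matrix representation attached to a Galois representation and a basis. -/
noncomputable def matOf (ρ : GaloisRepAdic A) (b : Module.Basis (Fin 2) A ρ.V) :
    GQ →* Matrix (Fin 2) (Fin 2) A where
  toFun g := LinearMap.toMatrix b b (ρ.ρ g)
  map_one' := by rw [map_one]; exact LinearMap.toMatrix_one b
  map_mul' g h := by rw [map_mul]; exact LinearMap.toMatrix_mul b _ _

theorem matOf_apply (ρ : GaloisRepAdic A) (b : Module.Basis (Fin 2) A ρ.V) (g : GQ) :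
    matOf ρ b g = LinearMap.toMatrix b b (ρ.ρ g) := rfl

theorem matOf_cts (ρ : GaloisRepAdic A) (b : Module.Basis (Fin 2) A ρ.V) :
    MatCts (A := A) (matOf ρ b) := by
  intro n
  obtain ⟨L, hL, h1⟩ := ρ.isAdicContinuous n
  refine ⟨L, hL, fun σ hσ i j => ?_⟩
  have h2 := repr_mem b (h1 σ hσ (b j)) i
  have h3 : (matOf ρ b σ - 1) i j = b.repr (ρ.ρ σ (b j) - b j) i := by
    rw [Matrix.sub_apply, matOf_apply, LinearMap.toMatrix_apply, map_sub, Finsupp.sub_apply,
      Module.Basis.repr_self, Matrix.one_apply, Finsupp.single_apply]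
    simp [eq_comm]
  rw [h3]
  exact h2

theorem equiv_ofMat (ρ : GaloisRepAdic A) (b : Module.Basis (Fin 2) A ρ.V) :
    (ofMat (matOf ρ b) (matOf_cts ρ b)).IsEquiv ρ := by
  refine ⟨{ toLinearEquiv := b.equivFun.symm, map_apply := fun σ x => ?_ }⟩
  show b.equivFun.symm ((matOf ρ b σ).mulVec x) = ρ.ρ σ (b.equivFun.symm x)
  apply b.equivFun.injective
  rw [LinearEquiv.apply_symm_apply]
  obtain ⟨y, rfl⟩ := b.equivFun.surjective x
  rw [LinearEquiv.symm_apply_apply, matOf_apply]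
  exact LinearMap.toMatrix_mulVec_repr b b (ρ.ρ σ) y

theorem exists_ofMat (ρ : GaloisRepAdic A) :
    ∃ b : Module.Basis (Fin 2) A ρ.V, (ofMat (matOf ρ b) (matOf_cts ρ b)).IsEquiv ρ :=
  ⟨Module.finBasisOfFinrankEq A ρ.V ρ.finrank_eq, equiv_ofMat ρ _⟩

theorem conj_of_isEquiv {r r' : GQ →* Matrix (Fin 2) (Fin 2) A} {hr : MatCts (A := A) r}
    {hr' : MatCts (A := A) r'} (h : (ofMat r hr).IsEquiv (ofMat r' hr')) :
    ∃ S : GL (Fin 2) A, ∀ g, S.1 * r g = r' g * S.1 := by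
  obtain ⟨e⟩ := h
  let e1 : (Fin 2 → A) ≃ₗ[A] (Fin 2 → A) := e.toLinearEquiv
  have he1 : ∀ g x, e1 ((r g).mulVec x) = (r' g).mulVec (e1 x) := e.map_apply
  refine ⟨⟨LinearMap.toMatrix' e1.toLinearMap, LinearMap.toMatrix' e1.symm.toLinearMap, ?_, ?_⟩,
    fun g => ?_⟩
  · rw [← LinearMap.toMatrix'_comp]; simp
  · rw [← LinearMap.toMatrix'_comp]; simp
  · apply Matrix.toLin'.injective
    refine LinearMap.ext fun x => ?_
    rw [Matrix.toLin'_mul, Matrix.toLin'_mul]
    simp only [Matrix.toLin'_toMatrix', LinearMap.comp_apply, Matrix.toLin'_apply]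
    exact he1 g x

theorem isEquiv_of_conj {r r' : GQ →* Matrix (Fin 2) (Fin 2) A} (hr : MatCts (A := A) r)
    (hr' : MatCts (A := A) r') (S : GL (Fin 2) A) (hS : ∀ g, S.1 * r g = r' g * S.1) :
    (ofMat r hr).IsEquiv (ofMat r' hr') := by
  refine ⟨{ toLinearEquiv := Matrix.GeneralLinearGroup.toLin S |> LinearMap.GeneralLinearGroup.generalLinearEquiv _ _,
            map_apply := fun σ x => ?_ }⟩
  show S.1.mulVec ((r σ).mulVec x) = (r' σ).mulVec (S.1.mulVec x)
  rw [Matrix.mulVec_mulVec, Matrix.mulVec_mulVec, hS]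

theorem MatCts.conj {r r' : GQ →* Matrix (Fin 2) (Fin 2) A} (hr : MatCts (A := A) r)
    (S : GL (Fin 2) A) (hS : ∀ g, S.1 * r g = r' g * S.1) : MatCts (A := A) r' := by
  intro n
  obtain ⟨L, hL, h1⟩ := hr n
  refine ⟨L, hL, fun σ hσ i j => ?_⟩
  have h2 : r' σ - 1 = S.1 * (r σ - 1) * (S⁻¹).1 := by
    rw [mul_sub, sub_mul, hS, mul_one, mul_assoc]
    have : S.1 * (S⁻¹).1 = 1 := by rw [← Units.val_mul, mul_inv_cancel, Units.val_one]
    rw [this, mul_one]
  rw [h2, Matrix.mul_apply]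
  refine Ideal.sum_mem _ fun k _ => Ideal.mul_mem_right _ _ ?_
  rw [Matrix.mul_apply]
  exact Ideal.sum_mem _ fun l _ => Ideal.mul_mem_left _ _ (h1 σ hσ l k)

end basic

section map

variable {A B C : Type} [CommRing A] [CommRing B] [CommRing C]

/-- change of rings for matrix representations -/
noncomputable def mapRep (φ : A →+* B) (r : GQ →* Matrix (Fin 2) (Fin 2) A) :
    GQ →* Matrix (Fin 2) (Fin 2) B :=
  ((φ.mapMatrix : Matrix (Fin 2) (Fin 2) A →+* Matrix (Fin 2) (Fin 2) B) :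
    Matrix (Fin 2) (Fin 2) A →* Matrix (Fin 2) (Fin 2) B).comp r

theorem mapRep_apply (φ : A →+* B) (r : GQ →* Matrix (Fin 2) (Fin 2) A) (g : GQ) (i j : Fin 2) :
    mapRep φ r g i j = φ (r g i j) := rfl

theorem mapRep_apply' (φ : A →+* B) (r : GQ →* Matrix (Fin 2) (Fin 2) A) (g : GQ) :
    mapRep φ r g = (r g).map φ := rfl

theorem rep_ext {r r' : GQ →* Matrix (Fin 2) (Fin 2) A} (h : ∀ g i j, r g i j = r' g i j) :
    r = r' := MonoidHom.ext fun g => by ext i j; exact h g i j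

theorem mapRep_comp (φ : A →+* B) (ψ : B →+* C) (r : GQ →* Matrix (Fin 2) (Fin 2) A) :
    mapRep ψ (mapRep φ r) = mapRep (ψ.comp φ) r := rfl

variable [IsLocalRing A] [IsLocalRing B]

theorem MatCts.map {r : GQ →* Matrix (Fin 2) (Fin 2) A} (hr : MatCts (A := A) r) (φ : A →+* B)
    (hφ : IsLocalHom φ) : MatCts (A := B) (mapRep φ r) := by
  intro n
  obtain ⟨L, hL, h1⟩ := hr n
  refine ⟨L, hL, fun σ hσ i j => ?_⟩
  have h2 : (mapRep φ r σ - 1) i j = φ ((r σ - 1) i j) := by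
    rw [Matrix.sub_apply, Matrix.sub_apply, map_sub, mapRep_apply]
    simp [Matrix.one_apply, apply_ite φ]
  rw [h2]
  have hmap : (maximalIdeal A ^ n).map φ ≤ maximalIdeal B ^ n := by
    rw [Ideal.map_pow]
    exact Ideal.pow_right_mono (Ideal.map_le_iff_le_comap.mpr fun a ha =>
      Ideal.mem_comap.mpr (map_nonunit φ a ha)) n
  exact hmap (Ideal.mem_map_of_mem φ (h1 σ hσ i j))

theorem matOf_baseChangeAlong (φ : A →+* B) (hφ : IsLocalHom φ) (ρ : GaloisRepAdic A)
    (b : Module.Basis (Fin 2) A ρ.V) :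
    ∃ b' : Module.Basis (Fin 2) B (ρ.baseChangeAlong φ hφ).V,
      matOf (ρ.baseChangeAlong φ hφ) b' = mapRep φ (matOf ρ b) := by
  letI : Algebra A B := φ.toAlgebra
  refine ⟨Algebra.TensorProduct.basis B b, ?_⟩
  refine MonoidHom.ext fun g => ?_
  exact LinearMap.toMatrix_baseChange B (ρ.ρ g) b b

theorem baseChange_ofMat (φ : A →+* B) (hφ : IsLocalHom φ)
    (r : GQ →* Matrix (Fin 2) (Fin 2) A) (hr : MatCts (A := A) r) :
    ((ofMat r hr).baseChangeAlong φ hφ).IsEquiv (ofMat (mapRep φ r) (hr.map φ hφ)) := by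
  obtain ⟨b', hb'⟩ := matOf_baseChangeAlong φ hφ (ofMat r hr) (Pi.basisFun A (Fin 2))
  obtain ⟨e⟩ := equiv_ofMat ((ofMat r hr).baseChangeAlong φ hφ) b'
  have h1 : matOf (ofMat r hr) (Pi.basisFun A (Fin 2)) = r := by
    refine MonoidHom.ext fun g => ?_
    rw [matOf_apply, ofMat_ρ]
    exact LinearMap.toMatrix'_toLin' (r g)
  rw [h1] at hb'
  have h2 : ∀ (s : GQ →* Matrix (Fin 2) (Fin 2) B) (hs : MatCts (A := B) s)
      (_ : s = mapRep φ r), (ofMat s hs).IsEquiv (ofMat (mapRep φ r) (hr.map φ hφ)) := by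
    rintro s hs rfl
    exact ⟨GaloisRepAdic.Equiv.refl _⟩
  obtain ⟨e2⟩ := h2 _ (matOf_cts _ b') hb'
  exact ⟨e.symm.trans e2⟩

end map

end Fermat.Agent.DefRing
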