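import Mathlib

set_option autoImplicit false
set_option linter.unusedSectionVars false
set_option linter.style.haveILetI false

/-!
Pro-representability of a family of finite quotients of an algebra.
-/

namespace Fermat.Agent.DefRing

open IsLocalRing

/-- Hypotheses on a family of ideals `F` of an `𝒪`-algebra `P` which make the limit of `P ⧸ I`
a complete noetherian local ring. -/
structure ProFamily (𝒪 : Type) [CommRing 𝒪] [IsLocalRing 𝒪] {P : Type} [CommRing P] [Algebra 𝒪 P]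
    (𝔫 : Ideal P) (F : Set (Ideal P)) {m : ℕ} (z : Fin m → P) : Prop where
  maximal : 𝔫.IsMaximal
  surj : ∀ p : P, ∃ a : 𝒪, p - algebraMap 𝒪 P a ∈ 𝔫
  le : ∀ I ∈ F, I ≤ 𝔫
  pow_le : ∀ I ∈ F, ∃ n, 𝔫 ^ n ≤ I
  inf : ∀ I ∈ F, ∀ I' ∈ F, I ⊓ I' ∈ F
  up : ∀ I ∈ F, ∀ I', I ≤ I' → I' ≤ 𝔫 → I' ∈ F
  self : 𝔫 ∈ F
  z_mem : ∀ i, z i ∈ 𝔫
  gen : ∀ I ∈ F, 𝔫 ≤ Ideal.span (Set.range z) ⊔ 𝔫 ^ 2 ⊔ I
  unif : ∀ a ∈ maximalIdeal 𝒪, algebraMap 𝒪 P a ∈ Ideal.span (Set.range z)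

namespace ProFamily

variable {𝒪 : Type} [CommRing 𝒪] [IsLocalRing 𝒪] {P : Type} [CommRing P] [Algebra 𝒪 P]
  {𝔫 : Ideal P} {F : Set (Ideal P)} {m : ℕ} {z : Fin m → P}

/-- The map `X_i ↦ z_i`. -/
noncomputable def theta (z : Fin m → P) : MvPolynomial (Fin m) 𝒪 →ₐ[𝒪] P := MvPolynomial.aeval z

theorem theta_X (i : Fin m) : theta (𝒪 := 𝒪) z (MvPolynomial.X i) = z i := by
  simp [theta]

theorem span_le (h : ProFamily 𝒪 𝔫 F z) : Ideal.span (Set.range z) ≤ 𝔫 := by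
  rw [Ideal.span_le]
  rintro _ ⟨i, rfl⟩
  exact h.z_mem i

theorem map_idealOfVars_le (h : ProFamily 𝒪 𝔫 F z) (n : ℕ) :
    ((MvPolynomial.idealOfVars (Fin m) 𝒪) ^ n).map (theta (𝒪 := 𝒪) z) ≤ 𝔫 ^ n := by
  rw [Ideal.map_pow]
  refine Ideal.pow_right_mono ?_ n
  rw [MvPolynomial.idealOfVars, Ideal.map_span, Ideal.span_le]
  rintro _ ⟨_, ⟨i, rfl⟩, rfl⟩
  rw [theta_X]
  exact h.z_mem i

theorem theta_mem (h : ProFamily 𝒪 𝔫 F z) {n : ℕ} {q : MvPolynomial (Fin m) 𝒪}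
    (hq : q ∈ (MvPolynomial.idealOfVars (Fin m) 𝒪) ^ n) : theta z q ∈ 𝔫 ^ n :=
  h.map_idealOfVars_le n (Ideal.mem_map_of_mem _ hq)

/-- degree one approximations -/
theorem approx_one (h : ProFamily 𝒪 𝔫 F z) {I : Ideal P} (hI : I ∈ F) {p : P} (hp : p ∈ 𝔫) :
    ∃ q ∈ MvPolynomial.idealOfVars (Fin m) 𝒪, p - theta z q ∈ 𝔫 ^ 2 ⊔ I := by
  have hp' := h.gen I hI hp
  rw [sup_assoc] at hp'
  obtain ⟨s, hs, t, ht, rfl⟩ := Submodule.mem_sup.mp hp'
  have key : ∀ s ∈ Ideal.span (Set.range z),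
      ∃ q ∈ MvPolynomial.idealOfVars (Fin m) 𝒪, s - theta z q ∈ 𝔫 ^ 2 := by
    intro s hs
    refine Submodule.span_induction (p := fun s _ =>
      ∃ q ∈ MvPolynomial.idealOfVars (Fin m) 𝒪, s - theta z q ∈ 𝔫 ^ 2) ?_ ?_ ?_ ?_ hs
    · rintro _ ⟨i, rfl⟩
      refine ⟨MvPolynomial.X i, Ideal.subset_span ⟨i, rfl⟩, ?_⟩
      rw [theta_X, sub_self]
      exact Ideal.zero_mem _
    · exact ⟨0, Ideal.zero_mem _, by simp⟩
    · rintro a b _ _ ⟨q, hq, hq'⟩ ⟨r, hr, hr'⟩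
      refine ⟨q + r, Ideal.add_mem _ hq hr, ?_⟩
      rw [map_add, add_sub_add_comm]
      exact Ideal.add_mem _ hq' hr'
    · rintro a b hb ⟨q, hq, hq'⟩
      obtain ⟨o, ho⟩ := h.surj a
      refine ⟨MvPolynomial.C o * q, Ideal.mul_mem_left _ _ hq, ?_⟩
      have : a • b - theta z (MvPolynomial.C o * q) =
          (a - algebraMap 𝒪 P o) * b + algebraMap 𝒪 P o * (b - theta z q) := by
        rw [map_mul, smul_eq_mul]
        have : theta z (MvPolynomial.C o) = algebraMap 𝒪 P o := by simp [theta]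
        rw [this]; ring
      rw [this]
      refine Ideal.add_mem _ ?_ (Ideal.mul_mem_left _ _ hq')
      rw [pow_two]
      exact Ideal.mul_mem_mul ho (h.span_le hb)
  obtain ⟨q, hq, hq'⟩ := key s hs
  refine ⟨q, hq, ?_⟩
  have : s + t - theta z q = (s - theta z q) + t := by ring
  rw [this]
  exact Ideal.add_mem _ (Ideal.mem_sup_left hq') ht

theorem approx (h : ProFamily 𝒪 𝔫 F z) {I : Ideal P} (hI : I ∈ F) (j : ℕ) :
    ∀ p ∈ 𝔫 ^ j, ∃ q ∈ (MvPolynomial.idealOfVars (Fin m) 𝒪) ^ j,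
      p - theta z q ∈ 𝔫 ^ (j + 1) ⊔ I := by
  induction j with
  | zero =>
    intro p _
    obtain ⟨a, ha⟩ := h.surj p
    refine ⟨MvPolynomial.C a, by simp, ?_⟩
    have : theta z (MvPolynomial.C a) = algebraMap 𝒪 P a := by simp [theta]
    rw [this]
    exact Ideal.mem_sup_left (by simpa using ha)
  | succ j ih =>
    intro p hp
    rw [pow_succ] at hp
    refine Submodule.mul_induction_on hp ?_ ?_
    · intro a ha b hb
      obtain ⟨q, hq, hq'⟩ := ih a ha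
      obtain ⟨r, hr, hr'⟩ := h.approx_one hI hb
      refine ⟨q * r, by rw [pow_succ]; exact Ideal.mul_mem_mul hq hr, ?_⟩
      have e : a * b - theta z (q * r) = a * (b - theta z r) + (a - theta z q) * theta z r := by
        rw [map_mul]; ring
      rw [e]
      have h1 : 𝔫 ^ j * (𝔫 ^ 2 ⊔ I) ≤ 𝔫 ^ (j + 1 + 1) ⊔ I := by
        rw [Ideal.mul_sup, ← pow_add]
        exact sup_le_sup le_rfl Ideal.mul_le_right
      have h2 : (𝔫 ^ (j + 1) ⊔ I) * 𝔫 ≤ 𝔫 ^ (j + 1 + 1) ⊔ I := by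
        rw [Ideal.sup_mul, ← pow_succ]
        exact sup_le_sup le_rfl Ideal.mul_le_left
      refine Ideal.add_mem _ (h1 (Ideal.mul_mem_mul ha hr')) (h2 (Ideal.mul_mem_mul hq' ?_))
      have := h.theta_mem (n := 1) (q := r) (by simpa using hr)
      simpa using this
    · rintro a b ⟨q, hq, hq'⟩ ⟨r, hr, hr'⟩
      refine ⟨q + r, Ideal.add_mem _ hq hr, ?_⟩
      rw [map_add, add_sub_add_comm]
      exact Ideal.add_mem _ hq' hr'

theorem approx_all (h : ProFamily 𝒪 𝔫 F z) {I : Ideal P} (hI : I ∈ F) (j : ℕ) :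
    ∀ p : P, ∃ q : MvPolynomial (Fin m) 𝒪, p - theta z q ∈ 𝔫 ^ j ⊔ I := by
  induction j with
  | zero => intro p; exact ⟨0, by simp⟩
  | succ j ih =>
    intro p
    obtain ⟨q, hq⟩ := ih p
    obtain ⟨a, ha, b, hb, hab⟩ := Submodule.mem_sup.mp hq
    obtain ⟨r, hr, hr'⟩ := h.approx hI j a ha
    refine ⟨q + r, ?_⟩
    have e : p - theta z (q + r) = (a - theta z r) + b := by
      rw [map_add, ← sub_sub, ← hab]; ring
    rw [e]
    exact Ideal.add_mem _ hr' (Ideal.mem_sup_right hb)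

theorem surj_theta (h : ProFamily 𝒪 𝔫 F z) {I : Ideal P} (hI : I ∈ F) (p : P) :
    ∃ q : MvPolynomial (Fin m) 𝒪, p - theta z q ∈ I := by
  obtain ⟨n, hn⟩ := h.pow_le I hI
  obtain ⟨q, hq⟩ := h.approx_all hI n p
  exact ⟨q, by rwa [sup_eq_right.mpr hn] at hq⟩

theorem comap_algebraMap (h : ProFamily 𝒪 𝔫 F z) :
    𝔫.comap (algebraMap 𝒪 P) = maximalIdeal 𝒪 := by
  haveI := h.maximal
  refine ((IsLocalRing.maximalIdeal.isMaximal 𝒪).eq_of_le ?_ ?_).symm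
  · exact Ideal.IsPrime.ne_top (Ideal.comap_isPrime _ _)
  · intro a ha
    exact h.span_le (h.unif a ha)

/-- members of the family containing `𝔫 ^ n` -/
def level (𝔫 : Ideal P) (F : Set (Ideal P)) (n : ℕ) : Set (Ideal P) := {I | I ∈ F ∧ 𝔫 ^ n ≤ I}

theorem level_finite [IsNoetherianRing 𝒪] [Finite (ResidueField 𝒪)] (h : ProFamily 𝒪 𝔫 F z)
    (n : ℕ) : (level 𝔫 F n).Finite := by
  classical
  set 𝔮 : Ideal (MvPolynomial (Fin m) 𝒪) := 𝔫.comap (theta z) with h𝔮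
  -- the quotient by `𝔮` is finite
  have hfin : Finite (MvPolynomial (Fin m) 𝒪 ⧸ 𝔮) := by
    have hsurj : Function.Surjective ((Ideal.Quotient.mk 𝔮).comp
        (algebraMap 𝒪 (MvPolynomial (Fin m) 𝒪))) := by
      intro x
      obtain ⟨q, rfl⟩ := Ideal.Quotient.mk_surjective x
      obtain ⟨a, ha⟩ := h.surj (theta z q)
      refine ⟨a, ?_⟩
      rw [RingHom.comp_apply, Ideal.Quotient.eq, ← neg_sub, h𝔮, Ideal.mem_comap, map_neg, map_sub,
        AlgHom.commutes]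
      exact Ideal.neg_mem_iff _ |>.mpr ha
    have hker : ∀ a ∈ maximalIdeal 𝒪, ((Ideal.Quotient.mk 𝔮).comp
        (algebraMap 𝒪 (MvPolynomial (Fin m) 𝒪))) a = 0 := by
      intro a ha
      rw [RingHom.comp_apply, Ideal.Quotient.eq_zero_iff_mem, h𝔮, Ideal.mem_comap,
        AlgHom.commutes]
      exact h.span_le (h.unif a ha)
    have hs2 : Function.Surjective (Ideal.Quotient.lift (maximalIdeal 𝒪) _ hker) :=
      Ideal.Quotient.lift_surjective_of_surjective _ _ hsurj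
    haveI : Finite (𝒪 ⧸ maximalIdeal 𝒪) := ‹Finite (ResidueField 𝒪)›
    exact Finite.of_surjective _ hs2
  have hfin2 : Finite (MvPolynomial (Fin m) 𝒪 ⧸ 𝔮 ^ n) :=
    Ideal.finite_quotient_pow (IsNoetherian.noetherian 𝔮) n
  -- injection
  let f : Ideal P → Set (MvPolynomial (Fin m) 𝒪 ⧸ 𝔮 ^ n) := fun I =>
    (Ideal.Quotient.mk (𝔮 ^ n)) '' {q | theta z q ∈ I}
  have hle : ∀ I ∈ level 𝔫 F n, 𝔮 ^ n ≤ I.comap (theta z) := by
    intro I hI
    refine (Ideal.le_comap_pow (theta (𝒪 := 𝒪) z) n).trans ?_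
    exact Ideal.comap_mono hI.2
  have hmem : ∀ I ∈ level 𝔫 F n, ∀ q : MvPolynomial (Fin m) 𝒪,
      Ideal.Quotient.mk (𝔮 ^ n) q ∈ f I ↔ theta z q ∈ I := by
    intro I hI q
    constructor
    · rintro ⟨q', hq', he⟩
      rw [Ideal.Quotient.eq] at he
      have := hle I hI he
      rw [Ideal.mem_comap, map_sub] at this
      have h2 := I.sub_mem hq' this
      simpa using h2
    · intro hq
      exact ⟨q, hq, rfl⟩
  refine Set.Finite.of_finite_image (f := f) (Set.toFinite _) ?_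
  intro I hI I' hI' he
  have hII : I ⊓ I' ∈ F := h.inf _ hI.1 _ hI'.1
  have key : ∀ q : MvPolynomial (Fin m) 𝒪, theta z q ∈ I ↔ theta z q ∈ I' := by
    intro q
    rw [← hmem I hI q, ← hmem I' hI' q, he]
  ext p
  obtain ⟨q, hq⟩ := h.surj_theta hII p
  have e1 : p ∈ I ↔ theta z q ∈ I := by
    constructor
    · intro hp
      have := I.sub_mem hp hq.1
      simpa using this
    · intro hp
      have := I.add_mem hp hq.1
      simpa using this
  have e2 : p ∈ I' ↔ theta z q ∈ I' := by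
    constructor
    · intro hp
      have := I'.sub_mem hp hq.2
      simpa using this
    · intro hp
      have := I'.add_mem hp hq.2
      simpa using this
  rw [e1, e2, key]

theorem sInf_mem (h : ProFamily 𝒪 𝔫 F z) {S : Set (Ideal P)} (hS : S.Finite)
    (hne : S.Nonempty) (hSF : S ⊆ F) : sInf S ∈ F := by
  induction S, hS using Set.Finite.induction_on with
  | empty => exact absurd hne Set.not_nonempty_empty
  | @insert a S ha hS ih =>
    rw [sInf_insert]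
    by_cases hSn : S.Nonempty
    · exact h.inf _ (hSF (Set.mem_insert _ _)) _ (ih hSn ((Set.subset_insert _ _).trans hSF))
    · rw [Set.not_nonempty_iff_eq_empty] at hSn
      subst hSn
      simpa using hSF (Set.mem_insert _ _)

/-- the minimal member of the family at level `n` -/
noncomputable def J (𝔫 : Ideal P) (F : Set (Ideal P)) (n : ℕ) : Ideal P :=
  sInf (level 𝔫 F (n + 1))

variable [IsNoetherianRing 𝒪] [Finite (ResidueField 𝒪)]

theorem J_mem (h : ProFamily 𝒪 𝔫 F z) (n : ℕ) : J 𝔫 F n ∈ F := by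
  refine h.sInf_mem (h.level_finite _) ⟨𝔫, h.self, Ideal.pow_le_self (Nat.succ_ne_zero n)⟩ ?_
  exact fun I hI => hI.1

theorem pow_le_J (n : ℕ) : 𝔫 ^ (n + 1) ≤ J 𝔫 F n := le_sInf fun _ hI => hI.2

theorem J_le {n : ℕ} {I : Ideal P} (hI : I ∈ F) (h' : 𝔫 ^ (n + 1) ≤ I) : J 𝔫 F n ≤ I :=
  sInf_le ⟨hI, h'⟩

theorem J_anti (h : ProFamily 𝒪 𝔫 F z) : Antitone (J 𝔫 F) := by
  intro a b hab
  exact J_le (h.J_mem a) ((Ideal.pow_le_pow_right (by omega)).trans (pow_le_J a))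

theorem J_zero (h : ProFamily 𝒪 𝔫 F z) : J 𝔫 F 0 = 𝔫 := by
  apply le_antisymm (h.le _ (h.J_mem 0))
  simpa using pow_le_J (𝔫 := 𝔫) (F := F) 0

theorem J_succ (h : ProFamily 𝒪 𝔫 F z) (n : ℕ) :
    J 𝔫 F n = J 𝔫 F (n + 1) ⊔ 𝔫 ^ (n + 1) := by
  apply le_antisymm
  · refine J_le (h.up _ (h.J_mem (n + 1)) _ le_sup_left ?_) le_sup_right
    exact sup_le (h.le _ (h.J_mem _)) (Ideal.pow_le_self (Nat.succ_ne_zero n))
  · exact sup_le (h.J_anti (Nat.le_succ n)) (pow_le_J n)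


/-- the power series ring -/
abbrev Lam (𝒪 : Type) [CommRing 𝒪] (m : ℕ) : Type := MvPowerSeries (Fin m) 𝒪

/-- the ideal of variables in the power series ring -/
noncomputable abbrev aa (𝒪 : Type) [CommRing 𝒪] (m : ℕ) : Ideal (Lam 𝒪 m) :=
  Ideal.span (Set.range MvPowerSeries.X)

theorem idealOfVars_pow_le (h : ProFamily 𝒪 𝔫 F z) (n : ℕ) :
    (MvPolynomial.idealOfVars (Fin m) 𝒪) ^ (n + 1) ≤ (J 𝔫 F n).comap (theta (𝒪 := 𝒪) z) := by
  intro q hq
  exact pow_le_J n (h.theta_mem hq)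

/-- evaluation of a power series modulo `J n` -/
noncomputable def ev (h : ProFamily 𝒪 𝔫 F z) (n : ℕ) : Lam 𝒪 m →ₐ[𝒪] P ⧸ J 𝔫 F n :=
  (Ideal.quotientMapₐ (J 𝔫 F n) (theta (𝒪 := 𝒪) z) (h.idealOfVars_pow_le n)).comp
    ((MvPowerSeries.truncTotalAlgHom (Fin m) 𝒪 (n + 1)).restrictScalars 𝒪)

theorem ev_apply (h : ProFamily 𝒪 𝔫 F z) (n : ℕ) (f : Lam 𝒪 m) :
    h.ev n f = Ideal.Quotient.mk _ (theta z (MvPowerSeries.truncTotal (n + 1) f)) := rfl

/-- the inclusion of polynomials in power series -/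
noncomputable def incl (𝒪 : Type) [CommRing 𝒪] (m : ℕ) : MvPolynomial (Fin m) 𝒪 →+* Lam 𝒪 m :=
  algebraMap (MvPolynomial (Fin m) 𝒪) (Lam 𝒪 m)

theorem incl_X (i : Fin m) : incl 𝒪 m (MvPolynomial.X i) = MvPowerSeries.X i := by
  simp [incl, MvPowerSeries.algebraMap_apply']

theorem ev_coe (h : ProFamily 𝒪 𝔫 F z) (n : ℕ) (q : MvPolynomial (Fin m) 𝒪) :
    h.ev n (incl 𝒪 m q) = Ideal.Quotient.mk _ (theta z q) := by
  have h1 : (MvPowerSeries.truncTotalAlgHom (Fin m) 𝒪 (n + 1)) (algebraMap _ (Lam 𝒪 m) q) =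
      algebraMap _ _ q := AlgHom.commutes _ q
  show (Ideal.quotientMapₐ (J 𝔫 F n) (theta (𝒪 := 𝒪) z) (h.idealOfVars_pow_le n))
    ((MvPowerSeries.truncTotalAlgHom (Fin m) 𝒪 (n + 1)) (algebraMap _ (Lam 𝒪 m) q)) = _
  rw [h1]
  rfl

theorem ev_surjective (h : ProFamily 𝒪 𝔫 F z) (n : ℕ) : Function.Surjective (h.ev n) := by
  intro x
  obtain ⟨p, rfl⟩ := Ideal.Quotient.mk_surjective x
  obtain ⟨q, hq⟩ := h.surj_theta (h.J_mem n) p
  refine ⟨incl 𝒪 m q, ?_⟩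
  rw [ev_coe, eq_comm, Ideal.Quotient.eq]
  exact hq

theorem aa_pow_map (n : ℕ) {q : MvPolynomial (Fin m) 𝒪}
    (hq : q ∈ (MvPolynomial.idealOfVars (Fin m) 𝒪) ^ n) :
    incl 𝒪 m q ∈ aa 𝒪 m ^ n := by
  have : ((MvPolynomial.idealOfVars (Fin m) 𝒪) ^ n).map (incl 𝒪 m) ≤
      aa 𝒪 m ^ n := by
    rw [Ideal.map_pow]
    refine Ideal.pow_right_mono ?_ n
    rw [MvPolynomial.idealOfVars, Ideal.map_span, Ideal.span_le]
    rintro _ ⟨_, ⟨i, rfl⟩, rfl⟩
    rw [incl_X]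
    exact Ideal.subset_span ⟨i, rfl⟩
  exact this (Ideal.mem_map_of_mem _ hq)

theorem ev_pow (h : ProFamily 𝒪 𝔫 F z) (n : ℕ) : aa 𝒪 m ^ (n + 1) ≤ RingHom.ker (h.ev n) := by
  have h1 : aa 𝒪 m ≤ (𝔫.map (Ideal.Quotient.mk (J 𝔫 F n))).comap (h.ev n) := by
    rw [Ideal.span_le]
    rintro _ ⟨i, rfl⟩
    rw [← incl_X, SetLike.mem_coe, Ideal.mem_comap, ev_coe, theta_X]
    exact Ideal.mem_map_of_mem _ (h.z_mem i)
  intro f hf
  have h2 := Ideal.pow_right_mono h1 (n + 1) hf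
  have h3 := Ideal.le_comap_pow (h.ev n) (n + 1) h2
  rw [Ideal.mem_comap, ← Ideal.map_pow, Ideal.map_mk_eq_bot_of_le (pow_le_J n)] at h3
  exact h3

theorem ev_compat (h : ProFamily 𝒪 𝔫 F z) {a b : ℕ} (hab : a ≤ b) (f : Lam 𝒪 m) :
    Ideal.Quotient.factor (h.J_anti hab) (h.ev b f) = h.ev a f := by
  rw [ev_apply, ev_apply, Ideal.Quotient.factor_mk, Ideal.Quotient.eq, ← map_sub]
  exact pow_le_J a (h.theta_mem (MvPowerSeries.truncTotal_sub_truncTotal_mem_pow_idealOfVars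
    (by omega) le_rfl f))

theorem ker_anti (h : ProFamily 𝒪 𝔫 F z) {a b : ℕ} (hab : a ≤ b) :
    RingHom.ker (h.ev b) ≤ RingHom.ker (h.ev a) := by
  intro f hf
  rw [RingHom.mem_ker] at hf ⊢
  rw [← h.ev_compat hab, hf, map_zero]

theorem ker_step (h : ProFamily 𝒪 𝔫 F z) (n : ℕ) {f : Lam 𝒪 m} (hf : f ∈ RingHom.ker (h.ev n)) :
    ∃ g ∈ RingHom.ker (h.ev (n + 1)), f - g ∈ aa 𝒪 m ^ (n + 1) := by
  set q := MvPowerSeries.truncTotal (n + 2) f with hq
  have h1 : h.ev (n + 1) f = Ideal.Quotient.mk _ (theta z q) := ev_apply h (n + 1) f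
  have h2 : theta z q ∈ J 𝔫 F n := by
    rw [← Ideal.Quotient.eq_zero_iff_mem,
      ← Ideal.Quotient.factor_mk (h.J_anti (Nat.le_succ n)) (theta z q), ← h1,
      h.ev_compat (Nat.le_succ n)]
    exact hf
  rw [h.J_succ] at h2
  obtain ⟨j, hj, p, hp, hjp⟩ := Submodule.mem_sup.mp h2
  obtain ⟨r, hr, hr'⟩ := h.approx (h.J_mem (n + 1)) (n + 1) p hp
  rw [sup_eq_right.mpr (pow_le_J (n + 1))] at hr'
  refine ⟨f - incl 𝒪 m r, ?_, ?_⟩
  · have e : h.ev (n + 1) (f - incl 𝒪 m r) = 0 := by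
      rw [map_sub, h1, ev_coe, ← map_sub, Ideal.Quotient.eq_zero_iff_mem, ← hjp, add_sub_assoc]
      exact Ideal.add_mem _ hj hr'
    exact e
  · rw [sub_sub_cancel]
    exact aa_pow_map _ hr

/-- the total kernel -/
noncomputable def kerAll (h : ProFamily 𝒪 𝔫 F z) : Ideal (Lam 𝒪 m) :=
  ⨅ n, RingHom.ker (h.ev n)

theorem mem_kerAll (h : ProFamily 𝒪 𝔫 F z) (f : Lam 𝒪 m) :
    f ∈ h.kerAll ↔ ∀ n, f ∈ RingHom.ker (h.ev n) := by
  simp [kerAll]

theorem ker_approx (h : ProFamily 𝒪 𝔫 F z) (n : ℕ) {f : Lam 𝒪 m}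
    (hf : f ∈ RingHom.ker (h.ev n)) :
    ∃ g ∈ h.kerAll, f - g ∈ aa 𝒪 m ^ (n + 1) := by
  classical
  -- build the sequence
  let S : ∀ i : ℕ, {g : Lam 𝒪 m // g ∈ RingHom.ker (h.ev (n + i))} := fun i =>
    Nat.rec (motive := fun i => {g : Lam 𝒪 m // g ∈ RingHom.ker (h.ev (n + i))}) ⟨f, hf⟩
      (fun i g => ⟨(h.ker_step (n + i) g.2).choose, (h.ker_step (n + i) g.2).choose_spec.1⟩) i
  have hS : ∀ i, (S i).1 - (S (i + 1)).1 ∈ aa 𝒪 m ^ (n + i + 1) := fun i =>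
    (h.ker_step (n + i) (S i).2).choose_spec.2
  have hS0 : (S 0).1 = f := rfl
  have hcau : ∀ a b, a ≤ b → (S a).1 - (S b).1 ∈ aa 𝒪 m ^ (n + a + 1) := by
    intro a b hab
    induction b, hab using Nat.le_induction with
    | base => simp
    | succ b hab ih =>
      have e : (S a).1 - (S (b + 1)).1 = ((S a).1 - (S b).1) + ((S b).1 - (S (b + 1)).1) := by ring
      rw [e]
      exact Ideal.add_mem _ ih (Ideal.pow_le_pow_right (by omega) (hS b))
  haveI : IsAdicComplete (aa 𝒪 m) (Lam 𝒪 m) := inferInstance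
  obtain ⟨L, hL⟩ := IsPrecomplete.prec (I := aa 𝒪 m) (M := Lam 𝒪 m) inferInstance
    (f := fun i => (S i).1) (by
      intro a b hab
      rw [SModEq.sub_mem, smul_eq_mul, Ideal.mul_top]
      exact Ideal.pow_le_pow_right (by omega) (hcau a b hab))
  have hL' : ∀ i, (S i).1 - L ∈ aa 𝒪 m ^ i := by
    intro i
    have := hL i
    rwa [SModEq.sub_mem, smul_eq_mul, Ideal.mul_top] at this
  refine ⟨L, ?_, ?_⟩
  · rw [mem_kerAll]
    intro i
    have h1 : (S (i + 1)).1 ∈ RingHom.ker (h.ev i) := h.ker_anti (by omega) (S (i + 1)).2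
    have h2 : (S (i + 1)).1 - L ∈ RingHom.ker (h.ev i) := h.ev_pow i (hL' (i + 1))
    have := Ideal.sub_mem _ h1 h2
    simpa using this
  · have e : f - L = ((S 0).1 - (S (n + 1)).1) + ((S (n + 1)).1 - L) := by rw [hS0]; ring
    rw [e]
    exact Ideal.add_mem _ (Ideal.pow_le_pow_right (by omega) (hcau 0 (n + 1) (Nat.zero_le _)))
      (hL' (n + 1))

/-- The limit ring. -/
abbrev Lim (h : ProFamily 𝒪 𝔫 F z) : Type := Lam 𝒪 m ⧸ h.kerAll

/-- the maximal ideal of the limit ring -/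
noncomputable def mm (h : ProFamily 𝒪 𝔫 F z) : Ideal h.Lim :=
  (aa 𝒪 m).map (Ideal.Quotient.mk h.kerAll)

/-- evaluation on the limit ring -/
noncomputable def evL (h : ProFamily 𝒪 𝔫 F z) (n : ℕ) : h.Lim →ₐ[𝒪] P ⧸ J 𝔫 F n :=
  Ideal.Quotient.liftₐ h.kerAll (h.ev n) (fun a ha => (h.mem_kerAll a).mp ha n)

theorem evL_mk (h : ProFamily 𝒪 𝔫 F z) (n : ℕ) (f : Lam 𝒪 m) :
    h.evL n (Ideal.Quotient.mk _ f) = h.ev n f := rfl

theorem evL_surjective (h : ProFamily 𝒪 𝔫 F z) (n : ℕ) : Function.Surjective (h.evL n) := by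
  intro x
  obtain ⟨f, hf⟩ := h.ev_surjective n x
  exact ⟨Ideal.Quotient.mk _ f, by rw [evL_mk, hf]⟩

theorem ker_evL (h : ProFamily 𝒪 𝔫 F z) (n : ℕ) : RingHom.ker (h.evL n) = h.mm ^ (n + 1) := by
  apply le_antisymm
  · intro x hx
    obtain ⟨f, rfl⟩ := Ideal.Quotient.mk_surjective x
    rw [RingHom.mem_ker, evL_mk] at hx
    obtain ⟨g, hg, hg'⟩ := h.ker_approx n (f := f) hx
    have e : Ideal.Quotient.mk h.kerAll f = Ideal.Quotient.mk h.kerAll (f - g) := by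
      rw [Ideal.Quotient.eq]; simpa using hg
    rw [e, mm, ← Ideal.map_pow]
    exact Ideal.mem_map_of_mem _ hg'
  · rw [mm, ← Ideal.map_pow, Ideal.map_le_iff_le_comap]
    intro f hf
    rw [Ideal.mem_comap, RingHom.mem_ker, evL_mk]
    exact h.ev_pow n hf

instance (h : ProFamily 𝒪 𝔫 F z) : IsNoetherianRing h.Lim := inferInstance

theorem mm_maximal (h : ProFamily 𝒪 𝔫 F z) : h.mm.IsMaximal := by
  have h1 : RingHom.ker (h.evL 0) = h.mm := by rw [ker_evL]; simp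
  haveI : (J 𝔫 F 0).IsMaximal := by rw [h.J_zero]; exact h.maximal
  letI : Field (P ⧸ J 𝔫 F 0) := Ideal.Quotient.field _
  rw [← h1]
  exact RingHom.ker_isMaximal_of_surjective _ (h.evL_surjective 0)

theorem adic (h : ProFamily 𝒪 𝔫 F z) : IsAdicComplete h.mm h.Lim where
  haus' := by
    intro x hx
    obtain ⟨f, rfl⟩ := Ideal.Quotient.mk_surjective x
    rw [Ideal.Quotient.eq_zero_iff_mem, mem_kerAll]
    intro n
    have := hx (n + 1)
    rw [SModEq.zero, smul_eq_mul, Ideal.mul_top, ← ker_evL, RingHom.mem_ker, evL_mk] at this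
    exact this
  prec' := by
    intro f hf
    have hf' : ∀ i, f i - f (i + 1) ∈ h.mm ^ i := by
      intro i
      have := hf (Nat.le_succ i)
      rwa [SModEq.sub_mem, smul_eq_mul, Ideal.mul_top] at this
    have lift : ∀ i (x : h.Lim), x ∈ h.mm ^ i → ∃ y ∈ aa 𝒪 m ^ i, Ideal.Quotient.mk h.kerAll y = x := by
      intro i x hx
      rw [mm, ← Ideal.map_pow, Ideal.mem_map_iff_of_surjective _ Ideal.Quotient.mk_surjective] at hx
      exact hx
    choose! u hu hu' using lift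
    obtain ⟨g0, hg0⟩ := Ideal.Quotient.mk_surjective (f 0)
    let g : ℕ → Lam 𝒪 m := fun i => g0 - ∑ j ∈ Finset.range i, u j (f j - f (j + 1))
    have hg : ∀ i, Ideal.Quotient.mk h.kerAll (g i) = f i := by
      intro i
      simp only [g, map_sub, map_sum, hg0]
      rw [Finset.sum_congr rfl (fun j _ => hu' j _ (hf' j)), Finset.sum_range_sub']
      ring
    have hgc : ∀ a b, a ≤ b → g a - g b ∈ aa 𝒪 m ^ a := by
      intro a b hab
      induction b, hab using Nat.le_induction with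
      | base => simp
      | succ b hab ih =>
        have e : g a - g (b + 1) = (g a - g b) + u b (f b - f (b + 1)) := by
          simp only [g, Finset.sum_range_succ]; ring
        rw [e]
        exact Ideal.add_mem _ ih (Ideal.pow_le_pow_right hab (hu b _ (hf' b)))
    obtain ⟨L, hL⟩ := IsPrecomplete.prec (I := aa 𝒪 m) (M := Lam 𝒪 m) inferInstance
      (f := g) (by
        intro a b hab
        rw [SModEq.sub_mem, smul_eq_mul, Ideal.mul_top]
        exact hgc a b hab)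
    refine ⟨Ideal.Quotient.mk _ L, fun n => ?_⟩
    have := hL n
    rw [SModEq.sub_mem, smul_eq_mul, Ideal.mul_top] at this ⊢
    rw [← hg n, ← map_sub, mm, ← Ideal.map_pow]
    exact Ideal.mem_map_of_mem _ this

theorem evL_compat (h : ProFamily 𝒪 𝔫 F z) {a b : ℕ} (hab : a ≤ b) (x : h.Lim) :
    Ideal.Quotient.factor (h.J_anti hab) (h.evL b x) = h.evL a x := by
  obtain ⟨f, rfl⟩ := Ideal.Quotient.mk_surjective x
  rw [evL_mk, evL_mk]
  exact h.ev_compat hab f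

/-- The main result: the limit of a `ProFamily`. -/
theorem exists_limit (h : ProFamily 𝒪 𝔫 F z) :
    ∃ (R : Type) (_ : CommRing R) (_ : IsLocalRing R) (_ : IsNoetherianRing R)
      (_ : IsAdicComplete (maximalIdeal R) R) (_ : Algebra 𝒪 R) (Φ : P →ₐ[𝒪] R),
      (∀ n, ∀ r : R, ∃ p, r - Φ p ∈ maximalIdeal R ^ (n + 1)) ∧
      (∀ n, (maximalIdeal R ^ (n + 1)).comap Φ = J 𝔫 F n) := by
  haveI := h.mm_maximal
  haveI := h.adic
  haveI hloc : IsLocalRing h.Lim := isLocalRing_of_isAdicComplete_maximal h.mm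
  have hmax : maximalIdeal h.Lim = h.mm := (IsLocalRing.eq_maximalIdeal h.mm_maximal).symm
  haveI hcomp : IsAdicComplete (maximalIdeal h.Lim) h.Lim := by rw [hmax]; exact h.adic
  -- equivalences
  let E : ∀ n, (h.Lim ⧸ h.mm ^ (n + 1)) ≃ₐ[𝒪] (P ⧸ J 𝔫 F n) := fun n =>
    (Ideal.quotientEquivAlgOfEq 𝒪 (h.ker_evL n).symm).trans
      (Ideal.quotientKerAlgEquivOfSurjective (h.evL_surjective n))
  have hE : ∀ n x, E n (Ideal.Quotient.mk _ x) = h.evL n x := fun n x => rfl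
  let f' : ∀ n, P →ₐ[𝒪] h.Lim ⧸ h.mm ^ (n + 1) := fun n =>
    ((E n).symm : (P ⧸ J 𝔫 F n) →ₐ[𝒪] (h.Lim ⧸ h.mm ^ (n + 1))).comp (Ideal.Quotient.mkₐ 𝒪 _)
  have hf' : ∀ n p, E n (f' n p) = Ideal.Quotient.mk _ p := fun n p => by
    simp [f']
  have hcompat : ∀ {a b : ℕ} (hab : a ≤ b) (p : P),
      Ideal.Quotient.factorₐ 𝒪 (Ideal.pow_le_pow_right (I := h.mm) (Nat.succ_le_succ hab)) (f' b p)
        = f' a p := by
    intro a b hab p
    obtain ⟨x, hx⟩ := Ideal.Quotient.mk_surjective (f' b p)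
    rw [← hx]
    apply (E a).injective
    have h1 : h.evL b x = Ideal.Quotient.mk _ p := by rw [← hE, hx, hf']
    have h2 : Ideal.Quotient.factorₐ 𝒪 (Ideal.pow_le_pow_right (I := h.mm) (Nat.succ_le_succ hab))
      (Ideal.Quotient.mk _ x) = Ideal.Quotient.mk _ x := rfl
    rw [h2, hE, hf', ← h.evL_compat hab, h1, Ideal.Quotient.factor_mk]
  let f : ∀ n, P →ₐ[𝒪] h.Lim ⧸ h.mm ^ n := fun n =>
    (Ideal.Quotient.factorₐ 𝒪 (Ideal.pow_le_pow_right (I := h.mm) (Nat.le_succ n))).comp (f' n)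
  have hff : ∀ {a b : ℕ} (hab : a ≤ b),
      (Ideal.Quotient.factorₐ 𝒪 (Ideal.pow_le_pow_right (I := h.mm) hab)).comp (f b) = f a := by
    intro a b hab
    refine AlgHom.ext fun p => ?_
    have h1 := hcompat hab p
    obtain ⟨x, hx⟩ := Ideal.Quotient.mk_surjective (f' b p)
    simp only [f, AlgHom.comp_apply]
    rw [← h1, ← hx]
    rfl
  let Φ : P →ₐ[𝒪] h.Lim := IsAdicComplete.liftAlgHom h.mm f hff
  have hΦ : ∀ n p, h.evL n (Φ p) = Ideal.Quotient.mk _ p := by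
    intro n p
    have h1 : Ideal.Quotient.mk (h.mm ^ (n + 1)) (Φ p) = f (n + 1) p :=
      IsAdicComplete.mk_liftAlgHom h.mm f hff (n + 1) p
    have h2 : f (n + 1) p = f' n p := hcompat (Nat.le_succ n) p
    rw [← hE, h1, h2, hf']
  refine ⟨h.Lim, inferInstance, hloc, inferInstance, hcomp, inferInstance, Φ, ?_, ?_⟩
  · intro n r
    obtain ⟨p, hp⟩ := Ideal.Quotient.mk_surjective (h.evL n r)
    refine ⟨p, ?_⟩
    rw [hmax, ← h.ker_evL, RingHom.mem_ker, map_sub, hΦ, hp, sub_self]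
  · intro n
    ext p
    rw [Ideal.mem_comap, hmax, ← h.ker_evL, RingHom.mem_ker, hΦ, Ideal.Quotient.eq_zero_iff_mem]

end ProFamily

end Fermat.Agent.DefRing
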